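/-
S55 / block LOC, sub-block LOC-F (the concrete henselian fields): DEFINITIONS.

Everything lives on the `GQ` side.  `plc q` is the Prelude's place of `ℚ̄` over `q`, `Dq q` its
decomposition group (= the image of the local Galois group, `Bridge/LocalImage.lean`).  For a
subgroup `H ≤ Dq q`, `kF H` is its fixed field and `oF q H = plc q ∩ kF H` its valuation ring.
`H` is *open* (`IsOp q H`) if it contains `Dq q ⊓ F.fixingSubgroup` for a number field `F`.
-/
import Fermat.Agent.S55.Arith.Defs
import Fermat.Prelude.Def_ExtEndgame_ProductionDatum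

set_option autoImplicit false

namespace Fermat.Agent.S55.Loc.Field

open scoped Pointwise

/-- The chosen place of `ℚ̄` over `q`. -/
noncomputable abbrev plc (q : Nat.Primes) : ValuationSubring Qb := ExtCitation.primeLocalPlace q

/-- Its decomposition group. -/
noncomputable abbrev Dq (q : Nat.Primes) : Subgroup GQ := (plc q).decompositionSubgroup ℚ

/-- The fixed field of a subgroup of `GQ`. -/
noncomputable abbrev kF (H : Subgroup GQ) : IntermediateField ℚ Qb := IntermediateField.fixedField H

theorem mem_kF {H : Subgroup GQ} {x : Qb} : x ∈ kF H ↔ ∀ h ∈ H, h x = x :=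
  ⟨fun hx h hh => hx ⟨h, hh⟩, fun hx h => hx h.1 h.2⟩

/-- The valuation ring `plc q ∩ kF H` of `kF H`. -/
noncomputable abbrev oF (q : Nat.Primes) (H : Subgroup GQ) : ValuationSubring (kF H) :=
  (plc q).comap (algebraMap (kF H) Qb)

theorem mem_oF {q : Nat.Primes} {H : Subgroup GQ} {x : kF H} : x ∈ oF q H ↔ (x : Qb) ∈ plc q :=
  Iff.rfl

/-- `H` is an open subgroup of the decomposition group `Dq q`. -/
class IsOp (q : Nat.Primes) (H : Subgroup GQ) : Prop where
  le : H ≤ Dq q
  exists_le : ∃ F : IntermediateField ℚ Qb, FiniteDimensional ℚ F ∧ Dq q ⊓ F.fixingSubgroup ≤ H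

/-- `U` is an open subgroup of the local Galois group (for the level system `lvlLoc q`). -/
def IsOpenSub (q : Nat.Primes) (U : Subgroup (Gv q)) : Prop := ∃ N ∈ (lvlLoc q).carrier, N ≤ U

/-- The image in `GQ` of a subgroup of the local Galois group. -/
noncomputable abbrev img (q : Nat.Primes) (U : Subgroup (Gv q)) : Subgroup GQ := U.map (ιv q)

/-! ### The tower `kF H ⊆ kF H'` for `H' ≤ H` -/

section tower

variable {H' H : Subgroup GQ}

theorem kF_le (h : H' ≤ H) : kF H ≤ kF H' := IntermediateField.fixedField_antitone h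

variable [hle : Fact (H' ≤ H)]

noncomputable instance (priority := 50) algK : Algebra (kF H) (kF H') :=
  (IntermediateField.inclusion (kF_le hle.out)).toRingHom.toAlgebra

theorem algebraMap_kF_coe (x : kF H) : ((algebraMap (kF H) (kF H') x : kF H') : Qb) = (x : Qb) := rfl

instance (priority := 50) towerK : IsScalarTower (kF H) (kF H') Qb := IsScalarTower.of_algebraMap_eq fun _ => rfl

variable (q : Nat.Primes)

noncomputable instance (priority := 50) algOK : Algebra (oF q H) (kF H') :=
  ((algebraMap (kF H) (kF H')).comp (algebraMap (oF q H) (kF H))).toAlgebra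

instance (priority := 50) towerOKK : IsScalarTower (oF q H) (kF H) (kF H') := IsScalarTower.of_algebraMap_eq fun _ => rfl

/-- The inclusion `oF q H → oF q H'`. -/
noncomputable def incO : oF q H →+* oF q H' where
  toFun x := ⟨algebraMap (kF H) (kF H') (x : kF H), x.2⟩
  map_one' := rfl
  map_mul' _ _ := rfl
  map_zero' := rfl
  map_add' _ _ := rfl

noncomputable instance (priority := 50) algO : Algebra (oF q H) (oF q H') := (incO q).toAlgebra

instance (priority := 50) towerOOK : IsScalarTower (oF q H) (oF q H') (kF H') :=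
  IsScalarTower.of_algebraMap_eq fun _ => rfl

end tower

/-! ### Invariant units and norms -/

/-- The units of `ℚ̄` fixed by `H`. -/
def fixH (H : Subgroup GQ) : Subgroup Qbˣ where
  carrier := {x | ∀ h ∈ H, h (x : Qb) = x}
  one_mem' h _ := by simp
  mul_mem' := by
    intro a b ha hb h hh
    simp only [Set.mem_ofPred_eq] at ha hb
    rw [Units.val_mul, map_mul, ha h hh, hb h hh]
  inv_mem' := by
    intro a ha h hh
    simp only [Set.mem_ofPred_eq] at ha
    rw [Units.val_inv_eq_inv_val, map_inv₀, ha h hh]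

theorem mem_fixH {H : Subgroup GQ} {x : Qbˣ} : x ∈ fixH H ↔ ∀ h ∈ H, h (x : Qb) = x := Iff.rfl

/-- The action of `g : GQ` on `ℚ̄ˣ` as a monoid homomorphism. -/
noncomputable def actU (g : GQ) : Qbˣ →* Qbˣ := Units.map (g : Qb →* Qb)

@[simp] theorem actU_coe (g : GQ) (b : Qbˣ) : ((actU g b : Qbˣ) : Qb) = g (b : Qb) := rfl

/-- The norm `b ↦ ∏_{c ∈ H/H'} c b` (meaningful on `fixH H'`, for `H' ≤ H` of finite index);
a finite product in the commutative monoid `Qbˣ →* Qbˣ`. -/
noncomputable def nm (H' H : Subgroup GQ) : Qbˣ →* Qbˣ :=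
  ∏ᶠ c : H ⧸ H'.subgroupOf H, actU ((c.out : H) : GQ)

/-- `x` is a unit of the place. -/
def IsU (q : Nat.Primes) (x : Qb) : Prop := (plc q).valuation x = 1

open scoped Classical in
/-- The `q`-adic order of an element of the shape `q ^ k * unit` (junk value `0` otherwise). -/
noncomputable def ordQ (q : Nat.Primes) (x : Qb) : ℤ :=
  if h : ∃ k : ℤ, IsU q (x / ((q : ℕ) : Qb) ^ k) then h.choose else 0

/-- `w_H(a) = ord_q (N_{kF H / kF (Dq q)} a)`. -/
noncomputable def wH (q : Nat.Primes) (H : Subgroup GQ) (a : Qbˣ) : ℤ :=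
  ordQ q ((nm H (Dq q) a : Qbˣ) : Qb)

/-- The residue degree of `kF H` over `ℚ`: `card (residue field) = q ^ fH`. -/
noncomputable def fH (q : Nat.Primes) (H : Subgroup GQ) : ℕ :=
  Nat.log (q : ℕ) (Nat.card (IsLocalRing.ResidueField (oF q H)))

instance factInfLeft (H K : Subgroup GQ) : Fact (H ⊓ K ≤ H) := ⟨inf_le_left⟩

instance factLeDq (q : Nat.Primes) (H : Subgroup GQ) [h : IsOp q H] : Fact (H ≤ Dq q) := ⟨h.le⟩

end Fermat.Agent.S55.Loc.Field
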