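/-
S55 / LOC-F, section `Base` (F1a, owner helper85): the decomposition field
`kF (Dq q) = ℚ̄ ∩ ℚ_q`, elementwise statements: `q` is a uniformizer, the residue field is `𝔽_q`,
API of `ordQ`.
-/
import Fermat.Agent.S55.Loc.Field.Defs
import Fermat.Agent.Lib.FrobeniusPadic

set_option autoImplicit false

namespace Fermat.Agent.S55.Loc.Field

open scoped Pointwise NNReal

variable {q : Nat.Primes}

/-! ### The `q`-adic norm on `ℚ̄` -/

/-- local `Fact` instance -/
private theorem base_fact (q : Nat.Primes) : Fact (q : ℕ).Prime := ⟨q.2⟩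

attribute [local instance] base_fact

/-- the `q`-adic norm on `ℚ̄` attached to the chosen place -/
private noncomputable def baseNorm (q : Nat.Primes) (x : Qb) : ℝ := ‖padicEmbedding (q : ℕ) x‖

private theorem baseNorm_mul (x y : Qb) : baseNorm q (x * y) = baseNorm q x * baseNorm q y := by
  unfold baseNorm
  rw [map_mul, norm_mul]

private theorem baseNorm_div (x y : Qb) : baseNorm q (x / y) = baseNorm q x / baseNorm q y := by
  unfold baseNorm
  rw [map_div₀, norm_div]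

private theorem baseNorm_zpow (x : Qb) (k : ℤ) : baseNorm q (x ^ k) = baseNorm q x ^ k := by
  unfold baseNorm
  rw [map_zpow₀, norm_zpow]

private theorem mem_plc_iff_baseNorm (x : Qb) : x ∈ plc q ↔ baseNorm q x ≤ 1 := by
  have h : x ∈ plc q ↔ ‖padicEmbedding (q : ℕ) x‖₊ ≤ 1 := mem_padicPlace_iff (q : ℕ)
  rw [h, ← NNReal.coe_le_coe]
  rfl

private theorem mem_nonunits_iff_baseNorm (x : Qb) :
    x ∈ (plc q).nonunits ↔ baseNorm q x < 1 := by
  have h : x ∈ (plc q).nonunits ↔ ‖padicEmbedding (q : ℕ) x‖₊ < 1 :=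
    Fermat.Agent.Lib.FrobeniusPadic.mem_nonunits_padicPlace_iff (q : ℕ) x
  rw [h, ← NNReal.coe_lt_coe]
  rfl

private theorem isU_iff_baseNorm (x : Qb) : IsU q x ↔ baseNorm q x = 1 := by
  unfold IsU
  constructor
  · intro h
    have h1 : x ∈ plc q := ((plc q).valuation_le_one_iff x).mp h.le
    have h2 : x ∉ (plc q).nonunits := fun h3 =>
      absurd ((plc q).mem_nonunits_iff.mp h3) (by rw [h]; exact lt_irrefl _)
    rw [mem_plc_iff_baseNorm] at h1
    rw [mem_nonunits_iff_baseNorm, not_lt] at h2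
    exact le_antisymm h1 h2
  · intro h
    have h1 : x ∈ plc q := (mem_plc_iff_baseNorm x).mpr h.le
    have h2 : x ∉ (plc q).nonunits := fun h3 =>
      absurd ((mem_nonunits_iff_baseNorm x).mp h3) (by rw [h]; exact lt_irrefl _)
    refine le_antisymm (((plc q).valuation_le_one_iff x).mpr h1) (not_lt.mp fun h3 => h2 ?_)
    exact (plc q).mem_nonunits_iff.mpr h3

private theorem baseNorm_of_eq {x : Qb} {z : ℚ_[(q : ℕ)]}
    (h : padicEmbedding (q : ℕ) x = algebraMap ℚ_[(q : ℕ)] (PadicAlgCl (q : ℕ)) z) :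
    baseNorm q x = ‖z‖ := by
  unfold baseNorm
  rw [h]
  exact PadicAlgCl.norm_extends (q : ℕ) z

private theorem baseNorm_natCast (n : ℕ) : baseNorm q (n : Qb) = ‖(n : ℚ_[(q : ℕ)])‖ :=
  baseNorm_of_eq (by rw [map_natCast, map_natCast])

private theorem baseNorm_q : baseNorm q ((q : ℕ) : Qb) = ((q : ℕ) : ℝ)⁻¹ := by
  rw [baseNorm_natCast, Padic.norm_p]

private theorem base_one_lt : (1 : ℝ) < ((q : ℕ) : ℝ) := by exact_mod_cast q.2.one_lt

/-- elements of the decomposition field lie in `ℚ_q` -/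
private theorem exists_padic_eq {x : Qb} (hx : x ∈ kF (Dq q)) :
    ∃ z : ℚ_[(q : ℕ)], padicEmbedding (q : ℕ) x = algebraMap ℚ_[(q : ℕ)] (PadicAlgCl (q : ℕ)) z := by
  have h : padicEmbedding (q : ℕ) x ∈
      Set.range (algebraMap ℚ_[(q : ℕ)] (PadicAlgCl (q : ℕ))) := by
    rw [InfiniteGalois.mem_range_algebraMap_iff_fixed]
    intro τ
    rw [← padicEmbedding_localGaloisToGlobal]
    congr 1
    exact mem_kF.mp hx _ (localGaloisToGlobal_mem_decompositionSubgroup (q : ℕ) τ)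
  obtain ⟨z, hz⟩ := h
  exact ⟨z, hz.symm⟩

/-! ### The statements -/

/-- `q` is a uniformizer of the decomposition field. -/
theorem exists_zpow_isU {x : Qb} (hx : x ∈ kF (Dq q)) (hx0 : x ≠ 0) :
    ∃ k : ℤ, IsU q (x / ((q : ℕ) : Qb) ^ k) := by
  obtain ⟨z, hz⟩ := exists_padic_eq hx
  have hz0 : z ≠ 0 := by
    rintro rfl
    rw [map_zero] at hz
    exact hx0 ((map_eq_zero _).mp hz)
  refine ⟨z.valuation, ?_⟩
  have hq0 : (((q : ℕ) : ℝ)) ≠ 0 := by linarith [base_one_lt (q := q)]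
  rw [isU_iff_baseNorm, baseNorm_div, baseNorm_zpow, baseNorm_q, baseNorm_of_eq hz,
    Padic.norm_eq_zpow_neg_valuation hz0, inv_zpow', div_self (zpow_ne_zero _ hq0)]

/-- The residue field of the decomposition field is `𝔽_q`. -/
theorem exists_nat_sub_mem_nonunits {x : Qb} (hx : x ∈ kF (Dq q)) (hxA : x ∈ plc q) :
    ∃ n : ℕ, x - (n : Qb) ∈ (plc q).nonunits := by
  obtain ⟨z, hz⟩ := exists_padic_eq hx
  rw [mem_plc_iff_baseNorm, baseNorm_of_eq hz] at hxA
  obtain ⟨n, -, hn⟩ := PadicInt.exists_mem_range (⟨z, hxA⟩ : ℤ_[(q : ℕ)])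
  refine ⟨n, ?_⟩
  rw [IsLocalRing.mem_maximalIdeal, PadicInt.mem_nonunits] at hn
  have h1 : padicEmbedding (q : ℕ) (x - (n : Qb)) =
      algebraMap ℚ_[(q : ℕ)] (PadicAlgCl (q : ℕ)) (z - (n : ℚ_[(q : ℕ)])) := by
    rw [map_sub, map_sub, hz, map_natCast, map_natCast]
  rw [mem_nonunits_iff_baseNorm, baseNorm_of_eq h1]
  exact hn

theorem natCast_mem_nonunits_iff (n : ℕ) : (n : Qb) ∈ (plc q).nonunits ↔ (q : ℕ) ∣ n := by
  rw [mem_nonunits_iff_baseNorm, baseNorm_natCast, Padic.norm_natCast_lt_one_iff]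

theorem isU_zpow_iff (k : ℤ) : IsU q (((q : ℕ) : Qb) ^ k) ↔ k = 0 := by
  rw [isU_iff_baseNorm, baseNorm_zpow, baseNorm_q, inv_zpow', ← zpow_zero ((q : ℕ) : ℝ)]
  constructor
  · intro h
    have := zpow_right_injective₀ (by linarith [base_one_lt (q := q)])
      (ne_of_gt (base_one_lt (q := q))) h
    omega
  · rintro rfl
    simp

theorem ordQ_spec {x : Qb} (hx : x ∈ kF (Dq q)) (hx0 : x ≠ 0) :
    IsU q (x / ((q : ℕ) : Qb) ^ ordQ q x) := by
  have h := exists_zpow_isU hx hx0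
  unfold ordQ
  rw [dif_pos h]
  exact h.choose_spec

theorem ordQ_eq_of_isU {x : Qb} {k : ℤ} (h : IsU q (x / ((q : ℕ) : Qb) ^ k)) : ordQ q x = k := by
  have hex : ∃ k : ℤ, IsU q (x / ((q : ℕ) : Qb) ^ k) := ⟨k, h⟩
  have h1 : IsU q (x / ((q : ℕ) : Qb) ^ ordQ q x) := by
    unfold ordQ
    rw [dif_pos hex]
    exact hex.choose_spec
  have hq0 : ((q : ℕ) : Qb) ≠ 0 := Nat.cast_ne_zero.2 q.2.ne_zero
  rw [isU_iff_baseNorm, baseNorm_div] at h h1
  have hN0 : baseNorm q x ≠ 0 := by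
    intro h0
    rw [h0, zero_div] at h
    exact zero_ne_one h
  have h2 : IsU q (((q : ℕ) : Qb) ^ (ordQ q x - k)) := by
    rw [isU_iff_baseNorm, zpow_sub₀ hq0, baseNorm_div]
    have ha : baseNorm q (((q : ℕ) : Qb) ^ k) = baseNorm q x := by
      have hk0 : baseNorm q (((q : ℕ) : Qb) ^ k) ≠ 0 := by
        intro h0
        rw [h0, div_zero] at h
        exact zero_ne_one h
      rw [div_eq_one_iff_eq hk0] at h
      exact h.symm
    have hb : baseNorm q (((q : ℕ) : Qb) ^ ordQ q x) = baseNorm q x := by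
      have hk0 : baseNorm q (((q : ℕ) : Qb) ^ ordQ q x) ≠ 0 := by
        intro h0
        rw [h0, div_zero] at h1
        exact zero_ne_one h1
      rw [div_eq_one_iff_eq hk0] at h1
      exact h1.symm
    rw [ha, hb, div_self hN0]
  have h3 := (isU_zpow_iff _).mp h2
  omega

theorem ordQ_eq_iff_valuation {x : Qb} (hx : x ∈ kF (Dq q)) (hx0 : x ≠ 0) (k : ℤ) :
    ordQ q x = k ↔ (plc q).valuation x = (plc q).valuation ((q : ℕ) : Qb) ^ k := by
  have hq0 : ((q : ℕ) : Qb) ≠ 0 := Nat.cast_ne_zero.2 q.2.ne_zero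
  have hv0 : (plc q).valuation ((q : ℕ) : Qb) ^ k ≠ 0 :=
    zpow_ne_zero _ ((Valuation.ne_zero_iff _).2 hq0)
  have key : IsU q (x / ((q : ℕ) : Qb) ^ k) ↔
      (plc q).valuation x = (plc q).valuation ((q : ℕ) : Qb) ^ k := by
    unfold IsU
    rw [map_div₀, map_zpow₀, div_eq_one_iff_eq hv0]
  rw [← key]
  constructor
  · rintro rfl
    exact ordQ_spec hx hx0
  · exact ordQ_eq_of_isU

theorem ordQ_mul {x y : Qb} (hx : x ∈ kF (Dq q)) (hx0 : x ≠ 0) (hy : y ∈ kF (Dq q)) (hy0 : y ≠ 0) :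
    ordQ q (x * y) = ordQ q x + ordQ q y := by
  have hq0 : ((q : ℕ) : Qb) ≠ 0 := Nat.cast_ne_zero.2 q.2.ne_zero
  apply ordQ_eq_of_isU
  have h1 := ordQ_spec hx hx0
  have h2 := ordQ_spec hy hy0
  rw [isU_iff_baseNorm] at h1 h2 ⊢
  have e : x * y / ((q : ℕ) : Qb) ^ (ordQ q x + ordQ q y) =
      (x / ((q : ℕ) : Qb) ^ ordQ q x) * (y / ((q : ℕ) : Qb) ^ ordQ q y) := by
    rw [zpow_add₀ hq0]
    field_simp
  rw [e, baseNorm_mul, h1, h2, one_mul]

end Fermat.Agent.S55.Loc.Field
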