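/-
S55 / LOC-F : section `Basic` (F0: the decomposition group and its open subgroups).
-/
import Fermat.Agent.S55.Loc.Field.Defs
import Fermat.Agent.S55.Bridge.LocalImage

set_option autoImplicit false
set_option linter.style.haveILetI false

namespace Fermat.Agent.S55.Loc.Field

open scoped Pointwise

variable (q : Nat.Primes)

theorem range_ιv : (ιv q).range = Dq q := by
  haveI : Fact (q : ℕ).Prime := ⟨q.2⟩
  exact Bridge.range_localGaloisToGlobal (q : ℕ)

theorem ιv_mem_Dq (γ : Gv q) : ιv q γ ∈ Dq q := by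
  rw [← range_ιv]
  exact ⟨γ, rfl⟩

theorem plc_liesOverPrime : (plc q).LiesOverPrime (q : ℕ) := by
  haveI : Fact (q : ℕ).Prime := ⟨q.2⟩
  exact Bridge.padicPlace_liesOverPrime (q : ℕ)

theorem q_mem_nonunits : ((q : ℕ) : Qb) ∈ (plc q).nonunits := plc_liesOverPrime q

theorem isClosed_Dq : IsClosed (Dq q : Set GQ) := by
  haveI : Fact (q : ℕ).Prime := ⟨q.2⟩
  haveI : IsGalois ℚ Qb := Fermat.Agent.Lib.Frobenius.isGalois_rat
  rw [← range_ιv]
  have h : (((ιv q).range : Subgroup GQ) : Set GQ) = Set.range (localGaloisToGlobal (q : ℕ)) := rfl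
  rw [h]
  exact (isCompact_range (Bridge.continuous_localGaloisToGlobal (q : ℕ))).isClosed

variable {q}

theorem valuation_apply {g : GQ} (hg : g ∈ Dq q) (x : Qb) :
    (plc q).valuation (g x) = (plc q).valuation x := by
  haveI : Algebra.IsAlgebraic ℚ Qb := AlgebraicClosure.isAlgebraic ℚ
  exact Fermat.Agent.S05.decomposition_valuation_eq (plc q) hg x

theorem apply_mem_plc_iff {g : GQ} (hg : g ∈ Dq q) (x : Qb) : g x ∈ plc q ↔ x ∈ plc q := by
  rw [← ValuationSubring.valuation_le_one_iff, ← ValuationSubring.valuation_le_one_iff,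
    valuation_apply hg]

theorem apply_mem_nonunits_iff {g : GQ} (hg : g ∈ Dq q) (x : Qb) :
    g x ∈ (plc q).nonunits ↔ x ∈ (plc q).nonunits := by
  rw [ValuationSubring.mem_nonunits_iff, ValuationSubring.mem_nonunits_iff, valuation_apply hg]

theorem isU_iff {x : Qb} : IsU q x ↔ x ≠ 0 ∧ x ∈ plc q ∧ x⁻¹ ∈ plc q := by
  unfold IsU
  constructor
  · intro h
    have hx : x ≠ 0 := by
      rintro rfl
      simp at h
    refine ⟨hx, ?_, ?_⟩
    · rw [← ValuationSubring.valuation_le_one_iff, h]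
    · rw [← ValuationSubring.valuation_le_one_iff, map_inv₀, h, inv_one]
  · rintro ⟨hx, h1, h2⟩
    rw [← ValuationSubring.valuation_le_one_iff] at h1 h2
    rw [map_inv₀] at h2
    have h0 : (plc q).valuation x ≠ 0 := (Valuation.ne_zero_iff _).2 hx
    refine le_antisymm h1 ?_
    exact (inv_le_one₀ (zero_lt_iff.2 h0)).1 h2

theorem isU_iff_not_mem_nonunits {x : Qb} : IsU q x ↔ x ∈ plc q ∧ x ∉ (plc q).nonunits := by
  unfold IsU
  rw [ValuationSubring.mem_nonunits_iff, ← ValuationSubring.valuation_le_one_iff, not_lt]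
  exact ⟨fun h => ⟨h.le, h.ge⟩, fun h => le_antisymm h.1 h.2⟩

theorem IsU.mul {x y : Qb} (hx : IsU q x) (hy : IsU q y) : IsU q (x * y) := by
  unfold IsU at *
  rw [map_mul, hx, hy, one_mul]

theorem IsU.inv {x : Qb} (hx : IsU q x) : IsU q x⁻¹ := by
  unfold IsU at *
  rw [map_inv₀, hx, inv_one]

theorem isU_one : IsU q 1 := by
  unfold IsU
  exact map_one _

theorem isU_apply_iff {g : GQ} (hg : g ∈ Dq q) (x : Qb) : IsU q (g x) ↔ IsU q x := by
  unfold IsU
  rw [valuation_apply hg]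

theorem mem_plc_of_isIntegral {x : Qb} (hx : IsIntegral (plc q) x) : x ∈ plc q := by
  obtain ⟨a, ha⟩ := IsIntegrallyClosed.algebraMap_eq_of_integral hx
  rw [← ha]
  exact a.2

theorem mem_plc_of_isIntegral_int {x : Qb} (hx : IsIntegral ℤ x) : x ∈ plc q :=
  Fermat.Agent.Lib.Frobenius.mem_valuationSubring_of_isIntegral (plc q) hx

instance isOp_Dq : IsOp q (Dq q) :=
  ⟨le_rfl, ⊥, (IntermediateField.isUnramifiedOutside_bot ∅).1, inf_le_left⟩

theorem IsOp.mono {H' H : Subgroup GQ} [h' : IsOp q H'] (h : H' ≤ H) (hH : H ≤ Dq q) :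
    IsOp q H := by
  obtain ⟨F, hF, hle⟩ := h'.exists_le
  exact ⟨hH, F, hF, hle.trans h⟩

theorem IsOp.inf_fixingSubgroup {H : Subgroup GQ} [hH : IsOp q H] (F : IntermediateField ℚ Qb)
    (hF : FiniteDimensional ℚ F) : IsOp q (H ⊓ F.fixingSubgroup) := by
  obtain ⟨F', hF', hle⟩ := hH.exists_le
  refine ⟨inf_le_left.trans hH.le, F' ⊔ F, IntermediateField.finiteDimensional_sup F' F, ?_⟩
  rw [IntermediateField.fixingSubgroup_sup]
  intro x hx
  exact ⟨hle ⟨hx.1, hx.2.1⟩, hx.2.2⟩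

instance IsOp.inf {H H' : Subgroup GQ} [hH : IsOp q H] [hH' : IsOp q H'] : IsOp q (H ⊓ H') := by
  obtain ⟨F, hF, hle⟩ := hH.exists_le
  obtain ⟨F', hF', hle'⟩ := hH'.exists_le
  refine ⟨inf_le_left.trans hH.le, F ⊔ F', IntermediateField.finiteDimensional_sup F F', ?_⟩
  rw [IntermediateField.fixingSubgroup_sup]
  intro x hx
  exact ⟨hle ⟨hx.1, hx.2.1⟩, hle' ⟨hx.1, hx.2.2⟩⟩

variable (q)

theorem IsOp.isClosed (H : Subgroup GQ) [hH : IsOp q H] : IsClosed (H : Set GQ) := by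
  obtain ⟨F, hF, hle⟩ := hH.exists_le
  have hF' : @FiniteDimensional ℚ F _ _ (IntermediateField.module' F) := by
    convert hF
  have hNo : IsOpen (F.fixingSubgroup : Set GQ) := IntermediateField.fixingSubgroup_isOpen F
  -- the saturation of `H` under right multiplication by `N`
  let S : Set GQ := {x | ∃ h ∈ H, h⁻¹ * x ∈ F.fixingSubgroup}
  have hS : IsClosed S := by
    rw [← isOpen_compl_iff, isOpen_iff_mem_nhds]
    intro g hg
    have hopen : IsOpen ((fun x : GQ => g⁻¹ * x) ⁻¹' (F.fixingSubgroup : Set GQ)) :=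
      hNo.preimage (continuous_const.mul continuous_id)
    refine Filter.mem_of_superset (hopen.mem_nhds ?_) ?_
    · change g⁻¹ * g ∈ F.fixingSubgroup
      rw [inv_mul_cancel]
      exact one_mem _
    · intro x hx hxS
      obtain ⟨h, hh, hhx⟩ := hxS
      apply hg
      refine ⟨h, hh, ?_⟩
      have hx' : g⁻¹ * x ∈ F.fixingSubgroup := hx
      have : h⁻¹ * g = (h⁻¹ * x) * (g⁻¹ * x)⁻¹ := by group
      rw [this]
      exact mul_mem hhx (inv_mem hx')
  have hEq : (H : Set GQ) = (Dq q : Set GQ) ∩ S := by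
    ext x
    constructor
    · intro hx
      refine ⟨hH.le hx, x, hx, ?_⟩
      rw [inv_mul_cancel]
      exact one_mem _
    · rintro ⟨hxD, h, hh, hhx⟩
      have h1 : h⁻¹ * x ∈ H := hle ⟨(Dq q).mul_mem ((Dq q).inv_mem (hH.le hh)) hxD, hhx⟩
      have : x = h * (h⁻¹ * x) := by group
      rw [this]
      exact mul_mem hh h1
  rw [hEq]
  exact (isClosed_Dq q).inter hS

theorem IsOp.fixingSubgroup_kF (H : Subgroup GQ) [IsOp q H] : (kF H).fixingSubgroup = H := by
  haveI : IsGalois ℚ Qb := Fermat.Agent.Lib.Frobenius.isGalois_rat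
  exact InfiniteGalois.fixingSubgroup_fixedField (⟨H, IsOp.isClosed q H⟩ : ClosedSubgroup GQ)

theorem IsOp.relIndex_ne_zero (H' H : Subgroup GQ) [hH' : IsOp q H'] (hH : H ≤ Dq q) :
    H'.relIndex H ≠ 0 := by
  obtain ⟨F, hF, hle⟩ := hH'.exists_le
  haveI := fixingSubgroup_finiteIndex F hF
  have h1 : F.fixingSubgroup.relIndex H ≠ 0 := by
    have : (F.fixingSubgroup.subgroupOf H).FiniteIndex := inferInstance
    exact this.index_ne_zero
  have h2 : F.fixingSubgroup.subgroupOf H ≤ H'.subgroupOf H := by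
    intro x hx
    exact hle ⟨hH x.2, hx⟩
  intro h0
  apply h1
  exact Nat.eq_zero_of_zero_dvd (h0 ▸ Subgroup.index_dvd_of_le h2)

theorem IsOp.finite_quotient (H' H : Subgroup GQ) [IsOp q H'] (hH : H ≤ Dq q) :
    Finite (H ⧸ H'.subgroupOf H) := by
  have h := IsOp.relIndex_ne_zero q H' H hH
  haveI : (H'.subgroupOf H).FiniteIndex := ⟨h⟩
  exact Subgroup.finite_quotient_of_finiteIndex

variable {q}

private theorem basic_ker_le {U : Subgroup (Gv q)} (hU : IsOpenSub q U) : (ιv q).ker ≤ U := by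
  obtain ⟨_, ⟨N, _, rfl⟩, hle⟩ := hU
  intro x hx
  apply hle
  change ιv q x ∈ N
  rw [MonoidHom.mem_ker.1 hx]
  exact one_mem _

theorem isOp_img {U : Subgroup (Gv q)} (hU : IsOpenSub q U) : IsOp q (img q U) := by
  obtain ⟨_, ⟨_, ⟨F, hF, _, rfl⟩, rfl⟩, hle⟩ := hU
  refine ⟨?_, F, hF, ?_⟩
  · rintro _ ⟨γ, _, rfl⟩
    exact ιv_mem_Dq q γ
  · rintro x ⟨hxD, hxF⟩
    rw [← range_ιv] at hxD
    obtain ⟨γ, rfl⟩ := hxD
    exact ⟨γ, hle hxF, rfl⟩

theorem comap_img {U : Subgroup (Gv q)} (hU : IsOpenSub q U) : (img q U).comap (ιv q) = U :=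
  Subgroup.comap_map_eq_self (basic_ker_le hU)

theorem relIndex_img {V : Subgroup (Gv q)} (hV : IsOpenSub q V) (U : Subgroup (Gv q)) :
    (img q V).relIndex (img q U) = V.relIndex U := by
  rw [← Subgroup.relIndex_comap, comap_img hV]

private theorem basic_exists_stable (F : IntermediateField ℚ Qb) (hF : FiniteDimensional ℚ F) :
    ∃ F' : IntermediateField ℚ Qb, FiniteDimensional ℚ F' ∧ IsStableField F' ∧ F ≤ F' := by
  have hF' : @FiniteDimensional ℚ F _ _ (IntermediateField.module' F) := by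
    convert hF
  haveI : IsGalois ℚ Qb := Fermat.Agent.Lib.Frobenius.isGalois_rat
  refine ⟨IntermediateField.normalClosure ℚ F Qb, ?_, ?_, F.le_normalClosure⟩
  · have : FiniteDimensional ℚ (IntermediateField.normalClosure ℚ F Qb) :=
      normalClosure.is_finiteDimensional ℚ F Qb
    convert this
  · intro g x hx
    have hn : Normal ℚ (IntermediateField.normalClosure ℚ F Qb) := normalClosure.normal ℚ F Qb
    have := (IntermediateField.normal_iff_forall_map_le'.1 hn) g
    exact this ⟨x, hx, rfl⟩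

theorem isOpenSub_comap (H : Subgroup GQ) [hH : IsOp q H] : IsOpenSub q (H.comap (ιv q)) := by
  obtain ⟨F, hF, hle⟩ := hH.exists_le
  obtain ⟨F', hF', hs, hFF'⟩ := basic_exists_stable F hF
  refine ⟨F'.fixingSubgroup.comap (ιv q), ⟨_, ⟨F', hF', hs, rfl⟩, rfl⟩, ?_⟩
  intro γ hγ
  exact hle ⟨ιv_mem_Dq q γ, IntermediateField.fixingSubgroup_antitone hFF' hγ⟩

theorem img_comap (H : Subgroup GQ) [hH : IsOp q H] : img q (H.comap (ιv q)) = H :=
  Subgroup.map_comap_eq_self (by rw [range_ιv]; exact hH.le)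

end Fermat.Agent.S55.Loc.Field
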