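/-
S55 / LOC-F : definitions for the unramified part (action on the roots of unity of order prime
to `q`, unramified characters).
-/
import Fermat.Agent.S55.Loc.Field.Defs

set_option autoImplicit false

namespace Fermat.Agent.S55.Loc.Field

/-- `g` acts on the roots of unity of order dividing `q ^ n - 1` as the `d`-th power of the
Frobenius. -/
def IsExp (q : Nat.Primes) (g : GQ) (n d : ℕ) : Prop :=
  ∀ ζ : Qb, ζ ^ ((q : ℕ) ^ n - 1) = 1 → g ζ = ζ ^ ((q : ℕ) ^ d)

/-- The subgroup of `GQ` fixing the roots of unity of order dividing `q ^ n - 1`. -/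
def fixMu (q : Nat.Primes) (n : ℕ) : Subgroup GQ where
  carrier := {g | ∀ ζ : Qb, ζ ^ ((q : ℕ) ^ n - 1) = 1 → g ζ = ζ}
  one_mem' _ _ := rfl
  mul_mem' := by
    intro a b ha hb ζ hζ
    show a (b ζ) = ζ
    rw [hb ζ hζ, ha ζ hζ]
  inv_mem' := by
    intro a ha ζ hζ
    show a.symm ζ = ζ
    rw [AlgEquiv.symm_apply_eq, ha ζ hζ]

theorem mem_fixMu {q : Nat.Primes} {n : ℕ} {g : GQ} :
    g ∈ fixMu q n ↔ ∀ ζ : Qb, ζ ^ ((q : ℕ) ^ n - 1) = 1 → g ζ = ζ := Iff.rfl

open scoped Classical in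
/-- A Frobenius exponent of `g` on `μ_{q^n-1}` (junk value `0`). -/
noncomputable def expo (q : Nat.Primes) (g : GQ) (n : ℕ) : ℕ :=
  if h : ∃ d, IsExp q g n d then h.choose else 0

/-- The unramified character with value `r` at the Frobenius, on the `GQ` side (meaningful on
`Dq q`). -/
noncomputable def chiG (q : Nat.Primes) (r : QZ) (g : GQ) : QZ := expo q g (addOrderOf r) • r

end Fermat.Agent.S55.Loc.Field
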