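/-
S55 / LOC-F, section `Hensel` (F2, task 1646, proofs by helper207): `oF q H` is henselian for every
`H ≤ Dq q`.
-/
import Fermat.Agent.S55.Loc.Field.Basic

set_option autoImplicit false

namespace Fermat.Agent.S55.Loc.Field

open scoped Pointwise

variable {q : Nat.Primes}

theorem mem_maximalIdeal_oF {H : Subgroup GQ} (x : oF q H) :
    x ∈ IsLocalRing.maximalIdeal (oF q H) ↔ (((x : kF H) : Qb)) ∈ (plc q).nonunits := by
  rw [← ValuationSubring.coe_mem_nonunits_iff, ValuationSubring.mem_nonunits_iff_or,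
    ValuationSubring.mem_nonunits_iff_or]
  have h1 : ((x : kF H) = 0) ↔ (((x : kF H) : Qb) = 0) := by
    constructor
    · intro h; rw [h]; rfl
    · intro h; exact Subtype.ext h
  have h2 : ((x : kF H)⁻¹ ∈ oF q H) ↔ (((x : kF H) : Qb))⁻¹ ∈ plc q := Iff.rfl
  rw [h1, h2]

/-- existence part of `existsUnique_root`. -/
private theorem Hensel.exists_root (f : Polynomial Qb) (hf : f.Monic)
    (hr : ∀ r : Qb, f.eval r = 0 → r ∈ plc q)
    (a₀ : Qb) (ha₀ : a₀ ∈ plc q) (h0 : f.eval a₀ ∈ (plc q).nonunits) :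
    ∃ a : Qb, f.eval a = 0 ∧ a - a₀ ∈ (plc q).nonunits := by
  by_contra hcon
  have hsplit : f.Splits := IsAlgClosed.splits f
  have hall : ∀ r ∈ f.roots, (plc q).valuation (a₀ - r) = 1 := by
    intro r hr'
    have hroot : f.eval r = 0 := (Polynomial.mem_roots hf.ne_zero).1 hr'
    have hmem : a₀ - r ∈ plc q := sub_mem ha₀ (hr r hroot)
    have hle : (plc q).valuation (a₀ - r) ≤ 1 := ((plc q).valuation_le_one_iff _).2 hmem
    refine le_antisymm hle (not_lt.1 fun hlt => hcon ⟨r, hroot, ?_⟩)
    rw [ValuationSubring.mem_nonunits_iff, ← neg_sub, Valuation.map_neg]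
    exact hlt
  rw [ValuationSubring.mem_nonunits_iff, hsplit.eval_eq_prod_roots_of_monic hf,
    map_multiset_prod, Multiset.map_map] at h0
  rw [Multiset.prod_eq_one] at h0
  · exact lt_irrefl _ h0
  · intro x hx
    obtain ⟨r, hr', rfl⟩ := Multiset.mem_map.1 hx
    exact hall r hr'

/-- elementwise Hensel in `ℚ̄`: a monic polynomial over `plc q` with a simple root `a₀` modulo the
maximal ideal has exactly one root congruent to `a₀`. -/
theorem existsUnique_root (f : Polynomial Qb) (hf : f.Monic) (hc : ∀ i, f.coeff i ∈ plc q)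
    (a₀ : Qb) (ha₀ : a₀ ∈ plc q) (h0 : f.eval a₀ ∈ (plc q).nonunits)
    (h1 : f.derivative.eval a₀ ∉ (plc q).nonunits) :
    ∃! a : Qb, f.eval a = 0 ∧ a - a₀ ∈ (plc q).nonunits := by
  -- lift `f` to the valuation ring
  have hlift : f ∈ Polynomial.lifts (algebraMap (plc q) Qb) := by
    rw [Polynomial.lifts_iff_coeff_lifts]
    intro n
    exact ⟨⟨f.coeff n, hc n⟩, rfl⟩
  obtain ⟨F, hFf, -, hF⟩ := Polynomial.lifts_and_degree_eq_and_monic hlift hf
  have heval : ∀ x : plc q, f.eval (x : Qb) = ((F.eval x : plc q) : Qb) := by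
    intro x
    rw [← hFf, Polynomial.eval_map]
    exact Polynomial.eval₂_at_apply (algebraMap (plc q) Qb) x
  have hderiv : ∀ x : plc q, f.derivative.eval (x : Qb) = ((F.derivative.eval x : plc q) : Qb) := by
    intro x
    rw [← hFf, Polynomial.derivative_map, Polynomial.eval_map]
    exact Polynomial.eval₂_at_apply (algebraMap (plc q) Qb) x
  have hr : ∀ r : Qb, f.eval r = 0 → r ∈ plc q := by
    intro r hr
    apply mem_plc_of_isIntegral
    refine ⟨F, hF, ?_⟩
    rw [← Polynomial.eval_map, hFf]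
    exact hr
  obtain ⟨a, ha, haa⟩ := Hensel.exists_root f hf hr a₀ ha₀ h0
  refine ⟨a, ⟨ha, haa⟩, ?_⟩
  rintro b ⟨hb, hba⟩
  by_contra hne
  -- work in the valuation ring
  let A : plc q := ⟨a, hr a ha⟩
  let B : plc q := ⟨b, hr b hb⟩
  let A₀ : plc q := ⟨a₀, ha₀⟩
  have hFA : F.eval A = 0 := Subtype.ext (by rw [← heval A]; exact ha)
  have hFB : F.eval B = 0 := Subtype.ext (by rw [← heval B]; exact hb)
  have hAm : A - A₀ ∈ IsLocalRing.maximalIdeal (plc q) :=
    ValuationSubring.coe_mem_nonunits_iff.1 haa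
  have hBm : B - A₀ ∈ IsLocalRing.maximalIdeal (plc q) :=
    ValuationSubring.coe_mem_nonunits_iff.1 hba
  have hBA : B - A ∈ IsLocalRing.maximalIdeal (plc q) := by
    have : B - A = (B - A₀) - (A - A₀) := by ring
    rw [this]
    exact sub_mem hBm hAm
  have hBA0 : B - A ≠ 0 := by
    intro h
    apply hne
    have := congrArg (fun x : plc q => (x : Qb)) (sub_eq_zero.1 h)
    exact this
  obtain ⟨k, hk⟩ := F.binomExpansion A (B - A)
  rw [add_sub_cancel, hFB, hFA, zero_add] at hk
  have h2 : (B - A) * (F.derivative.eval A + k * (B - A)) = 0 := by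
    rw [hk]; ring
  have h3 : F.derivative.eval A + k * (B - A) = 0 := (mul_eq_zero.1 h2).resolve_left hBA0
  have h4 : F.derivative.eval A ∈ IsLocalRing.maximalIdeal (plc q) := by
    have : F.derivative.eval A = -(k * (B - A)) := eq_neg_of_add_eq_zero_left h3
    rw [this]
    exact neg_mem (Ideal.mul_mem_left _ _ hBA)
  have h5 : F.derivative.eval A - F.derivative.eval A₀ ∈ IsLocalRing.maximalIdeal (plc q) :=
    Ideal.mem_of_dvd _ (Polynomial.sub_dvd_eval_sub A A₀ F.derivative) hAm
  have h6 : F.derivative.eval A₀ ∈ IsLocalRing.maximalIdeal (plc q) := by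
    have : F.derivative.eval A₀ =
        F.derivative.eval A - (F.derivative.eval A - F.derivative.eval A₀) := by ring
    rw [this]
    exact sub_mem h4 h5
  apply h1
  have h7 := hderiv A₀
  rw [show ((A₀ : plc q) : Qb) = a₀ from rfl] at h7
  rw [h7]
  exact ValuationSubring.coe_mem_nonunits_iff.2 h6

theorem henselianLocalRing_oF {H : Subgroup GQ} (hH : H ≤ Dq q) : HenselianLocalRing (oF q H) where
  is_henselian := by
    intro f hf a₀ h0 h1
    let φ : oF q H →+* Qb := (algebraMap (kF H) Qb).comp (algebraMap (oF q H) (kF H))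
    have hφ : ∀ x : oF q H, φ x = ((x : kF H) : Qb) := fun _ => rfl
    have hφinj : Function.Injective φ := by
      intro x y hxy
      exact Subtype.ext (Subtype.ext hxy)
    have hφmem : ∀ x : oF q H, φ x ∈ plc q := fun x => x.2
    have hφfix : ∀ h ∈ H, ∀ x : oF q H, h (φ x) = φ x := fun h hh x =>
      mem_kF.1 (x : kF H).2 h hh
    have heval : ∀ x : oF q H, (f.map φ).eval (φ x) = φ (f.eval x) := by
      intro x
      rw [Polynomial.eval_map]
      exact Polynomial.eval₂_at_apply φ x
    have hderiv : ∀ x : oF q H, (f.map φ).derivative.eval (φ x) = φ (f.derivative.eval x) := by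
      intro x
      rw [Polynomial.derivative_map, Polynomial.eval_map]
      exact Polynomial.eval₂_at_apply φ x
    obtain ⟨a, ⟨ha, haa⟩, huniq⟩ := existsUnique_root (q := q) (f.map φ) (hf.map φ)
      (by intro i; rw [Polynomial.coeff_map]; exact hφmem _) (φ a₀) (hφmem a₀)
      (by rw [heval]; exact (mem_maximalIdeal_oF _).1 h0)
      (by
        rw [hderiv]
        intro hmem
        exact ((IsLocalRing.mem_maximalIdeal _).1 ((mem_maximalIdeal_oF _).2 hmem)) h1)
    have hfix : ∀ h ∈ H, h a = a := by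
      intro h hh
      apply huniq
      constructor
      · have h2 : (h : Qb →+* Qb).comp φ = φ := RingHom.ext fun x => hφfix h hh x
        have h3 := Polynomial.hom_eval₂ f φ (h : Qb →+* Qb) a
        rw [h2, ← Polynomial.eval_map, ha, map_zero] at h3
        rw [Polynomial.eval_map]
        exact h3.symm
      · have h2 : h a - φ a₀ = h (a - φ a₀) := by rw [map_sub, hφfix h hh]
        rw [h2]
        exact (apply_mem_nonunits_iff (hH hh) _).2 haa
    have hamem : a ∈ plc q := by
      have h2 : a = (a - φ a₀) + φ a₀ := by ring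
      rw [h2]
      exact add_mem ((plc q).nonunits_subset haa) (hφmem a₀)
    let â : oF q H := ⟨⟨a, mem_kF.2 hfix⟩, hamem⟩
    have hâ : φ â = a := rfl
    refine ⟨â, ?_, ?_⟩
    · apply hφinj
      rw [← heval, hâ, ha, map_zero]
    · rw [mem_maximalIdeal_oF]
      exact haa

instance henselian_oF {H : Subgroup GQ} [IsOp q H] : HenselianLocalRing (oF q H) :=
  henselianLocalRing_oF IsOp.le

end Fermat.Agent.S55.Loc.Field
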