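/-
S55 / LOC-F : section `Teich` (F5a: roots of unity of order prime to `q` and residues).
Proofs: helper195.
-/
import Fermat.Agent.S55.Loc.Field.ExpDefs
import Fermat.Agent.S55.Loc.Field.Base
import Fermat.Agent.S55.Loc.Field.Basic
import Fermat.Agent.S55.Loc.Field.Hensel

set_option autoImplicit false

namespace Fermat.Agent.S55.Loc.Field

variable {q : Nat.Primes}

theorem isU_of_pow_eq_one {m : ℕ} (hm : 0 < m) {ζ : Qb} (h : ζ ^ m = 1) : IsU q ζ := by
  unfold IsU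
  have h1 : (plc q).valuation ζ ^ m = 1 := by rw [← map_pow, h, map_one]
  exact (pow_eq_one_iff_of_nonneg zero_le hm.ne').1 h1

private theorem Teich.pos {n : ℕ} (hn : 0 < n) : 0 < (q : ℕ) ^ n - 1 := by
  have h1 : 1 < (q : ℕ) ^ n := Nat.one_lt_pow hn.ne' q.2.one_lt
  omega

theorem isU_natCast_pow_sub_one {n : ℕ} (hn : 0 < n) : IsU q ((((q : ℕ) ^ n - 1 : ℕ) : Qb)) := by
  rw [isU_iff_not_mem_nonunits]
  refine ⟨natCast_mem _ _, ?_⟩
  rw [natCast_mem_nonunits_iff]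
  intro hd
  have h1 : (q : ℕ) ∣ (q : ℕ) ^ n := dvd_pow_self _ hn.ne'
  have h2 : (q : ℕ) ^ n - 1 + 1 = (q : ℕ) ^ n := by
    have := Teich.pos (q := q) hn
    omega
  rw [← h2] at h1
  exact q.2.one_lt.ne' (Nat.dvd_one.1 ((Nat.dvd_add_right hd).1 h1))

private theorem Teich.isU_pow {x : Qb} (hx : IsU q x) (m : ℕ) : IsU q (x ^ m) := by
  unfold IsU at *
  rw [map_pow, hx, one_pow]

/-- the polynomial `X ^ m - 1` satisfies the hypotheses of Hensel's lemma at a unit. -/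
private theorem Teich.hensel {n : ℕ} (hn : 0 < n) {a₀ : Qb} (ha₀ : IsU q a₀)
    (h0 : a₀ ^ ((q : ℕ) ^ n - 1) - 1 ∈ (plc q).nonunits) :
    ∃! a : Qb, a ^ ((q : ℕ) ^ n - 1) = 1 ∧ a - a₀ ∈ (plc q).nonunits := by
  have hm := Teich.pos (q := q) hn
  have key := existsUnique_root (q := q)
    (Polynomial.X ^ ((q : ℕ) ^ n - 1) - Polynomial.C (1 : Qb))
    (Polynomial.monic_X_pow_sub_C 1 hm.ne')
    (by
      intro i
      rw [Polynomial.coeff_sub, Polynomial.coeff_X_pow, Polynomial.coeff_C]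
      split_ifs
      · exact sub_mem (one_mem _) (one_mem _)
      · exact sub_mem (one_mem _) (zero_mem _)
      · exact sub_mem (zero_mem _) (one_mem _)
      · exact sub_mem (zero_mem _) (zero_mem _))
    a₀ (isU_iff_not_mem_nonunits.1 ha₀).1
    (by simpa using h0)
    (by
      have h1 : (Polynomial.derivative
          (Polynomial.X ^ ((q : ℕ) ^ n - 1) - Polynomial.C (1 : Qb))).eval a₀ =
          (((q : ℕ) ^ n - 1 : ℕ) : Qb) * a₀ ^ ((q : ℕ) ^ n - 1 - 1) := by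
        rw [Polynomial.derivative_sub, Polynomial.derivative_C, sub_zero,
          Polynomial.derivative_X_pow, Polynomial.eval_mul, Polynomial.eval_pow,
          Polynomial.eval_X, Polynomial.eval_C]
      rw [h1]
      exact (isU_iff_not_mem_nonunits.1
        ((isU_natCast_pow_sub_one hn).mul (Teich.isU_pow ha₀ _))).2)
  simpa [sub_eq_zero] using key

/-- reduction is injective on `μ_{q^n-1}`. -/
theorem eq_of_sub_mem_nonunits {n : ℕ} (hn : 0 < n) {ζ ζ' : Qb} (h : ζ ^ ((q : ℕ) ^ n - 1) = 1)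
    (h' : ζ' ^ ((q : ℕ) ^ n - 1) = 1) (hs : ζ - ζ' ∈ (plc q).nonunits) : ζ = ζ' := by
  have hu := Teich.hensel (q := q) hn (isU_of_pow_eq_one (Teich.pos hn) h')
    (by rw [h', sub_self]; exact zero_mem _)
  exact hu.unique ⟨h, hs⟩ ⟨h', by rw [sub_self]; exact zero_mem _⟩

/-- the Teichmüller lift. -/
theorem exists_teich {n : ℕ} (hn : 0 < n) {x : Qb} (hx : x ∈ plc q)
    (hxn : x ^ ((q : ℕ) ^ n - 1) - 1 ∈ (plc q).nonunits) :
    ∃ ζ : Qb, ζ ^ ((q : ℕ) ^ n - 1) = 1 ∧ x - ζ ∈ (plc q).nonunits := by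
  have hxU : IsU q x := by
    rw [isU_iff_not_mem_nonunits]
    refine ⟨hx, fun hxm => ?_⟩
    -- then `x ^ m` and hence `1` would be a nonunit
    have hm := Teich.pos (q := q) hn
    have h1 : x ^ ((q : ℕ) ^ n - 1) ∈ (plc q).nonunits := by
      obtain ⟨k, hk⟩ := Nat.exists_eq_succ_of_ne_zero hm.ne'
      rw [hk, pow_succ]
      rw [ValuationSubring.mem_nonunits_iff] at hxm ⊢
      rw [map_mul]
      have h2 : (plc q).valuation (x ^ k) ≤ 1 :=
        ((plc q).valuation_le_one_iff _).2 (pow_mem hx k)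
      exact lt_of_le_of_lt (mul_le_of_le_one_left' h2) hxm
    have h3 : (1 : Qb) ∈ (plc q).nonunits := by
      have := sub_mem h1 hxn
      rwa [sub_sub_cancel] at this
    rw [ValuationSubring.mem_nonunits_iff, map_one] at h3
    exact lt_irrefl _ h3
  obtain ⟨ζ, ⟨hζ, hζx⟩, -⟩ := Teich.hensel (q := q) hn hxU hxn
  refine ⟨ζ, hζ, ?_⟩
  have := neg_mem hζx
  rwa [neg_sub] at this

theorem exists_isPrimitiveRoot {n : ℕ} (hn : 0 < n) :
    ∃ ζ : Qb, IsPrimitiveRoot ζ ((q : ℕ) ^ n - 1) := by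
  have : NeZero ((((q : ℕ) ^ n - 1 : ℕ)) : Qb) := ⟨Nat.cast_ne_zero.2 (Teich.pos hn).ne'⟩
  exact HasEnoughRootsOfUnity.exists_primitiveRoot Qb _

/-- the residue field of `plc q` has prime field `𝔽_q`: the solutions of `x ^ q ≡ x` are the
integers. -/
theorem exists_nat_of_pow_sub_mem {x : Qb} (hx : x ∈ plc q)
    (h : x ^ (q : ℕ) - x ∈ (plc q).nonunits) : ∃ k : ℕ, x - (k : Qb) ∈ (plc q).nonunits := by
  have : Fact (q : ℕ).Prime := ⟨q.2⟩
  have hchar : CharP (IsLocalRing.ResidueField (plc q)) (q : ℕ) := by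
    rw [CharP.charP_iff_prime_eq_zero q.2, ← map_natCast (IsLocalRing.residue (plc q)),
      IsLocalRing.residue_eq_zero_iff, ← ValuationSubring.coe_mem_nonunits_iff]
    exact q_mem_nonunits q
  have h1 : IsLocalRing.residue (plc q) ⟨x, hx⟩ ^ (q : ℕ) = IsLocalRing.residue (plc q) ⟨x, hx⟩ := by
    rw [← sub_eq_zero, ← map_pow, ← map_sub, IsLocalRing.residue_eq_zero_iff,
      ← ValuationSubring.coe_mem_nonunits_iff]
    exact h
  rw [← Subfield.mem_bot_iff_pow_eq_self, ← ZMod.fieldRange_castHom_eq_bot (q : ℕ)] at h1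
  obtain ⟨a, ha⟩ := h1
  refine ⟨a.val, ?_⟩
  have h2 : IsLocalRing.residue (plc q) (⟨x, hx⟩ - (a.val : plc q)) = 0 := by
    rw [map_sub, map_natCast, ← ha, sub_eq_zero]
    conv_lhs => rw [← ZMod.natCast_zmod_val a, map_natCast]
  rw [IsLocalRing.residue_eq_zero_iff, ← ValuationSubring.coe_mem_nonunits_iff] at h2
  exact h2

theorem pow_sub_pow_mem_nonunits {x y : Qb} (hx : x ∈ plc q) (hy : y ∈ plc q)
    (h : x - y ∈ (plc q).nonunits) (m : ℕ) : x ^ m - y ^ m ∈ (plc q).nonunits := by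
  have hmul : ∀ a b : Qb, a ∈ plc q → b ∈ (plc q).nonunits → a * b ∈ (plc q).nonunits := by
    intro a b ha hb
    rw [ValuationSubring.mem_nonunits_iff] at hb ⊢
    rw [map_mul]
    exact lt_of_le_of_lt (mul_le_of_le_one_left' (((plc q).valuation_le_one_iff _).2 ha)) hb
  induction m with
  | zero => simp
  | succ m ih =>
    have e : x ^ (m + 1) - y ^ (m + 1) = x ^ m * (x - y) + y * (x ^ m - y ^ m) := by ring
    rw [e]
    exact add_mem (hmul _ _ (pow_mem hx m) h) (hmul _ _ hy ih)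

end Fermat.Agent.S55.Loc.Field
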