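/-
S55 / LOC-F : section `Exp` (F5b: the decomposition group acts on `μ_{q^n-1}` through
powers of the Frobenius).  Task LOC-F-Exp (helper264).
-/
import Fermat.Agent.S55.Loc.Field.Teich
import Fermat.Agent.Lib.FrobeniusPadic
import Fermat.Agent.Lib.WeakChebotarev.Qbar

set_option autoImplicit false

namespace Fermat.Agent.S55.Loc.Field

variable {q : Nat.Primes}

theorem isExp_zero_iff {g : GQ} {n : ℕ} : IsExp q g n 0 ↔ g ∈ fixMu q n := by
  simp only [IsExp, mem_fixMu, pow_zero, pow_one]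

private theorem exp_pos {n : ℕ} (hn : 0 < n) : 0 < (q : ℕ) ^ n - 1 := by
  have h1 : 1 < (q : ℕ) ^ n := Nat.one_lt_pow hn.ne' q.2.one_lt
  omega

private theorem exp_mem_plc {n : ℕ} (hn : 0 < n) {ζ : Qb} (h : ζ ^ ((q : ℕ) ^ n - 1) = 1) :
    ζ ∈ plc q :=
  (isU_iff.mp (isU_of_pow_eq_one (q := q) (exp_pos hn) h)).2.1

/-- `ζ ^ (q ^ n) = ζ` on `μ_{q^n-1}`. -/
private theorem exp_pow_pow {n : ℕ} {ζ : Qb} (h : ζ ^ ((q : ℕ) ^ n - 1) = 1) :
    ζ ^ ((q : ℕ) ^ n) = ζ := by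
  have h1 : 1 ≤ (q : ℕ) ^ n := Nat.one_le_pow _ _ q.2.pos
  calc ζ ^ ((q : ℕ) ^ n) = ζ ^ (((q : ℕ) ^ n - 1) + 1) := by rw [Nat.sub_add_cancel h1]
    _ = ζ := by rw [pow_succ, h, one_mul]

/-- a Frobenius element. -/
theorem exists_frob (q : Nat.Primes) : ∃ φ ∈ Dq q, (∀ x ∈ plc q, φ x - x ^ (q : ℕ) ∈ (plc q).nonunits) ∧
    ∀ n, 0 < n → IsExp q φ n 1 := by
  have : Fact (q : ℕ).Prime := ⟨q.2⟩
  obtain ⟨φ, hφ⟩ := Fermat.Agent.Lib.FrobeniusPadic.exists_isFrobeniusAt_padicPlace (q : ℕ)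
  have hφ' : (plc q).IsFrobeniusAt φ q := hφ
  have h1 : ∀ x ∈ plc q, φ x - x ^ (q : ℕ) ∈ (plc q).nonunits := fun x hx =>
    Fermat.Agent.Lib.WeakChebotarev.Transfer.sub_pow_mem_nonunits_of_isFrobeniusAt hφ' hx
  refine ⟨φ, hφ'.mem_decompositionSubgroup, h1, fun n hn ζ hζ => ?_⟩
  rw [pow_one]
  apply eq_of_sub_mem_nonunits (q := q) hn
  · rw [← map_pow, hζ, map_one]
  · rw [← pow_mul, mul_comm, pow_mul, hζ, one_pow]
  · exact h1 ζ (exp_mem_plc hn hζ)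

private theorem exp_nu_add {x y : Qb} (hx : x ∈ (plc q).nonunits) (hy : y ∈ (plc q).nonunits) :
    x + y ∈ (plc q).nonunits := by
  rw [ValuationSubring.mem_nonunits_iff] at hx hy ⊢
  exact lt_of_le_of_lt ((plc q).valuation.map_add _ _) (max_lt hx hy)

private theorem exp_nu_neg {x : Qb} (hx : x ∈ (plc q).nonunits) : -x ∈ (plc q).nonunits := by
  rw [ValuationSubring.mem_nonunits_iff] at hx ⊢
  rwa [Valuation.map_neg]

private theorem exp_nu_mul {x y : Qb} (hx : x ∈ (plc q).nonunits) (hy : y ∈ plc q) :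
    x * y ∈ (plc q).nonunits := by
  rw [ValuationSubring.mem_nonunits_iff] at hx ⊢
  rw [map_mul]
  exact lt_of_le_of_lt (mul_le_of_le_one_right' ((plc q).valuation_le_one_iff _ |>.mpr hy)) hx

private theorem exp_nu_sum {ι : Type*} (s : Finset ι) (f : ι → Qb)
    (h : ∀ i ∈ s, f i ∈ (plc q).nonunits) : ∑ i ∈ s, f i ∈ (plc q).nonunits := by
  classical
  induction s using Finset.induction_on with
  | empty =>
    rw [Finset.sum_empty, ValuationSubring.mem_nonunits_iff, map_zero]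
    exact zero_lt_one
  | insert a s ha ih =>
    rw [Finset.sum_insert ha]
    exact exp_nu_add (h a (Finset.mem_insert_self a s))
      (ih fun i hi => h i (Finset.mem_insert_of_mem hi))

private theorem exp_exists_of_prod {ι : Type*} (s : Finset ι) (f : ι → Qb)
    (hf : ∀ i ∈ s, f i ∈ plc q) (h : ∏ i ∈ s, f i ∈ (plc q).nonunits) :
    ∃ i ∈ s, f i ∈ (plc q).nonunits := by
  by_contra hcon
  push Not at hcon
  rw [ValuationSubring.mem_nonunits_iff, map_prod] at h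
  have h1 : ∏ i ∈ s, (plc q).valuation (f i) = 1 := by
    refine Finset.prod_eq_one fun i hi => ?_
    have h2 := hcon i hi
    rw [ValuationSubring.mem_nonunits_iff, not_lt] at h2
    exact le_antisymm ((plc q).valuation_le_one_iff _ |>.mpr (hf i hi)) h2
  rw [h1] at h
  exact lt_irrefl _ h

open Polynomial in
theorem exists_isExp {g : GQ} (hg : g ∈ Dq q) {n : ℕ} (hn : 0 < n) : ∃ d, IsExp q g n d := by
  classical
  obtain ⟨ζ, hζ⟩ := exists_isPrimitiveRoot (q := q) hn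
  obtain ⟨φ, hφD, hφ, hφE⟩ := exists_frob q
  have hζ1 := hζ.pow_eq_one
  set r : ℕ → Qb := fun i => ζ ^ ((q : ℕ) ^ i) with hr
  have hr1 : ∀ i, (r i) ^ ((q : ℕ) ^ n - 1) = 1 := by
    intro i
    rw [hr]
    show (ζ ^ ((q : ℕ) ^ i)) ^ ((q : ℕ) ^ n - 1) = 1
    rw [← pow_mul, mul_comm, pow_mul, hζ1, one_pow]
  have hrA : ∀ i, r i ∈ plc q := fun i => exp_mem_plc hn (hr1 i)
  have hr0 : r 0 = ζ := by simp [hr]
  set PA : Polynomial (plc q) := ∏ i ∈ Finset.range n, (X - C ⟨r i, hrA i⟩) with hPAdef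
  set P : Polynomial Qb := ∏ i ∈ Finset.range n, (X - C (r i)) with hPdef
  have hPA : PA.map (plc q).subtype = P := by
    rw [hPAdef, hPdef, Polynomial.map_prod]
    refine Finset.prod_congr rfl fun i _ => ?_
    rw [Polynomial.map_sub, map_X, map_C]
    rfl
  have hcA : ∀ j, P.coeff j ∈ plc q := by
    intro j
    rw [← hPA, coeff_map]
    exact (PA.coeff j).2
  have hφr : ∀ i, φ (r i) = r (i + 1) := by
    intro i
    rw [hφE n hn (r i) (hr1 i), pow_one]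
    show (ζ ^ ((q : ℕ) ^ i)) ^ (q : ℕ) = ζ ^ ((q : ℕ) ^ (i + 1))
    rw [← pow_mul, ← pow_succ]
  have hrn : r n = r 0 := by
    rw [hr0]
    exact exp_pow_pow hζ1
  have hφP : P.map (φ : Qb →+* Qb) = P := by
    have h1 : P.map (φ : Qb →+* Qb) = ∏ i ∈ Finset.range n, (X - C (r (i + 1))) := by
      rw [hPdef, Polynomial.map_prod]
      refine Finset.prod_congr rfl fun i _ => ?_
      rw [Polynomial.map_sub, map_X, map_C]
      congr 2
      exact hφr i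
    have h2 : (∏ i ∈ Finset.range n, (X - C (r (i + 1)))) * (X - C (r 0))
        = P * (X - C (r n)) := by
      rw [← Finset.prod_range_succ' (fun i => (X - C (r i) : Polynomial Qb)),
        Finset.prod_range_succ]
    rw [hrn] at h2
    rw [h1]
    exact mul_right_cancel₀ (X_sub_C_ne_zero _) h2
  have hφc : ∀ j, φ (P.coeff j) = P.coeff j := by
    intro j
    conv_rhs => rw [← hφP, coeff_map]
    rfl
  have hgc : ∀ j, P.coeff j - g (P.coeff j) ∈ (plc q).nonunits := by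
    intro j
    have h1 : (P.coeff j) ^ (q : ℕ) - P.coeff j ∈ (plc q).nonunits := by
      have h2 := exp_nu_neg (hφ _ (hcA j))
      rwa [hφc, neg_sub] at h2
    obtain ⟨k, hk⟩ := exists_nat_of_pow_sub_mem (hcA j) h1
    have h2 : g (P.coeff j - k) ∈ (plc q).nonunits := (apply_mem_nonunits_iff hg _).mpr hk
    have h3 : P.coeff j - g (P.coeff j) = (P.coeff j - k) + -(g (P.coeff j - k)) := by
      rw [map_sub, map_natCast]; ring
    rw [h3]
    exact exp_nu_add hk (exp_nu_neg h2)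
  have hζA : ζ ∈ plc q := hr0 ▸ hrA 0
  have hyA : g ζ ∈ plc q := (apply_mem_plc_iff hg _).mpr hζA
  have h0 : P.eval ζ = 0 := by
    rw [hPdef, eval_prod]
    refine Finset.prod_eq_zero (Finset.mem_range.mpr hn) ?_
    rw [hr0, eval_sub, eval_X, eval_C, sub_self]
  have h1 : (P.map (g : Qb →+* Qb)).eval (g ζ) = 0 := by
    rw [eval_map]
    have := Polynomial.eval₂_at_apply (p := P) (g : Qb →+* Qb) ζ
    rw [h0, map_zero] at this
    exact this
  have h2 : P.eval (g ζ) ∈ (plc q).nonunits := by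
    have h3 : P.eval (g ζ) = P.eval (g ζ) - (P.map (g : Qb →+* Qb)).eval (g ζ) := by
      rw [h1, sub_zero]
    rw [h3, eval_eq_sum_range, eval_eq_sum_range,
      natDegree_map_eq_of_injective (g : Qb →+* Qb).injective, ← Finset.sum_sub_distrib]
    refine exp_nu_sum _ _ fun j _ => ?_
    rw [coeff_map, ← sub_mul]
    exact exp_nu_mul (hgc j) (pow_mem hyA j)
  rw [hPdef, eval_prod] at h2
  obtain ⟨i, -, hi⟩ := exp_exists_of_prod _ _ (fun i _ => by
    rw [eval_sub, eval_X, eval_C]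
    exact sub_mem hyA (hrA i)) h2
  rw [eval_sub, eval_X, eval_C] at hi
  have hgζ : g ζ = r i :=
    eq_of_sub_mem_nonunits (q := q) hn (by rw [← map_pow, hζ1, map_one]) (hr1 i) hi
  refine ⟨i, fun ξ hξ => ?_⟩
  have : NeZero ((q : ℕ) ^ n - 1) := ⟨(exp_pos hn).ne'⟩
  obtain ⟨k, -, rfl⟩ := hζ.eq_pow_of_pow_eq_one hξ
  rw [map_pow, hgζ]
  show (ζ ^ ((q : ℕ) ^ i)) ^ k = (ζ ^ k) ^ ((q : ℕ) ^ i)
  rw [← pow_mul, ← pow_mul, mul_comm]

/-- `ζ ^ (q ^ (d + k n)) = ζ ^ (q ^ d)` on `μ_{q^n-1}`. -/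
private theorem exp_pow_add_mul {n : ℕ} {ζ : Qb} (h : ζ ^ ((q : ℕ) ^ n - 1) = 1) (d k : ℕ) :
    ζ ^ ((q : ℕ) ^ (d + k * n)) = ζ ^ ((q : ℕ) ^ d) := by
  induction k with
  | zero => simp
  | succ k ih =>
    rw [show d + (k + 1) * n = n + (d + k * n) by ring, pow_add, pow_mul, exp_pow_pow h, ih]

private theorem exp_inj_aux {n r r' : ℕ} (hr' : r' < n) (hle : r ≤ r') {ζ : Qb}
    (hζ : IsPrimitiveRoot ζ ((q : ℕ) ^ n - 1))
    (h : ζ ^ ((q : ℕ) ^ r) = ζ ^ ((q : ℕ) ^ r')) : r = r' := by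
  have hq1 : 1 < (q : ℕ) := q.2.one_lt
  have h1 : (q : ℕ) ^ r ≤ (q : ℕ) ^ r' := Nat.pow_le_pow_right q.2.pos hle
  have hn : 0 < n := lt_of_le_of_lt (Nat.zero_le _) hr'
  have hζ0 : ζ ≠ 0 := hζ.ne_zero (exp_pos hn).ne'
  have h0 : ζ ^ ((q : ℕ) ^ r' - (q : ℕ) ^ r) = 1 := by
    have : ζ ^ ((q : ℕ) ^ r) * ζ ^ ((q : ℕ) ^ r' - (q : ℕ) ^ r) = ζ ^ ((q : ℕ) ^ r) * 1 := by
      rw [← pow_add, Nat.add_sub_cancel' h1, mul_one, h]
    exact mul_left_cancel₀ (pow_ne_zero _ hζ0) this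
  have h2 : (q : ℕ) ^ n - 1 ∣ (q : ℕ) ^ r' - (q : ℕ) ^ r := hζ.dvd_of_pow_eq_one _ h0
  have h3 : (q : ℕ) ^ r' < (q : ℕ) ^ n := Nat.pow_lt_pow_right hq1 hr'
  have h4 : 1 ≤ (q : ℕ) ^ r := Nat.one_le_pow _ _ q.2.pos
  have h5 : (q : ℕ) ^ r' - (q : ℕ) ^ r = 0 := Nat.eq_zero_of_dvd_of_lt h2 (by omega)
  exact Nat.pow_right_injective hq1 (by
    show (q : ℕ) ^ r = (q : ℕ) ^ r'
    omega)

theorem IsExp.modEq {g : GQ} {n d d' : ℕ} (hn : 0 < n) (h : IsExp q g n d) (h' : IsExp q g n d') :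
    d ≡ d' [MOD n] := by
  obtain ⟨ζ, hζ⟩ := exists_isPrimitiveRoot (q := q) hn
  have h1 : ζ ^ ((q : ℕ) ^ d) = ζ ^ ((q : ℕ) ^ d') := by
    rw [← h ζ hζ.pow_eq_one, ← h' ζ hζ.pow_eq_one]
  have h2 : ∀ e : ℕ, ζ ^ ((q : ℕ) ^ e) = ζ ^ ((q : ℕ) ^ (e % n)) := by
    intro e
    conv_lhs => rw [← Nat.mod_add_div e n, mul_comm n]
    exact exp_pow_add_mul hζ.pow_eq_one _ _
  rw [h2 d, h2 d'] at h1
  show d % n = d' % n
  rcases le_total (d % n) (d' % n) with hle | hle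
  · exact exp_inj_aux (Nat.mod_lt _ hn) hle hζ h1
  · exact (exp_inj_aux (Nat.mod_lt _ hn) hle hζ h1.symm).symm

theorem IsExp.of_modEq {g : GQ} {n d d' : ℕ} (h : IsExp q g n d) (hd : d ≡ d' [MOD n]) :
    IsExp q g n d' := by
  intro ζ hζ
  rw [h ζ hζ]
  rcases le_total d d' with hle | hle
  · obtain ⟨k, hk⟩ := (Nat.modEq_iff_dvd' hle).mp hd
    have : d' = d + k * n := by rw [mul_comm k n, ← hk]; omega
    rw [this, exp_pow_add_mul hζ]
  · obtain ⟨k, hk⟩ := (Nat.modEq_iff_dvd' hle).mp hd.symm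
    have : d = d' + k * n := by rw [mul_comm k n, ← hk]; omega
    rw [this, exp_pow_add_mul hζ]

theorem IsExp.mul {g g' : GQ} {n d d' : ℕ} (h : IsExp q g n d) (h' : IsExp q g' n d') :
    IsExp q (g * g') n (d + d') := by
  intro ζ hζ
  show g (g' ζ) = _
  rw [h' ζ hζ, map_pow, h ζ hζ, ← pow_mul, ← pow_add]

private theorem exp_dvd {n m : ℕ} (hnm : n ∣ m) : (q : ℕ) ^ n - 1 ∣ (q : ℕ) ^ m - 1 := by
  obtain ⟨k, rfl⟩ := hnm
  rw [pow_mul]
  exact Nat.sub_one_dvd_pow_sub_one _ _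

private theorem exp_pow_eq_one_of_dvd {n m : ℕ} (hnm : n ∣ m) {ζ : Qb}
    (h : ζ ^ ((q : ℕ) ^ n - 1) = 1) : ζ ^ ((q : ℕ) ^ m - 1) = 1 := by
  obtain ⟨k, hk⟩ := exp_dvd (q := q) hnm
  rw [hk, pow_mul, h, one_pow]

theorem IsExp.of_dvd {g : GQ} {n m d : ℕ} (hnm : n ∣ m) (h : IsExp q g m d) : IsExp q g n d :=
  fun ζ hζ => h ζ (exp_pow_eq_one_of_dvd hnm hζ)

theorem fixMu_le_of_dvd {n m : ℕ} (hnm : n ∣ m) : fixMu q m ≤ fixMu q n :=
  fun _ hg ζ hζ => hg ζ (exp_pow_eq_one_of_dvd hnm hζ)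

theorem isExp_expo {g : GQ} (hg : g ∈ Dq q) {n : ℕ} (hn : 0 < n) : IsExp q g n (expo q g n) := by
  have h := exists_isExp hg hn
  unfold expo
  rw [dif_pos h]
  exact h.choose_spec

/-- `fixMu q n` is the fixing subgroup of the cyclotomic field `ℚ(μ_{q^n-1})`. -/
theorem exists_field_fixMu (q : Nat.Primes) {n : ℕ} (hn : 0 < n) : ∃ F : IntermediateField ℚ Qb,
    FiniteDimensional ℚ F ∧ IsStableField F ∧ F.fixingSubgroup = fixMu q n := by
  have hm := exp_pos (q := q) hn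
  set S : Set Qb := {ζ : Qb | ζ ^ ((q : ℕ) ^ n - 1) = 1} with hS
  have hfin : S.Finite := by
    refine (Polynomial.nthRootsFinset ((q : ℕ) ^ n - 1) (1 : Qb)).finite_toSet.subset ?_
    intro ζ hζ
    exact (Polynomial.mem_nthRootsFinset hm _).mpr hζ
  have : Finite S := hfin
  refine ⟨IntermediateField.adjoin ℚ S, ?_, ?_, ?_⟩
  · exact IntermediateField.finiteDimensional_adjoin fun x _ =>
      (AlgebraicClosure.isAlgebraic ℚ).isIntegral.isIntegral x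
  · intro g x hx
    have h1 : IntermediateField.adjoin ℚ S
        ≤ (IntermediateField.adjoin ℚ S).comap (g : Qb →ₐ[ℚ] Qb) := by
      rw [IntermediateField.adjoin_le_iff]
      intro ζ hζ
      refine IntermediateField.subset_adjoin ℚ S ?_
      show (g ζ) ^ ((q : ℕ) ^ n - 1) = 1
      rw [← map_pow, hζ, map_one]
    exact h1 hx
  · ext g
    rw [IntermediateField.mem_fixingSubgroup_iff, mem_fixMu]
    constructor
    · intro h ζ hζ
      exact h ζ (IntermediateField.subset_adjoin ℚ S hζ)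
    · intro h x hx
      induction hx using IntermediateField.adjoin_induction with
      | mem x hx => exact h x hx
      | algebraMap r => exact g.commutes r
      | add x y _ _ hx hy => rw [map_add, hx, hy]
      | inv x _ hx => rw [map_inv₀, hx]
      | mul x y _ _ hx hy => rw [map_mul, hx, hy]

instance isOp_inf_fixMu {H : Subgroup GQ} [IsOp q H] (n : ℕ) [NeZero n] : IsOp q (H ⊓ fixMu q n) := by
  obtain ⟨F, hF, -, hFe⟩ := exists_field_fixMu q (Nat.pos_of_ne_zero (NeZero.ne n))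
  rw [← hFe]
  exact IsOp.inf_fixingSubgroup F hF

instance normal_fixMu (n : ℕ) : (fixMu q n).Normal := by
  refine ⟨fun h hh g ζ hζ => ?_⟩
  show g (h (g⁻¹ ζ)) = ζ
  rw [hh (g⁻¹ ζ) (by rw [← map_pow, hζ, map_one])]
  show g (g.symm ζ) = ζ
  exact g.apply_symm_apply ζ

end Fermat.Agent.S55.Loc.Field
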