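/-
S55 / LOC-F : section `Inertia` (GQ side: inertia group = common kernel of the unramified
characters; Frobenius elements; density of the powers of Frobenius modulo inertia).
Proofs: helper168.
-/
import Fermat.Agent.S55.Loc.Field.Exp
import Fermat.Agent.Lib.InertiaField.Frob

set_option autoImplicit false

namespace Fermat.Agent.S55.Loc.Field

/-- The inertia group of the chosen place. -/
noncomputable abbrev Iq (q : Nat.Primes) : Subgroup GQ := (plc q).inertiaSubgroupIn ℚ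

variable {q : Nat.Primes}

private theorem inertia_not_dvd {n : ℕ} (hn : 0 < n) : ¬ (q : ℕ) ∣ (q : ℕ) ^ n - 1 := by
  intro h
  have h1 : 1 ≤ (q : ℕ) ^ n := Nat.one_le_pow _ _ q.2.pos
  have h2 : (q : ℕ) ∣ (q : ℕ) ^ n := dvd_pow_self _ hn.ne'
  have h3 : (q : ℕ) ∣ 1 := by
    have := (Nat.dvd_sub h2 h)
    rwa [Nat.sub_sub_self h1] at this
  exact q.2.one_lt.ne' (Nat.dvd_one.mp h3)

/-- a root of unity of order prime to `q` has order dividing `q ^ n - 1` for some `n > 0`. -/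
private theorem inertia_exists_pow {m : ℕ} (hm : ¬ (q : ℕ) ∣ m) {ζ : Qb} (hζ : ζ ^ m = 1) :
    ∃ n, 0 < n ∧ ζ ^ ((q : ℕ) ^ n - 1) = 1 := by
  have hm0 : 0 < m := Nat.pos_of_ne_zero fun h => hm (h ▸ dvd_zero _)
  have hcop : Nat.Coprime (q : ℕ) m := (Nat.Prime.coprime_iff_not_dvd q.2).2 hm
  have h1 : 1 ≤ (q : ℕ) ^ Nat.totient m := Nat.one_le_pow _ _ q.2.pos
  have h2 : m ∣ (q : ℕ) ^ Nat.totient m - 1 :=
    (Nat.modEq_iff_dvd' h1).mp (Nat.ModEq.pow_totient hcop).symm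
  obtain ⟨c, hc⟩ := h2
  exact ⟨Nat.totient m, Nat.totient_pos.mpr hm0, by rw [hc, pow_mul, hζ, one_pow]⟩

private theorem inertia_isTeich {n : ℕ} (hn : 0 < n) {ζ : Qb} (hζ : ζ ^ ((q : ℕ) ^ n - 1) = 1) :
    Fermat.Agent.Lib.InertiaField.IsTeich (q : ℕ) ζ :=
  Or.inr ⟨_, inertia_not_dvd hn, hζ⟩

theorem Iq_le_Dq : Iq q ≤ Dq q :=
  Fermat.Agent.Lib.InertiaField.inertia_le_decomposition (plc q)

theorem mem_Iq_iff {g : GQ} : g ∈ Iq q ↔ g ∈ Dq q ∧ ∀ n, 0 < n → g ∈ fixMu q n := by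
  constructor
  · intro hg
    refine ⟨Iq_le_Dq hg, fun n hn ζ hζ => ?_⟩
    have hK : ζ ∈ Fermat.Agent.Lib.InertiaField.K0 (plc q) :=
      Fermat.Agent.Lib.InertiaField.rootOfUnity_mem_K0 (plc q) (q : ℕ) q.2 (plc_liesOverPrime q)
        (inertia_not_dvd hn) hζ
    exact (Fermat.Agent.Lib.InertiaField.mem_K0_iff (plc q) ζ).mp hK g hg
  · rintro ⟨hgD, hg⟩
    rw [Fermat.Agent.Lib.InertiaField.mem_inertia_iff]
    intro x hx
    have hxA : x ∈ plc q := mem_plc_of_isIntegral_int hx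
    obtain ⟨z, hz, hxz⟩ := Fermat.Agent.Lib.InertiaField.exists_isTeich_sub_mem (plc q) (q : ℕ) q.2
      (plc_liesOverPrime q) hxA
    have hgz : g z = z := by
      rcases hz with rfl | ⟨m, hm, hzm⟩
      · exact map_zero g
      · obtain ⟨n, hn, hzn⟩ := inertia_exists_pow hm hzm
        exact hg n hn z hzn
    have e : g x - x = g (x - z) + -(x - z) := by
      rw [map_sub, hgz]; ring
    rw [e]
    exact Fermat.Agent.Lib.InertiaField.Hensel.nonunits_add (plc q)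
      ((apply_mem_nonunits_iff hgD _).mpr hxz)
      (Fermat.Agent.Lib.InertiaField.Hensel.nonunits_neg (plc q) hxz)

theorem isExp_one_of_isFrobeniusAt {φ : GQ} (h : (plc q).IsFrobeniusAt φ (q : ℕ)) {n : ℕ}
    (hn : 0 < n) : IsExp q φ n 1 := by
  intro ζ hζ
  rw [pow_one]
  exact Fermat.Agent.Lib.InertiaField.frob_apply_isTeich (plc q) (q : ℕ) q.2 (plc_liesOverPrime q) h
    (inertia_isTeich hn hζ)

theorem isFrobeniusAt_of_isExp {φ : GQ} (hφ : φ ∈ Dq q) (h : ∀ n, 0 < n → IsExp q φ n 1) :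
    (plc q).IsFrobeniusAt φ (q : ℕ) := by
  refine ⟨hφ, fun x => ?_⟩
  obtain ⟨a, rfl⟩ := IsLocalRing.residue_surjective x
  obtain ⟨z, hz, haz⟩ := Fermat.Agent.Lib.InertiaField.exists_isTeich_sub_mem (plc q) (q : ℕ) q.2
    (plc_liesOverPrime q) a.2
  have hzA : z ∈ plc q := hz.mem (plc q)
  have hφz : φ z = z ^ (q : ℕ) := by
    rcases hz with rfl | ⟨m, hm, hzm⟩
    · rw [map_zero, zero_pow q.2.ne_zero]
    · obtain ⟨n, hn, hzn⟩ := inertia_exists_pow hm hzm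
      have := h n hn z hzn
      rwa [pow_one] at this
  have hres : IsLocalRing.residue (plc q) a = IsLocalRing.residue (plc q) ⟨z, hzA⟩ := by
    rw [← sub_eq_zero, ← map_sub, IsLocalRing.residue_eq_zero_iff,
      ← ValuationSubring.coe_mem_nonunits_iff]
    exact haz
  rw [hres, ← IsLocalRing.ResidueField.residue_smul, ← map_pow]
  congr 1
  exact Subtype.ext hφz

theorem inv_mul_mem_Iq {φ φ' : GQ} (h : (plc q).IsFrobeniusAt φ (q : ℕ))
    (h' : (plc q).IsFrobeniusAt φ' (q : ℕ)) : φ⁻¹ * φ' ∈ Iq q := by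
  rw [Fermat.Agent.Lib.InertiaField.mem_inertia_iff_fixes_K0]
  intro x hx
  have e := Fermat.Agent.Lib.InertiaField.frob_eq_on_K0 (plc q) (q : ℕ) h' h hx
  show φ⁻¹ (φ' x) = x
  rw [e]
  show φ.symm (φ x) = x
  exact φ.symm_apply_apply x

/-- compactness: an open neighbourhood `Iq q * F.fixingSubgroup` of the inertia group contains
`Dq q ⊓ fixMu q n` for some `n`. -/
theorem exists_fixMu_subset (q : Nat.Primes) (F : IntermediateField ℚ Qb)
    (hF : FiniteDimensional ℚ F) :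
    ∃ n, 0 < n ∧ ∀ g ∈ Dq q, g ∈ fixMu q n → ∃ τ ∈ Iq q, τ⁻¹ * g ∈ F.fixingSubgroup := by
  have : IsGalois ℚ Qb := Fermat.Agent.Lib.Frobenius.isGalois_rat
  let V : ℕ → Set GQ := fun k => (Dq q : Set GQ) ∩ (fixMu q (k + 1).factorial : Set GQ)
  let W : Set GQ := {g | ∃ τ ∈ Iq q, τ⁻¹ * g ∈ F.fixingSubgroup}
  have hVclosed : ∀ k, IsClosed (V k) := by
    intro k
    refine (isClosed_Dq q).inter ?_
    obtain ⟨E, hE, -, hEe⟩ := exists_field_fixMu q (Nat.factorial_pos (k + 1))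
    rw [← hEe]
    exact E.fixingSubgroup_isClosed
  have hVanti : Antitone V := by
    intro k l hkl g hg
    exact ⟨hg.1, fixMu_le_of_dvd (Nat.factorial_dvd_factorial (Nat.succ_le_succ hkl)) hg.2⟩
  have hVdir : Directed (· ⊇ ·) V := hVanti.directed_ge
  have hU : ∀ x ∈ ⋂ k, V k, W ∈ nhds x := by
    intro x hx
    rw [Set.mem_iInter] at hx
    have hxI : x ∈ Iq q := by
      rw [mem_Iq_iff]
      refine ⟨(hx 0).1, fun n hn => ?_⟩
      have h1 := (hx (n - 1)).2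
      have h2 : n - 1 + 1 = n := Nat.sub_add_cancel hn
      rw [h2] at h1
      exact fixMu_le_of_dvd (Nat.dvd_factorial hn le_rfl) h1
    have hopen : IsOpen ((fun g : GQ => x⁻¹ * g) ⁻¹' (F.fixingSubgroup : Set GQ)) :=
      F.fixingSubgroup_isOpen.preimage (continuous_const_mul x⁻¹)
    refine Filter.mem_of_superset (hopen.mem_nhds ?_) fun g hg => ⟨x, hxI, hg⟩
    show x⁻¹ * x ∈ F.fixingSubgroup
    rw [inv_mul_cancel]
    exact one_mem _
  obtain ⟨k, hk⟩ := exists_subset_nhds_of_isCompact' hVdir (fun k => (hVclosed k).isCompact)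
    hVclosed hU
  exact ⟨(k + 1).factorial, Nat.factorial_pos _, fun g hg hg' => hk ⟨hg, hg'⟩⟩

/-- density of the powers of a Frobenius modulo inertia. -/
theorem exists_pow_mul_of_frob {φ : GQ} (h : (plc q).IsFrobeniusAt φ (q : ℕ))
    (F : IntermediateField ℚ Qb) (hF : FiniteDimensional ℚ F) {g : GQ} (hg : g ∈ Dq q) :
    ∃ i : ℕ, ∃ τ ∈ Iq q, (φ ^ i * τ)⁻¹ * g ∈ F.fixingSubgroup := by
  obtain ⟨n, hn, H⟩ := exists_fixMu_subset q F hF
  have hφD : φ ∈ Dq q := h.mem_decompositionSubgroup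
  have hφ1 : IsExp q φ n 1 := isExp_one_of_isFrobeniusAt h hn
  have hpow : ∀ i : ℕ, IsExp q (φ ^ i) n i := by
    intro i
    induction i with
    | zero =>
      rw [pow_zero]
      exact isExp_zero_iff.mpr (one_mem _)
    | succ i ih =>
      rw [pow_succ]
      exact ih.mul hφ1
  set i := expo q g n with hi
  have hgi : IsExp q g n i := isExp_expo hg hn
  have hD : (φ ^ i)⁻¹ * g ∈ Dq q := mul_mem (inv_mem (pow_mem hφD i)) hg
  have hfix : (φ ^ i)⁻¹ * g ∈ fixMu q n := by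
    intro ζ hζ
    show (φ ^ i)⁻¹ (g ζ) = ζ
    rw [hgi ζ hζ, ← hpow i ζ hζ]
    show (φ ^ i).symm ((φ ^ i) ζ) = ζ
    exact (φ ^ i).symm_apply_apply ζ
  obtain ⟨τ, hτ, hτF⟩ := H _ hD hfix
  refine ⟨i, τ, hτ, ?_⟩
  rw [mul_inv_rev, mul_assoc]
  exact hτF

end Fermat.Agent.S55.Loc.Field
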