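/-
S55 / LOC-F : section `Chi` (F5c: the unramified characters `chiG q r`).
Proofs: helper224.
-/
import Fermat.Agent.S55.Loc.Field.Exp

set_option autoImplicit false

namespace Fermat.Agent.S55.Loc.Field

variable {q : Nat.Primes}

theorem addOrderOf_QZ_pos (r : QZ) : 0 < addOrderOf r := by
  rw [addOrderOf_pos_iff]
  obtain ⟨a, rfl⟩ := QuotientAddGroup.mk_surjective r
  rw [isOfFinAddOrder_iff_nsmul_eq_zero]
  refine ⟨a.den, a.den_pos, ?_⟩
  rw [← QuotientAddGroup.mk_nsmul, QuotientAddGroup.eq_zero_iff]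
  refine ⟨a.num, ?_⟩
  simp [Rat.den_mul_eq_num]

theorem chiG_eq {r : QZ} {g : GQ} {n d : ℕ} (hg : g ∈ Dq q) (hn : 0 < n) (hr : n • r = 0)
    (h : IsExp q g n d) : chiG q r g = d • r := by
  have hm : addOrderOf r ∣ n := addOrderOf_dvd_of_nsmul_eq_zero hr
  have h1 : IsExp q g (addOrderOf r) d := h.of_dvd hm
  have h2 := isExp_expo hg (addOrderOf_QZ_pos r)
  have h3 := h2.modEq (addOrderOf_QZ_pos r) h1
  unfold chiG
  exact nsmul_eq_nsmul_iff_modEq.mpr h3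

theorem chiG_add {g : GQ} (hg : g ∈ Dq q) (r s : QZ) :
    chiG q (r + s) g = chiG q r g + chiG q s g := by
  have hn : 0 < addOrderOf r * addOrderOf s :=
    Nat.mul_pos (addOrderOf_QZ_pos r) (addOrderOf_QZ_pos s)
  have hr : (addOrderOf r * addOrderOf s) • r = 0 := by
    rw [mul_nsmul, addOrderOf_nsmul_eq_zero, nsmul_zero]
  have hs : (addOrderOf r * addOrderOf s) • s = 0 := by
    rw [mul_comm, mul_nsmul, addOrderOf_nsmul_eq_zero, nsmul_zero]
  have hrs : (addOrderOf r * addOrderOf s) • (r + s) = 0 := by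
    rw [nsmul_add, hr, hs, add_zero]
  have h := isExp_expo hg hn
  rw [chiG_eq hg hn hrs h, chiG_eq hg hn hr h, chiG_eq hg hn hs h, nsmul_add]

theorem chiG_mul {g g' : GQ} (hg : g ∈ Dq q) (hg' : g' ∈ Dq q) (r : QZ) :
    chiG q r (g * g') = chiG q r g + chiG q r g' := by
  have hn := addOrderOf_QZ_pos r
  have h := (isExp_expo hg hn).mul (isExp_expo hg' hn)
  rw [chiG_eq (mul_mem hg hg') hn (addOrderOf_nsmul_eq_zero r) h, add_nsmul]
  rfl

theorem chiG_eq_zero_iff {g : GQ} (hg : g ∈ Dq q) (r : QZ) :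
    chiG q r g = 0 ↔ g ∈ fixMu q (addOrderOf r) := by
  have hn := addOrderOf_QZ_pos r
  constructor
  · intro h
    have h1 : addOrderOf r ∣ expo q g (addOrderOf r) := addOrderOf_dvd_of_nsmul_eq_zero h
    exact isExp_zero_iff.mp
      ((isExp_expo hg hn).of_modEq ((Nat.modEq_zero_iff_dvd).mpr h1))
  · intro h
    rw [chiG_eq hg hn (addOrderOf_nsmul_eq_zero r) (isExp_zero_iff.mpr h), zero_nsmul]

theorem exists_chiG_frob (q : Nat.Primes) : ∃ φ ∈ Dq q, ∀ r : QZ, chiG q r φ = r := by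
  obtain ⟨φ, hφ, -, h⟩ := exists_frob q
  refine ⟨φ, hφ, fun r => ?_⟩
  rw [chiG_eq hφ (addOrderOf_QZ_pos r) (addOrderOf_nsmul_eq_zero r) (h _ (addOrderOf_QZ_pos r)),
    one_nsmul]

theorem zsmul_eq_zero_iff_addOrderOf_dvd (k : ℤ) (r : QZ) : k • r = 0 ↔ (addOrderOf r : ℤ) ∣ k :=
  addOrderOf_dvd_iff_zsmul_eq_zero.symm

end Fermat.Agent.S55.Loc.Field
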