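/-
S55 / LOC-F : section `BaseDVR` (F1b: `oF q (Dq q)` is a DVR with uniformizer `q` and
residue field `𝔽_q`).   Owner: helper57.
-/
import Fermat.Agent.S55.Loc.Field.Base
import Fermat.Agent.S55.Loc.Field.Basic

set_option autoImplicit false

namespace Fermat.Agent.S55.Loc.Field

open scoped Pointwise

variable (q : Nat.Primes)

/-- units of `oF q H` are the elements with `IsU`. -/
theorem BaseDVR_isUnit_iff {H : Subgroup GQ} (x : oF q H) :
    IsUnit x ↔ IsU q (((x : kF H) : Qb)) := by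
  rw [isU_iff]
  constructor
  · rintro ⟨u, rfl⟩
    have h1 : (((u : oF q H) : kF H) : Qb) * ((((u⁻¹ : (oF q H)ˣ) : oF q H) : kF H) : Qb) = 1 := by
      have h := u.mul_inv
      have h2 := congrArg (fun z : oF q H => ((z : kF H) : Qb)) h
      exact h2
    have h0 : (((u : oF q H) : kF H) : Qb) ≠ 0 := left_ne_zero_of_mul_eq_one h1
    refine ⟨h0, (u : oF q H).2, ?_⟩
    rw [← eq_inv_of_mul_eq_one_right h1]
    exact ((u⁻¹ : (oF q H)ˣ) : oF q H).2
  · rintro ⟨h0, -, h2⟩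
    have h3 : ((x : kF H))⁻¹ ∈ oF q H := by
      rw [mem_oF]
      simpa using h2
    refine IsUnit.of_mul_eq_one ⟨((x : kF H))⁻¹, h3⟩ ?_
    apply Subtype.ext
    apply Subtype.ext
    simp [h0]

theorem BaseDVR_mem_maximalIdeal_iff {H : Subgroup GQ} (x : oF q H) :
    x ∈ IsLocalRing.maximalIdeal (oF q H) ↔ (((x : kF H) : Qb)) ∈ (plc q).nonunits := by
  rw [IsLocalRing.mem_maximalIdeal, mem_nonunits_iff, BaseDVR_isUnit_iff,
    isU_iff_not_mem_nonunits]
  have hx : (((x : kF H) : Qb)) ∈ plc q := x.2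
  tauto

theorem BaseDVR_coe_q {H : Subgroup GQ} :
    (((((q : ℕ) : oF q H)) : kF H) : Qb) = ((q : ℕ) : Qb) := by
  simp

theorem BaseDVR_q_ne_zero : ((q : ℕ) : Qb) ≠ 0 := by
  exact_mod_cast q.2.ne_zero

/-- every nonzero element is `q ^ n` times a unit. -/
theorem BaseDVR_exists_pow_mul (x : oF q (Dq q)) (hx : x ≠ 0) :
    ∃ (n : ℕ) (u : (oF q (Dq q))ˣ), x = ((q : ℕ) : oF q (Dq q)) ^ n * u := by
  have hx0 : (((x : kF (Dq q)) : Qb)) ≠ 0 := by
    intro h
    apply hx
    apply Subtype.ext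
    apply Subtype.ext
    simpa using h
  obtain ⟨k, hk⟩ := exists_zpow_isU (q := q) (x : kF (Dq q)).2 hx0
  have hq0 := BaseDVR_q_ne_zero q
  -- `k ≥ 0`
  have hk0 : 0 ≤ k := by
    by_contra hneg
    push Not at hneg
    obtain ⟨m, hm⟩ : ∃ m : ℕ, k = -((m : ℤ) + 1) := ⟨(-k - 1).toNat, by omega⟩
    have h1 : (((x : kF (Dq q)) : Qb)) / ((q : ℕ) : Qb) ^ k =
        ((((x : kF (Dq q)) : Qb)) * ((q : ℕ) : Qb) ^ m) * ((q : ℕ) : Qb) := by
      rw [hm, zpow_neg, div_inv_eq_mul, zpow_add_one₀ hq0, zpow_natCast, mul_assoc]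
    rw [h1, isU_iff_not_mem_nonunits] at hk
    apply hk.2
    have hqn := q_mem_nonunits q
    rw [ValuationSubring.mem_nonunits_iff] at hqn ⊢
    rw [map_mul]
    have h2 : (plc q).valuation ((((x : kF (Dq q)) : Qb)) * ((q : ℕ) : Qb) ^ m) ≤ 1 := by
      rw [ValuationSubring.valuation_le_one_iff]
      refine mul_mem x.2 (pow_mem ?_ m)
      exact natCast_mem _ _
    exact lt_of_le_of_lt (mul_le_of_le_one_left' h2) hqn
  obtain ⟨n, rfl⟩ := Int.eq_ofNat_of_zero_le hk0
  rw [zpow_natCast] at hk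
  have hmem : (x : kF (Dq q)) / ((q : ℕ) : kF (Dq q)) ^ n ∈ oF q (Dq q) := by
    rw [mem_oF]
    have := (isU_iff_not_mem_nonunits.mp hk).1
    simpa using this
  have hu : IsUnit (⟨(x : kF (Dq q)) / ((q : ℕ) : kF (Dq q)) ^ n, hmem⟩ : oF q (Dq q)) := by
    rw [BaseDVR_isUnit_iff]
    simpa using hk
  obtain ⟨u, hu⟩ := hu
  refine ⟨n, u, ?_⟩
  rw [hu]
  apply Subtype.ext
  apply Subtype.ext
  have hq1 : ((((q : ℕ) : kF (Dq q))) : Qb) = ((q : ℕ) : Qb) := by simp
  simp only [MulMemClass.coe_mul, SubmonoidClass.coe_pow, BaseDVR_coe_q]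
  simp only [IntermediateField.coe_div, IntermediateField.coe_pow, hq1]
  field_simp

theorem BaseDVR_maximalIdeal :
    IsLocalRing.maximalIdeal (oF q (Dq q)) = Ideal.span {((q : ℕ) : oF q (Dq q))} := by
  apply le_antisymm
  · intro x hx
    rw [Ideal.mem_span_singleton]
    by_cases hx0 : x = 0
    · rw [hx0]; exact dvd_zero _
    obtain ⟨n, u, rfl⟩ := BaseDVR_exists_pow_mul q x hx0
    rcases n with _ | n
    · exfalso
      rw [pow_zero, one_mul] at hx
      exact (IsLocalRing.mem_maximalIdeal _).mp hx u.isUnit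
    · rw [pow_succ', mul_assoc]
      exact dvd_mul_right _ _
  · rw [Ideal.span_singleton_le_iff_mem, BaseDVR_mem_maximalIdeal_iff, BaseDVR_coe_q]
    exact q_mem_nonunits q

theorem irreducible_q : Irreducible (((q : ℕ) : oF q (Dq q))) := by
  have h0 : ((q : ℕ) : oF q (Dq q)) ≠ 0 := by
    intro h
    apply BaseDVR_q_ne_zero q
    rw [← BaseDVR_coe_q q (H := Dq q), h]
    simp
  have hp : Prime ((q : ℕ) : oF q (Dq q)) := by
    rw [← Ideal.span_singleton_prime h0, ← BaseDVR_maximalIdeal]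
    exact (IsLocalRing.maximalIdeal.isMaximal _).isPrime
  exact hp.irreducible

instance isDVR_base : IsDiscreteValuationRing (oF q (Dq q)) := by
  apply IsDiscreteValuationRing.ofHasUnitMulPowIrreducibleFactorization
  refine ⟨((q : ℕ) : oF q (Dq q)), irreducible_q q, fun {x} hx => ?_⟩
  obtain ⟨n, u, rfl⟩ := BaseDVR_exists_pow_mul q x hx
  exact ⟨n, u, rfl⟩

theorem maximalIdeal_base :
    IsLocalRing.maximalIdeal (oF q (Dq q)) = Ideal.span {((q : ℕ) : oF q (Dq q))} :=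
  BaseDVR_maximalIdeal q

theorem card_residueField_base : Nat.card (IsLocalRing.ResidueField (oF q (Dq q))) = (q : ℕ) := by
  haveI : Fact (q : ℕ).Prime := ⟨q.2⟩
  have hq0 : ((q : ℕ) : IsLocalRing.ResidueField (oF q (Dq q))) = 0 := by
    rw [← map_natCast (IsLocalRing.residue (oF q (Dq q))), IsLocalRing.residue_eq_zero_iff,
      maximalIdeal_base]
    exact Ideal.mem_span_singleton_self _
  haveI : CharP (IsLocalRing.ResidueField (oF q (Dq q))) (q : ℕ) :=
    (CharP.charP_iff_prime_eq_zero q.2).mpr hq0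
  let f : ZMod (q : ℕ) →+* IsLocalRing.ResidueField (oF q (Dq q)) :=
    ZMod.castHom (dvd_refl _) _
  have hf : Function.Bijective f := by
    refine ⟨f.injective, fun y => ?_⟩
    obtain ⟨x, rfl⟩ := IsLocalRing.residue_surjective y
    obtain ⟨n, hn⟩ := exists_nat_sub_mem_nonunits (q := q) (x : kF (Dq q)).2 x.2
    refine ⟨(n : ZMod (q : ℕ)), ?_⟩
    rw [map_natCast, ← map_natCast (IsLocalRing.residue (oF q (Dq q))), eq_comm, ← sub_eq_zero,
      ← map_sub, IsLocalRing.residue_eq_zero_iff, BaseDVR_mem_maximalIdeal_iff]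
    simpa using hn
  rw [← Nat.card_congr (Equiv.ofBijective f hf), Nat.card_zmod]

instance finite_residueField_base : Finite (IsLocalRing.ResidueField (oF q (Dq q))) :=
  Nat.finite_of_card_ne_zero (by rw [card_residueField_base]; exact q.2.ne_zero)

end Fermat.Agent.S55.Loc.Field
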