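/-
S55 / LOC-F, section `Degree` (F3b: Galois theory of `kF H' / kF H`).
-/
import Fermat.Agent.S55.Loc.Field.Basic
import Fermat.Agent.Lib.Frobenius

set_option autoImplicit false
set_option linter.unusedSectionVars false

namespace Fermat.Agent.S55.Loc.Field

open scoped Pointwise

section general

theorem Degree.isAlgebraic_Qb : Algebra.IsAlgebraic ℚ Qb := AlgebraicClosure.isAlgebraic ℚ

theorem Degree.isAlgebraic_kF (H : Subgroup GQ) : Algebra.IsAlgebraic ℚ (kF H) :=
  have := Degree.isAlgebraic_Qb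
  Algebra.IsAlgebraic.of_injective (kF H).val (kF H).val.injective

variable {H' H : Subgroup GQ} [Fact (H' ≤ H)]

instance Degree.towerQ : IsScalarTower ℚ (kF H) (kF H') :=
  IsScalarTower.of_algebraMap_eq fun _ => rfl

instance Degree.isAlgebraic : Algebra.IsAlgebraic (kF H) (kF H') :=
  have := Degree.isAlgebraic_kF H'
  Algebra.IsAlgebraic.tower_top (K := ℚ) (kF H)

/-- the embedding attached to `h ∈ H` -/
noncomputable def Degree.embOf (h : H) : kF H' →ₐ[kF H] Qb where
  toRingHom := ((h : GQ) : Qb →+* Qb).comp (algebraMap (kF H') Qb)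
  commutes' c := mem_kF.1 c.2 h.1 h.2

theorem Degree.embOf_apply (h : H) (x : kF H') : Degree.embOf h x = (h : GQ) (x : Qb) := rfl

/-- every embedding over `kF H` extends to an automorphism of `ℚ̄` fixing `kF H` -/
theorem Degree.exists_extension (σ : kF H' →ₐ[kF H] Qb) :
    ∃ g : GQ, (∀ x : kF H', σ x = g (x : Qb)) ∧ ∀ c ∈ kF H, g c = c := by
  have halg := Degree.isAlgebraic_Qb
  have hnorm : Normal ℚ Qb := Fermat.Agent.Lib.Frobenius.isGalois_rat.to_normal
  let f : Qb →ₐ[ℚ] Qb := (σ.restrictScalars ℚ).liftNormal Qb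
  have hf : ∀ x : kF H', f (x : Qb) = σ x := fun x =>
    (σ.restrictScalars ℚ).liftNormal_commutes Qb x
  let g : GQ := AlgEquiv.ofBijective f (Algebra.IsAlgebraic.algHom_bijective f)
  refine ⟨g, fun x => (hf x).symm, fun c hc => ?_⟩
  have h1 : g c = σ (algebraMap (kF H) (kF H') ⟨c, hc⟩) := hf (algebraMap (kF H) (kF H') ⟨c, hc⟩)
  rw [h1, σ.commutes]
  rfl

/-- if `H'` is normal in `H`, then `H` stabilises `kF H'` -/
theorem Degree.apply_mem_kF (hn : (H'.subgroupOf H).Normal) {h : GQ} (hh : h ∈ H) {x : Qb}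
    (hx : x ∈ kF H') : h x ∈ kF H' := by
  have hle : H' ≤ H := Fact.out
  rw [mem_kF] at hx ⊢
  intro h' hh'
  have h1 := hn.conj_mem ⟨h', hle hh'⟩ (Subgroup.mem_subgroupOf.2 hh') (⟨h, hh⟩ : H)⁻¹
  rw [Subgroup.mem_subgroupOf] at h1
  have h2 : (h⁻¹ * h' * h⁻¹⁻¹ : GQ) x = x := hx _ h1
  rw [inv_inv, AlgEquiv.mul_apply, AlgEquiv.mul_apply] at h2
  have h3 := congrArg h h2
  rw [show h ((h⁻¹ : GQ) (h' (h x))) = h' (h x) from h.apply_symm_apply _] at h3
  exact h3

/-- the automorphism of `kF H'` attached to `h ∈ H`, for `H'` normal in `H` -/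
noncomputable def Degree.autOf (hn : (H'.subgroupOf H).Normal) (h : H) :
    kF H' ≃ₐ[kF H] kF H' where
  toFun x := ⟨(h : GQ) (x : Qb), Degree.apply_mem_kF hn h.2 x.2⟩
  invFun x := ⟨((h : GQ)⁻¹ : GQ) (x : Qb), Degree.apply_mem_kF hn (H.inv_mem h.2) x.2⟩
  left_inv x := Subtype.ext ((h : GQ).symm_apply_apply (x : Qb))
  right_inv x := Subtype.ext ((h : GQ).apply_symm_apply (x : Qb))
  map_mul' x y := Subtype.ext (map_mul (h : GQ) (x : Qb) (y : Qb))
  map_add' x y := Subtype.ext (map_add (h : GQ) (x : Qb) (y : Qb))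
  commutes' c := Subtype.ext (mem_kF.1 c.2 h.1 h.2)

theorem Degree.coe_autOf (hn : (H'.subgroupOf H).Normal) (h : H) (x : kF H') :
    ((Degree.autOf hn h x : kF H') : Qb) = (h : GQ) (x : Qb) := rfl

end general

variable (q : Nat.Primes) (H' H : Subgroup GQ) [Fact (H' ≤ H)] [IsOp q H'] [IsOp q H]

include q

/-- every `kF H`-embedding of `kF H'` into `ℚ̄` is the restriction of an element of `H`. -/
theorem exists_mem_of_algHom (σ : kF H' →ₐ[kF H] Qb) : ∃ h ∈ H, ∀ x : kF H', σ x = h (x : Qb) := by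
  obtain ⟨g, hg1, hg2⟩ := Degree.exists_extension σ
  refine ⟨g, ?_, hg1⟩
  rw [← IsOp.fixingSubgroup_kF q H, IntermediateField.mem_fixingSubgroup_iff]
  exact hg2

/-- the embedding attached to `h ∈ H`. -/
theorem exists_algHom_of_mem {h : GQ} (hh : h ∈ H) :
    ∃ σ : kF H' →ₐ[kF H] Qb, ∀ x : kF H', σ x = h (x : Qb) :=
  ⟨Degree.embOf ⟨h, hh⟩, fun _ => rfl⟩

/-- two elements of `H` induce the same embedding iff they are congruent modulo `H'`. -/
theorem eqOn_kF_iff {h₁ h₂ : GQ} : (∀ x ∈ kF H', h₁ x = h₂ x) ↔ h₁⁻¹ * h₂ ∈ H' := by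
  have hmem : h₁⁻¹ * h₂ ∈ H' ↔ ∀ x ∈ kF H', (h₁⁻¹ * h₂) x = x := by
    conv_lhs => rw [← IsOp.fixingSubgroup_kF q H']
    exact IntermediateField.mem_fixingSubgroup_iff _ _
  rw [hmem]
  refine forall₂_congr fun x _ => ?_
  rw [AlgEquiv.mul_apply]
  constructor
  · intro h
    rw [← h]
    exact h₁.symm_apply_apply x
  · intro h
    have h3 := congrArg h₁ h
    rw [show h₁ ((h₁⁻¹ : GQ) (h₂ x)) = h₂ x from h₁.apply_symm_apply _] at h3
    exact h3.symm

/-- the embeddings of `kF H'` over `kF H` are parametrised by `H ⧸ H'` -/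
theorem Degree.card_algHom : Nat.card (kF H' →ₐ[kF H] Qb) = H'.relIndex H := by
  have hwell : ∀ a b : H, (QuotientGroup.leftRel (H'.subgroupOf H)) a b →
      (Degree.embOf a : kF H' →ₐ[kF H] Qb) = Degree.embOf b := by
    intro a b hab
    rw [QuotientGroup.leftRel_apply, Subgroup.mem_subgroupOf] at hab
    have := (eqOn_kF_iff q H' (h₁ := (a : GQ)) (h₂ := (b : GQ))).2 hab
    exact AlgHom.ext fun x => this x x.2
  let Φ : H ⧸ H'.subgroupOf H → (kF H' →ₐ[kF H] Qb) := Quotient.lift Degree.embOf hwell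
  have hbij : Function.Bijective Φ := by
    constructor
    · intro a b
      induction a using QuotientGroup.induction_on with
      | H a =>
      induction b using QuotientGroup.induction_on with
      | H b =>
      intro hab
      have hab' : (Degree.embOf a : kF H' →ₐ[kF H] Qb) = Degree.embOf b := hab
      apply QuotientGroup.eq.2
      rw [Subgroup.mem_subgroupOf]
      refine (eqOn_kF_iff q H' (h₁ := (a : GQ)) (h₂ := (b : GQ))).1 fun x hx => ?_
      exact DFunLike.congr_fun hab' ⟨x, hx⟩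
    · intro σ
      obtain ⟨h, hh, hσ⟩ := exists_mem_of_algHom q H' H σ
      exact ⟨QuotientGroup.mk ⟨h, hh⟩, AlgHom.ext fun x => (hσ x).symm⟩
  rw [← Nat.card_congr (Equiv.ofBijective Φ hbij)]
  rfl

theorem finrank_kF : Module.finrank (kF H) (kF H') = H'.relIndex H := by
  rw [← Field.finSepDegree_eq_finrank_of_isSeparable, ← Degree.card_algHom q H' H]
  exact Nat.card_congr (Field.embEquivOfIsAlgClosed (kF H) (kF H') Qb)

theorem finiteDimensional_kF : FiniteDimensional (kF H) (kF H') := by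
  apply Module.finite_of_finrank_pos
  rw [finrank_kF q H' H]
  exact Nat.pos_of_ne_zero (IsOp.relIndex_ne_zero q H' H (IsOp.le (q := q)))

theorem exists_algEquiv_of_mem (hn : (H'.subgroupOf H).Normal) {h : GQ} (hh : h ∈ H) :
    ∃ σ : kF H' ≃ₐ[kF H] kF H', ∀ x : kF H', ((σ x : kF H') : Qb) = h (x : Qb) :=
  ⟨Degree.autOf hn ⟨h, hh⟩, fun _ => rfl⟩

theorem exists_mem_of_algEquiv (σ : kF H' ≃ₐ[kF H] kF H') :
    ∃ h ∈ H, ∀ x : kF H', ((σ x : kF H') : Qb) = h (x : Qb) :=
  exists_mem_of_algHom q H' H ((IsScalarTower.toAlgHom (kF H) (kF H') Qb).comp σ.toAlgHom)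

theorem isGalois_kF (hn : (H'.subgroupOf H).Normal) : IsGalois (kF H) (kF H') := by
  have hfd := finiteDimensional_kF q H' H
  apply IsGalois.of_card_aut_eq_finrank
  rw [finrank_kF q H' H, ← Degree.card_algHom q H' H]
  let Ψ : (kF H' ≃ₐ[kF H] kF H') → (kF H' →ₐ[kF H] Qb) := fun σ =>
    (IsScalarTower.toAlgHom (kF H) (kF H') Qb).comp σ.toAlgHom
  have hbij : Function.Bijective Ψ := by
    constructor
    · intro σ τ hστ
      refine AlgEquiv.ext fun x => Subtype.ext ?_
      exact DFunLike.congr_fun hστ x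
    · intro σ
      obtain ⟨h, hh, hσ⟩ := exists_mem_of_algHom q H' H σ
      exact ⟨Degree.autOf hn ⟨h, hh⟩, AlgHom.ext fun x => (hσ x).symm⟩
  exact Nat.card_congr (Equiv.ofBijective Ψ hbij)

/-- the fixed field of `H ⊓ F.fixingSubgroup` is the compositum `kF H ⊔ F`. -/
theorem kF_inf_fixingSubgroup (F : IntermediateField ℚ Qb) (hF : FiniteDimensional ℚ F) :
    kF (H ⊓ F.fixingSubgroup) = kF H ⊔ F := by
  have hgal : IsGalois ℚ Qb := Fermat.Agent.Lib.Frobenius.isGalois_rat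
  have h1 : (kF H ⊔ F).fixingSubgroup = H ⊓ F.fixingSubgroup := by
    rw [IntermediateField.fixingSubgroup_sup, IsOp.fixingSubgroup_kF q H]
  rw [← h1]
  exact InfiniteGalois.fixedField_fixingSubgroup _

end Fermat.Agent.S55.Loc.Field
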