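/-
S55 / LOC-F, section `IntClosure` (F3a, proofs helper243): `oF q H'` is the integral closure of
`oF q H` in `kF H'`, for `H' ≤ H ≤ Dq q`.
-/
import Fermat.Agent.S55.Loc.Field.Basic

set_option autoImplicit false

namespace Fermat.Agent.S55.Loc.Field

open scoped Pointwise

variable {q : Nat.Primes}

/-- The `H`-orbit of an algebraic number is finite. -/
private theorem intClosure_orbit_finite (H : Subgroup GQ) (x : Qb) :
    {y : Qb | ∃ h ∈ H, h x = y}.Finite := by
  have hx : IsIntegral ℚ x := ((AlgebraicClosure.isAlgebraic ℚ).isAlgebraic x).isIntegral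
  refine ((minpoly ℚ x).rootSet_finite Qb).subset ?_
  rintro _ ⟨h, -, rfl⟩
  rw [Polynomial.mem_rootSet]
  refine ⟨minpoly.ne_zero hx, ?_⟩
  rw [Polynomial.aeval_algHom_apply, minpoly.aeval, map_zero]

/-- every element of `plc q` is a root of a monic polynomial with coefficients in `plc q ∩ kF H`
(the product of `X - y` over the finite `H`-orbit of `x`). -/
theorem exists_monic_of_mem_plc {H : Subgroup GQ} (hH : H ≤ Dq q) {x : Qb} (hx : x ∈ plc q) :
    ∃ f : Polynomial (oF q H), f.Monic ∧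
      Polynomial.eval₂ ((algebraMap (kF H) Qb).comp (algebraMap (oF q H) (kF H))) x f = 0 := by
  classical
  let S : Finset Qb := (intClosure_orbit_finite H x).toFinset
  have hS : ∀ y, y ∈ S ↔ ∃ h ∈ H, h x = y := fun y => by
    simp only [S, Set.Finite.mem_toFinset, Set.mem_ofPred_eq]
  have hxS : x ∈ S := (hS x).2 ⟨1, H.one_mem, rfl⟩
  have hSplc : ∀ y ∈ S, y ∈ plc q := by
    intro y hy
    obtain ⟨h, hh, rfl⟩ := (hS y).1 hy
    exact (apply_mem_plc_iff (hH hh) x).2 hx
  let f₀ : Polynomial Qb := ∏ y ∈ S, (Polynomial.X - Polynomial.C y)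
  have hmonic : f₀.Monic := Polynomial.monic_prod_of_monic _ _ fun y _ => Polynomial.monic_X_sub_C y
  have hroot : f₀.eval x = 0 := by
    simp only [f₀]
    rw [Polynomial.eval_prod]
    exact Finset.prod_eq_zero hxS (by simp)
  -- the coefficients are fixed by `H`
  have hfix : ∀ h ∈ H, f₀.map ((h : Qb ≃ₐ[ℚ] Qb) : Qb →+* Qb) = f₀ := by
    intro h hh
    simp only [f₀]
    rw [Polynomial.map_prod]
    refine Finset.prod_bij (fun y _ => h y) ?_ ?_ ?_ ?_
    · intro y hy
      obtain ⟨h', hh', rfl⟩ := (hS y).1 hy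
      exact (hS _).2 ⟨h * h', H.mul_mem hh hh', rfl⟩
    · intro y _ y' _ hyy
      exact h.injective hyy
    · intro y hy
      obtain ⟨h', hh', rfl⟩ := (hS y).1 hy
      refine ⟨(h⁻¹ * h') x, (hS _).2 ⟨h⁻¹ * h', H.mul_mem (H.inv_mem hh) hh', rfl⟩, ?_⟩
      change h (h⁻¹ (h' x)) = h' x
      exact h.apply_symm_apply _
    · intro y _
      simp
  have hcoeffK : ∀ i, f₀.coeff i ∈ kF H := by
    intro i
    rw [mem_kF]
    intro h hh
    have := congrArg (fun p => Polynomial.coeff p i) (hfix h hh)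
    simpa [Polynomial.coeff_map] using this
  -- the coefficients are in `plc q`
  have hcoeffO : ∀ i, f₀.coeff i ∈ plc q := by
    let g : Polynomial (plc q) :=
      ∏ y ∈ S.attach, (Polynomial.X - Polynomial.C (⟨y.1, hSplc y.1 y.2⟩ : plc q))
    have hg : g.map (plc q).subtype = f₀ := by
      simp only [g, f₀]
      rw [Polynomial.map_prod, ← Finset.prod_attach S]
      refine Finset.prod_congr rfl fun y _ => ?_
      simp
    intro i
    rw [← hg, Polynomial.coeff_map]
    exact (g.coeff i).2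
  have hl : f₀ ∈ Polynomial.lifts
      ((algebraMap (kF H) Qb).comp (algebraMap (oF q H) (kF H))) := by
    rw [Polynomial.lifts_iff_coeff_lifts]
    intro i
    exact ⟨⟨⟨f₀.coeff i, hcoeffK i⟩, hcoeffO i⟩, rfl⟩
  obtain ⟨f, hf, -, hfm⟩ := Polynomial.lifts_and_natDegree_eq_and_monic hl hmonic
  refine ⟨f, hfm, ?_⟩
  rw [← Polynomial.eval_map, hf]
  exact hroot

theorem isIntegralClosure_oF {H' H : Subgroup GQ} [Fact (H' ≤ H)] (hH : H ≤ Dq q) :
    IsIntegralClosure (oF q H') (oF q H) (kF H') := by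
  refine ⟨Subtype.val_injective, ?_⟩
  intro x
  constructor
  · rintro ⟨p, hp, hpx⟩
    let ψ : oF q H →+* plc q :=
      { toFun := fun a => ⟨((a : kF H) : Qb), a.2⟩
        map_one' := rfl
        map_mul' := fun _ _ => rfl
        map_zero' := rfl
        map_add' := fun _ _ => rfl }
    have hint : IsIntegral (plc q) (x : Qb) := by
      refine ⟨p.map ψ, hp.map ψ, ?_⟩
      rw [Polynomial.eval₂_map]
      have h1 := Polynomial.hom_eval₂ p (algebraMap (oF q H) (kF H')) (algebraMap (kF H') Qb) x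
      rw [hpx, map_zero] at h1
      exact h1.symm
    exact ⟨⟨x, mem_plc_of_isIntegral hint⟩, rfl⟩
  · rintro ⟨y, rfl⟩
    obtain ⟨f, hfm, hf⟩ := exists_monic_of_mem_plc (H := H) hH (x := ((y : kF H') : Qb)) y.2
    refine ⟨f, hfm, ?_⟩
    apply (algebraMap (kF H') Qb).injective
    rw [map_zero, Polynomial.hom_eval₂]
    exact hf

instance isIntegralClosure_oF' {H' H : Subgroup GQ} [Fact (H' ≤ H)] [IsOp q H] :
    IsIntegralClosure (oF q H') (oF q H) (kF H') := isIntegralClosure_oF IsOp.le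

instance isLocalHom_algebraMap_oF {H' H : Subgroup GQ} [Fact (H' ≤ H)] :
    IsLocalHom (algebraMap (oF q H) (oF q H')) := by
  refine ⟨fun a ha => ?_⟩
  obtain ⟨b, hb⟩ := isUnit_iff_exists_inv.1 ha
  have hb' : ((a : kF H) : Qb) * ((b : kF H') : Qb) = 1 :=
    congrArg (fun z : oF q H' => ((z : kF H') : Qb)) hb
  have ha0 : (a : kF H) ≠ 0 := by
    intro h
    rw [h] at hb'
    simp at hb'
  have hinv : (((a : kF H)⁻¹ : kF H) : Qb) = ((b : kF H') : Qb) := by
    rw [IntermediateField.coe_inv]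
    exact inv_eq_of_mul_eq_one_right hb'
  refine isUnit_iff_exists_inv.2 ⟨⟨(a : kF H)⁻¹, ?_⟩, ?_⟩
  · rw [mem_oF, hinv]
    exact b.2
  · apply Subtype.ext
    exact mul_inv_cancel₀ ha0

end Fermat.Agent.S55.Loc.Field
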