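/-
S55 / LOC-F : section `DVR` (F3c: `oF q H` is a DVR with finite residue field, `H` open).
-/
import Fermat.Agent.S55.Loc.Field.BaseDVR
import Fermat.Agent.S55.Loc.Field.IntClosure
import Fermat.Agent.S55.Loc.Field.Degree

set_option autoImplicit false

namespace Fermat.Agent.S55.Loc.Field

open scoped Pointwise

variable (q : Nat.Primes) (H : Subgroup GQ) [IsOp q H]

theorem DVR_finiteDimensional : FiniteDimensional (kF (Dq q)) (kF H) := by
  first
    | exact finiteDimensional_kF q H (Dq q)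
    | exact finiteDimensional_kF H (Dq q)

/-- `oF q H` is a finite module over the base ring. -/
theorem DVR_finite : Module.Finite (oF q (Dq q)) (oF q H) := by
  have := DVR_finiteDimensional q H
  -- (the instance `algOK` would otherwise be chosen for `Algebra (oF q (Dq q)) (kF (Dq q))`)
  let _ : Algebra (oF q (Dq q)) (kF (Dq q)) := ValuationSubring.instAlgebraSubtypeMem _
  exact IsIntegralClosure.finite (oF q (Dq q)) (kF (Dq q)) (kF H) (oF q H)

theorem DVR_isDedekindDomain : IsDedekindDomain (oF q H) := by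
  have := DVR_finiteDimensional q H
  let _ : Algebra (oF q (Dq q)) (kF (Dq q)) := ValuationSubring.instAlgebraSubtypeMem _
  exact IsIntegralClosure.isDedekindDomain (oF q (Dq q)) (kF (Dq q)) (kF H) (oF q H)

/-- `q` is not a unit of `oF q H`. -/
theorem DVR_not_isUnit_q : ¬ IsUnit (((q : ℕ) : oF q H)) := by
  intro h
  have h1 : IsUnit (algebraMap (oF q (Dq q)) (oF q H) ((q : ℕ) : oF q (Dq q))) := by
    rwa [map_natCast]
  exact (irreducible_q q).not_isUnit (isUnit_of_map_unit _ _ h1)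

omit [IsOp q H] in
theorem DVR_q_ne_zero : ((q : ℕ) : oF q H) ≠ 0 := by
  exact_mod_cast q.2.ne_zero

instance isDVR_oF : IsDiscreteValuationRing (oF q H) := by
  have hD := DVR_isDedekindDomain q H
  have hnf : ¬ IsField (oF q H) := fun hf => by
    obtain ⟨b, hb⟩ := hf.mul_inv_cancel (DVR_q_ne_zero q H)
    exact DVR_not_isUnit_q q H (IsUnit.of_mul_eq_one b hb)
  exact ((IsDiscreteValuationRing.TFAE (oF q H) hnf).out 0 2).2 hD

instance finite_residueField_oF : Finite (IsLocalRing.ResidueField (oF q H)) := by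
  have := DVR_finite q H
  exact IsLocalRing.ResidueField.finite_of_finite (R := oF q (Dq q)) (finite_residueField_base q)

/-- the residue field has characteristic `q`. -/
theorem DVR_charP : CharP (IsLocalRing.ResidueField (oF q H)) (q : ℕ) := by
  rw [CharP.charP_iff_prime_eq_zero q.2]
  have h : IsLocalRing.residue (oF q H) ((q : ℕ) : oF q H) = 0 := by
    rw [IsLocalRing.residue_eq_zero_iff, IsLocalRing.mem_maximalIdeal, mem_nonunits_iff]
    exact DVR_not_isUnit_q q H
  rwa [map_natCast] at h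

theorem DVR_exists_card :
    ∃ n : ℕ, 0 < n ∧ Nat.card (IsLocalRing.ResidueField (oF q H)) = (q : ℕ) ^ n := by
  have := DVR_charP q H
  have := Fintype.ofFinite (IsLocalRing.ResidueField (oF q H))
  obtain ⟨n, -, hn⟩ := FiniteField.card (IsLocalRing.ResidueField (oF q H)) (q : ℕ)
  exact ⟨n, n.pos, by rw [Nat.card_eq_fintype_card, hn]⟩

theorem card_residueField_oF : Nat.card (IsLocalRing.ResidueField (oF q H)) = (q : ℕ) ^ fH q H := by
  obtain ⟨n, -, hn⟩ := DVR_exists_card q H
  rw [fH, hn, Nat.log_pow q.2.one_lt]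

theorem fH_pos : 0 < fH q H := by
  obtain ⟨n, hn0, hn⟩ := DVR_exists_card q H
  rw [fH, hn, Nat.log_pow q.2.one_lt]
  exact hn0

theorem fH_Dq : fH q (Dq q) = 1 := by
  have h := Nat.log_pow q.2.one_lt 1
  rw [pow_one] at h
  rw [fH, card_residueField_base, h]

omit [IsOp q H] in
/-- units of `oF q H` are units of the place. -/
theorem DVR_isU_of_isUnit {u : oF q H} (hu : IsUnit u) : IsU q (((u : kF H) : Qb)) := by
  obtain ⟨v, hv⟩ := hu.exists_right_inv
  have hv' : ((u : kF H) : Qb) * ((v : kF H) : Qb) = 1 := by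
    have := congrArg (fun z : oF q H => ((z : kF H) : Qb)) hv
    simpa using this
  have hu0 : ((u : kF H) : Qb) ≠ 0 := left_ne_zero_of_mul_eq_one hv'
  refine isU_iff.2 ⟨hu0, u.2, ?_⟩
  rw [inv_eq_of_mul_eq_one_right hv']
  exact v.2

/-- a uniformizer, elementwise. -/
theorem exists_uniformizer : ∃ π : Qbˣ, π ∈ fixH H ∧ (π : Qb) ∈ (plc q).nonunits ∧
    ∀ x : Qbˣ, x ∈ fixH H → ∃ k : ℤ, IsU q ((x : Qb) / (π : Qb) ^ k) := by
  obtain ⟨ϖ, hϖ⟩ := IsDiscreteValuationRing.exists_irreducible (oF q H)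
  have hϖ0 : (((ϖ : kF H) : Qb)) ≠ 0 := by
    intro h
    apply hϖ.ne_zero
    apply Subtype.ext
    apply Subtype.ext
    exact h
  refine ⟨Units.mk0 _ hϖ0, ?_, ?_, ?_⟩
  · intro h hh
    exact mem_kF.1 (ϖ : kF H).2 h hh
  · -- a unit of the place lying in `kF H` is a unit of `oF q H`
    rw [Units.val_mk0]
    by_contra hcon
    have hU : IsU q (((ϖ : kF H) : Qb)) := isU_iff_not_mem_nonunits.2 ⟨ϖ.2, hcon⟩
    obtain ⟨-, -, hinv⟩ := isU_iff.1 hU
    apply hϖ.not_isUnit
    refine IsUnit.of_mul_eq_one (⟨(ϖ : kF H)⁻¹, ?_⟩ : oF q H) ?_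
    · exact hinv
    · apply Subtype.ext
      have h0 : (ϖ : kF H) ≠ 0 := fun h => hϖ0 (by rw [h]; rfl)
      exact mul_inv_cancel₀ h0
  · intro x hx
    rw [Units.val_mk0]
    have hxk : (x : Qb) ∈ kF H := mem_kF.2 hx
    set x' : kF H := ⟨(x : Qb), hxk⟩ with hx'
    have hx'0 : x' ≠ 0 := fun h => x.ne_zero (congrArg Subtype.val h)
    rcases (oF q H).mem_or_inv_mem x' with hmem | hmem
    · have h0 : (⟨x', hmem⟩ : oF q H) ≠ 0 := fun h => hx'0 (congrArg Subtype.val h)
      obtain ⟨n, u, hu⟩ := IsDiscreteValuationRing.eq_unit_mul_pow_irreducible h0 hϖ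
      refine ⟨n, ?_⟩
      have e : (x : Qb) = (((u : oF q H) : kF H) : Qb) * (((ϖ : kF H) : Qb)) ^ n := by
        have := congrArg (fun z : oF q H => ((z : kF H) : Qb)) hu
        simpa using this
      rw [zpow_natCast, e, mul_div_assoc, div_self (pow_ne_zero _ hϖ0), mul_one]
      exact DVR_isU_of_isUnit q H u.isUnit
    · have h0 : (⟨x'⁻¹, hmem⟩ : oF q H) ≠ 0 :=
        fun h => inv_ne_zero hx'0 (congrArg Subtype.val h)
      obtain ⟨n, u, hu⟩ := IsDiscreteValuationRing.eq_unit_mul_pow_irreducible h0 hϖ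
      refine ⟨-(n : ℤ), ?_⟩
      have e : (x : Qb)⁻¹ = (((u : oF q H) : kF H) : Qb) * (((ϖ : kF H) : Qb)) ^ n := by
        have := congrArg (fun z : oF q H => ((z : kF H) : Qb)) hu
        simpa using this
      have e' : (x : Qb) / (((ϖ : kF H) : Qb)) ^ (-(n : ℤ)) = ((((u : oF q H) : kF H) : Qb))⁻¹ := by
        rw [zpow_neg, zpow_natCast, div_inv_eq_mul, ← inv_inv (x : Qb), e, mul_inv,
          mul_assoc, inv_mul_cancel₀ (pow_ne_zero _ hϖ0), mul_one]
      rw [e']
      exact (DVR_isU_of_isUnit q H u.isUnit).inv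

end Fermat.Agent.S55.Loc.Field
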