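/-
S55 / LOC-F, section `Norm` (F4: the norm `nm H' H` = product over cosets = field norm).
Owner: helper205.
-/
import Fermat.Agent.S55.Loc.Field.Degree

set_option autoImplicit false

namespace Fermat.Agent.S55.Loc.Field

open scoped Pointwise

theorem norm_actU_mul (g h : GQ) (b : Qbˣ) : actU (g * h) b = actU g (actU h b) :=
  Units.ext rfl

theorem norm_actU_of_mem {H : Subgroup GQ} {b : Qbˣ} (hb : b ∈ fixH H) {h : GQ} (hh : h ∈ H) :
    actU h b = b := Units.ext (hb h hh)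

/-- `actU h b` depends only on the class of `h` modulo `H'`. -/
theorem norm_actU_eq_of_mk_eq {H' H : Subgroup GQ} {b : Qbˣ} (hb : b ∈ fixH H') {g h : H}
    (e : (QuotientGroup.mk g : H ⧸ H'.subgroupOf H) = QuotientGroup.mk h) :
    actU (g : GQ) b = actU (h : GQ) b := by
  have h1 : g⁻¹ * h ∈ H'.subgroupOf H := QuotientGroup.eq.mp e
  have h2 : ((g : GQ))⁻¹ * (h : GQ) ∈ H' := h1
  have h3 : (h : GQ) = (g : GQ) * (((g : GQ))⁻¹ * (h : GQ)) := by group
  rw [h3, norm_actU_mul, norm_actU_of_mem hb h2]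

theorem norm_actU_out_mk {H' H : Subgroup GQ} {b : Qbˣ} (hb : b ∈ fixH H') (g : H) :
    actU (((QuotientGroup.mk g : H ⧸ H'.subgroupOf H).out : H) : GQ) b = actU (g : GQ) b :=
  norm_actU_eq_of_mk_eq hb (QuotientGroup.out_eq' _)

theorem norm_nm_eq_prod (H' H : Subgroup GQ) [Fintype (H ⧸ H'.subgroupOf H)] (b : Qbˣ) :
    nm H' H b = ∏ c : H ⧸ H'.subgroupOf H, actU ((c.out : H) : GQ) b := by
  rw [nm, finprod_eq_prod_of_fintype, MonoidHom.finsetProd_apply]

section general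

variable (H' H : Subgroup GQ) [Finite (H ⧸ H'.subgroupOf H)]

theorem nm_apply (b : Qbˣ) :
    nm H' H b = ∏ᶠ c : H ⧸ H'.subgroupOf H, actU ((c.out : H) : GQ) b := by
  classical
  let _ := Fintype.ofFinite (H ⧸ H'.subgroupOf H)
  rw [norm_nm_eq_prod, finprod_eq_prod_of_fintype]

/-- the norm computed with an arbitrary system of representatives. -/
theorem nm_eq_finprod_of_section {b : Qbˣ} (hb : b ∈ fixH H') (s : H ⧸ H'.subgroupOf H → H)
    (hs : ∀ c, (QuotientGroup.mk (s c) : H ⧸ H'.subgroupOf H) = c) :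
    nm H' H b = ∏ᶠ c : H ⧸ H'.subgroupOf H, actU ((s c : H) : GQ) b := by
  rw [nm_apply]
  refine finprod_congr fun c => norm_actU_eq_of_mk_eq hb ?_
  rw [hs, QuotientGroup.out_eq']

theorem nm_mem_fixH {b : Qbˣ} (hb : b ∈ fixH H') : nm H' H b ∈ fixH H := by
  classical
  let _ := Fintype.ofFinite (H ⧸ H'.subgroupOf H)
  intro h hh
  have key : actU h (nm H' H b) = nm H' H b := by
    let h₀ : H := ⟨h, hh⟩
    rw [norm_nm_eq_prod, map_prod,
      ← Equiv.prod_comp (MulAction.toPerm h₀)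
        (fun c : H ⧸ H'.subgroupOf H => actU ((c.out : H) : GQ) b)]
    refine Finset.prod_congr rfl fun c _ => ?_
    have e : (MulAction.toPerm h₀) c = (QuotientGroup.mk (h₀ * c.out) : H ⧸ H'.subgroupOf H) := by
      conv_lhs => rw [← QuotientGroup.out_eq' c]
      rfl
    rw [e, norm_actU_out_mk hb, ← norm_actU_mul]
    rfl
  exact congrArg Units.val key

theorem nm_of_mem_fixH {b : Qbˣ} (hb : b ∈ fixH H) : nm H' H b = b ^ H'.relIndex H := by
  classical
  let _ := Fintype.ofFinite (H ⧸ H'.subgroupOf H)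
  rw [norm_nm_eq_prod, Finset.prod_congr rfl fun c _ => norm_actU_of_mem hb (c.out : H).2,
    Finset.prod_const, Finset.card_univ, Subgroup.relIndex, Subgroup.index,
    Nat.card_eq_fintype_card]

/-- the norm commutes with elements normalising both groups; in particular with `H` itself when
`H'` is normal in `H`. -/
theorem nm_actU_of_mem (hn : (H'.subgroupOf H).Normal) {h : GQ} (hh : h ∈ H) {b : Qbˣ}
    (hb : b ∈ fixH H') : nm H' H (actU h b) = nm H' H b := by
  classical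
  let _ := Fintype.ofFinite (H ⧸ H'.subgroupOf H)
  let h₀ : H := ⟨h, hh⟩
  rw [norm_nm_eq_prod, norm_nm_eq_prod,
    ← Equiv.prod_comp (Equiv.mulRight (QuotientGroup.mk h₀ : H ⧸ H'.subgroupOf H))
      (fun c => actU ((c.out : H) : GQ) b)]
  refine Finset.prod_congr rfl fun c _ => ?_
  have e : (Equiv.mulRight (QuotientGroup.mk h₀ : H ⧸ H'.subgroupOf H)) c =
      (QuotientGroup.mk (c.out * h₀) : H ⧸ H'.subgroupOf H) := by
    conv_lhs => rw [← QuotientGroup.out_eq' c]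
    rfl
  rw [e, norm_actU_out_mk hb, ← norm_actU_mul]
  rfl

end general

/-- the map `(c, c') ↦ c.out * c'.out` from `H/H' × H'/H''` to `H/H''`. -/
noncomputable def normPairMap (H'' H' H : Subgroup GQ) (h₂ : H' ≤ H) :
    (H ⧸ H'.subgroupOf H) × (H' ⧸ H''.subgroupOf H') → H ⧸ H''.subgroupOf H :=
  fun p => QuotientGroup.mk ((p.1.out : H) * ⟨((p.2.out : H') : GQ), h₂ (p.2.out : H').2⟩)

theorem normPairMap_injective (H'' H' H : Subgroup GQ) (h₁ : H'' ≤ H') (h₂ : H' ≤ H) :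
    Function.Injective (normPairMap H'' H' H h₂) := by
  rintro ⟨c, c'⟩ ⟨d, d'⟩ e
  have e1 : ((c.out : H) * ⟨((c'.out : H') : GQ), h₂ (c'.out : H').2⟩)⁻¹ *
      ((d.out : H) * ⟨((d'.out : H') : GQ), h₂ (d'.out : H').2⟩) ∈ H''.subgroupOf H :=
    QuotientGroup.eq.mp e
  have e2 : (((c.out : H) : GQ) * ((c'.out : H') : GQ))⁻¹ *
      (((d.out : H) : GQ) * ((d'.out : H') : GQ)) ∈ H'' := e1
  have e3 : ((c.out : H) : GQ)⁻¹ * ((d.out : H) : GQ) ∈ H' := by
    have h3 : ((c.out : H) : GQ)⁻¹ * ((d.out : H) : GQ) =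
        ((c'.out : H') : GQ) * ((((c.out : H) : GQ) * ((c'.out : H') : GQ))⁻¹ *
          (((d.out : H) : GQ) * ((d'.out : H') : GQ))) * ((d'.out : H') : GQ)⁻¹ := by group
    rw [h3]
    exact H'.mul_mem (H'.mul_mem (c'.out : H').2 (h₁ e2)) (H'.inv_mem (d'.out : H').2)
  have hcd : c = d := by
    rw [← QuotientGroup.out_eq' c, ← QuotientGroup.out_eq' d]
    exact QuotientGroup.eq.mpr e3
  subst hcd
  have e4 : ((c'.out : H') : GQ)⁻¹ * ((d'.out : H') : GQ) ∈ H'' := by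
    have h4 : ((c'.out : H') : GQ)⁻¹ * ((d'.out : H') : GQ) =
        (((c.out : H) : GQ) * ((c'.out : H') : GQ))⁻¹ *
          (((c.out : H) : GQ) * ((d'.out : H') : GQ)) := by group
    rw [h4]
    exact e2
  have hcd' : c' = d' := by
    rw [← QuotientGroup.out_eq' c', ← QuotientGroup.out_eq' d']
    exact QuotientGroup.eq.mpr e4
  rw [hcd']

theorem normPairMap_surjective (H'' H' H : Subgroup GQ) (h₂ : H' ≤ H) :
    Function.Surjective (normPairMap H'' H' H h₂) := by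
  intro d
  obtain ⟨g, rfl⟩ := QuotientGroup.mk_surjective d
  let c : H ⧸ H'.subgroupOf H := QuotientGroup.mk g
  have hc : ((c.out : H) : GQ)⁻¹ * (g : GQ) ∈ H' := by
    have : (c.out : H)⁻¹ * g ∈ H'.subgroupOf H :=
      QuotientGroup.eq.mp (QuotientGroup.out_eq' c)
    exact this
  let g' : H' := ⟨((c.out : H) : GQ)⁻¹ * (g : GQ), hc⟩
  let c' : H' ⧸ H''.subgroupOf H' := QuotientGroup.mk g'
  have hc' : ((c'.out : H') : GQ)⁻¹ * (g' : GQ) ∈ H'' := by
    have : (c'.out : H')⁻¹ * g' ∈ H''.subgroupOf H' :=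
      QuotientGroup.eq.mp (QuotientGroup.out_eq' c')
    exact this
  refine ⟨(c, c'), QuotientGroup.eq.mpr ?_⟩
  have h5 : (((c.out : H) : GQ) * ((c'.out : H') : GQ))⁻¹ * (g : GQ) ∈ H'' := by
    have h6 : (((c.out : H) : GQ) * ((c'.out : H') : GQ))⁻¹ * (g : GQ) =
        ((c'.out : H') : GQ)⁻¹ * (((c.out : H) : GQ)⁻¹ * (g : GQ)) := by group
    rw [h6]
    exact hc'
  exact h5

theorem nm_trans (H'' H' H : Subgroup GQ) (h₁ : H'' ≤ H') (h₂ : H' ≤ H)
    [Finite (H ⧸ H''.subgroupOf H)] {b : Qbˣ} (hb : b ∈ fixH H'') :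
    nm H' H (nm H'' H' b) = nm H'' H b := by
  classical
  have : Finite ((H ⧸ H'.subgroupOf H) × (H' ⧸ H''.subgroupOf H')) :=
    Finite.of_injective _ (normPairMap_injective H'' H' H h₁ h₂)
  have : Finite (H ⧸ H'.subgroupOf H) :=
    Finite.of_surjective (fun p : (H ⧸ H'.subgroupOf H) × (H' ⧸ H''.subgroupOf H') => p.1)
      (fun c => ⟨(c, QuotientGroup.mk 1), rfl⟩)
  have : Finite (H' ⧸ H''.subgroupOf H') :=
    Finite.of_surjective (fun p : (H ⧸ H'.subgroupOf H) × (H' ⧸ H''.subgroupOf H') => p.2)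
      (fun c => ⟨(QuotientGroup.mk 1, c), rfl⟩)
  let _ := Fintype.ofFinite (H ⧸ H'.subgroupOf H)
  let _ := Fintype.ofFinite (H' ⧸ H''.subgroupOf H')
  let _ := Fintype.ofFinite (H ⧸ H''.subgroupOf H)
  let φ : (H ⧸ H'.subgroupOf H) × (H' ⧸ H''.subgroupOf H') ≃ H ⧸ H''.subgroupOf H :=
    Equiv.ofBijective _ ⟨normPairMap_injective H'' H' H h₁ h₂, normPairMap_surjective H'' H' H h₂⟩
  rw [norm_nm_eq_prod H'' H, ← Equiv.prod_comp φ, Fintype.prod_prod_type, norm_nm_eq_prod H' H,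
    norm_nm_eq_prod H'' H']
  refine Finset.prod_congr rfl fun c _ => ?_
  rw [map_prod]
  refine Finset.prod_congr rfl fun c' _ => ?_
  rw [← norm_actU_mul]
  exact (norm_actU_out_mk (H := H) hb
    ((c.out : H) * ⟨((c'.out : H') : GQ), h₂ (c'.out : H').2⟩)).symm

theorem mem_fixH_iff_mem_kF {H : Subgroup GQ} {b : Qbˣ} : b ∈ fixH H ↔ (b : Qb) ∈ kF H :=
  mem_fixH.trans mem_kF.symm

variable (q : Nat.Primes) (H' H : Subgroup GQ) [Fact (H' ≤ H)] [IsOp q H'] [IsOp q H]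

theorem valuation_nm (b : Qbˣ) :
    (plc q).valuation ((nm H' H b : Qbˣ) : Qb) = (plc q).valuation (b : Qb) ^ H'.relIndex H := by
  classical
  have := IsOp.finite_quotient q H' H IsOp.le
  let _ := Fintype.ofFinite (H ⧸ H'.subgroupOf H)
  have hterm : ∀ c ∈ (Finset.univ : Finset (H ⧸ H'.subgroupOf H)),
      (plc q).valuation ((actU ((c.out : H) : GQ) b : Qbˣ) : Qb) = (plc q).valuation (b : Qb) :=
    fun c _ => valuation_apply (IsOp.le (c.out : H).2) (b : Qb)
  rw [norm_nm_eq_prod, Units.coe_prod, map_prod, Finset.prod_congr rfl hterm,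
    Finset.prod_const, Finset.card_univ, Subgroup.relIndex, Subgroup.index,
    Nat.card_eq_fintype_card]

/-- the embedding of `kF H'` attached to a coset. -/
noncomputable def normEmb (c : H ⧸ H'.subgroupOf H) : kF H' →ₐ[kF H] Qb :=
  (exists_algHom_of_mem q H' H (c.out : H).2).choose

theorem normEmb_apply (c : H ⧸ H'.subgroupOf H) (x : kF H') :
    normEmb q H' H c x = ((c.out : H) : GQ) (x : Qb) :=
  (exists_algHom_of_mem q H' H (c.out : H).2).choose_spec x

theorem normEmb_bijective : Function.Bijective (normEmb q H' H) := by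
  constructor
  · intro c d e
    have h1 : ∀ x ∈ kF H', ((c.out : H) : GQ) x = ((d.out : H) : GQ) x := by
      intro x hx
      have := congrArg (fun σ : kF H' →ₐ[kF H] Qb => σ ⟨x, hx⟩) e
      simpa only [normEmb_apply] using this
    have h2 : ((c.out : H) : GQ)⁻¹ * ((d.out : H) : GQ) ∈ H' := (eqOn_kF_iff q H').mp h1
    rw [← QuotientGroup.out_eq' c, ← QuotientGroup.out_eq' d]
    exact QuotientGroup.eq.mpr h2
  · intro σ
    obtain ⟨h, hh, hσ⟩ := exists_mem_of_algHom q H' H σ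
    let c : H ⧸ H'.subgroupOf H := QuotientGroup.mk ⟨h, hh⟩
    have hc : ((c.out : H) : GQ)⁻¹ * h ∈ H' := by
      have : (c.out : H)⁻¹ * ⟨h, hh⟩ ∈ H'.subgroupOf H :=
        QuotientGroup.eq.mp (QuotientGroup.out_eq' c)
      exact this
    refine ⟨c, AlgHom.ext fun x => ?_⟩
    rw [normEmb_apply, hσ]
    exact (eqOn_kF_iff q H').mpr hc x x.2

include q

/-- `nm` is the field norm of `kF H' / kF H`. -/
theorem nm_eq_norm (b : Qbˣ) (hb : (b : Qb) ∈ kF H') :
    ((nm H' H b : Qbˣ) : Qb) = ((Algebra.norm (kF H) (⟨(b : Qb), hb⟩ : kF H') : kF H) : Qb) := by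
  classical
  have := IsOp.finite_quotient q H' H IsOp.le
  let _ := Fintype.ofFinite (H ⧸ H'.subgroupOf H)
  have := finiteDimensional_kF q H' H
  have h1 := Algebra.norm_eq_prod_embeddings (kF H) Qb (⟨(b : Qb), hb⟩ : kF H')
  have h2 : ((Algebra.norm (kF H) (⟨(b : Qb), hb⟩ : kF H') : kF H) : Qb) =
      algebraMap (kF H) Qb (Algebra.norm (kF H) (⟨(b : Qb), hb⟩ : kF H')) := rfl
  rw [h2, h1, ← Equiv.prod_comp (Equiv.ofBijective _ (normEmb_bijective q H' H)),
    norm_nm_eq_prod, Units.coe_prod]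
  refine Finset.prod_congr rfl fun c _ => ?_
  exact (normEmb_apply q H' H c ⟨(b : Qb), hb⟩).symm

/-- the norm group in field language. -/
theorem mem_map_nm_iff (a : Qbˣ) : a ∈ (fixH H').map (nm H' H) ↔
    ∃ y : kF H', y ≠ 0 ∧ ((Algebra.norm (kF H) y : kF H) : Qb) = (a : Qb) := by
  constructor
  · rintro ⟨b, hb, rfl⟩
    have hb' : (b : Qb) ∈ kF H' := mem_fixH_iff_mem_kF.mp hb
    refine ⟨⟨(b : Qb), hb'⟩, ?_, (nm_eq_norm q H' H b hb').symm⟩
    intro h0
    exact b.ne_zero (congrArg Subtype.val h0)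
  · rintro ⟨y, hy, e⟩
    have hy' : (y : Qb) ≠ 0 := fun h0 => hy (Subtype.ext h0)
    refine ⟨Units.mk0 (y : Qb) hy', mem_fixH_iff_mem_kF.mpr y.2, Units.ext ?_⟩
    rw [← e]
    exact nm_eq_norm q H' H (Units.mk0 (y : Qb) hy') y.2

end Fermat.Agent.S55.Loc.Field
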