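/-
S55 / LOC-F : section `OrdComp` (F4b: dictionary with the abstract block LOC-A:
`Arith.ord`, `Arith.UK`, `Arith.normU`, `Arith.resDeg` for the concrete fields).
Proofs: helper231 (task 1802).
-/
import Fermat.Agent.S55.Loc.Field.DVR
import Fermat.Agent.S55.Loc.Field.Norm
import Fermat.Agent.S55.Loc.Field.Hensel
import Fermat.Agent.S55.Loc.Arith.Ord
import Fermat.Agent.S55.Loc.Arith.RamIdx

set_option autoImplicit false
set_option linter.unusedSectionVars false
set_option linter.style.haveILetI false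

namespace Fermat.Agent.S55.Loc.Field

open Fermat.Agent.S55.Loc

/-- `fixH H ≃* (kF H)ˣ`. -/
noncomputable def fixEquiv (H : Subgroup GQ) : fixH H ≃* (kF H)ˣ where
  toFun x := Units.mk0 ⟨((x : Qbˣ) : Qb), mem_kF.2 x.2⟩
    (fun h => (x : Qbˣ).ne_zero (congrArg Subtype.val h))
  invFun y := ⟨Units.map ((kF H).val : kF H →* Qb) y, fun h hh => mem_kF.1 (y : kF H).2 h hh⟩
  left_inv x := by ext; rfl
  right_inv y := by ext; rfl
  map_mul' x y := by ext; rfl

theorem fixEquiv_coe (H : Subgroup GQ) (x : fixH H) :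
    (((fixEquiv H x : (kF H)ˣ) : kF H) : Qb) = ((x : Qbˣ) : Qb) := rfl

variable (q : Nat.Primes) (H : Subgroup GQ) [IsOp q H]

theorem isU_iff_mem_UK (x : (kF H)ˣ) :
    IsU q (((x : kF H) : Qb)) ↔ x ∈ Arith.UK (oF q H) (kF H) := by
  constructor
  · intro h
    have hx : (x : kF H) ∈ oF q H := (isU_iff.1 h).2.1
    have hu : IsUnit (⟨(x : kF H), hx⟩ : oF q H) := (BaseDVR_isUnit_iff q _).2 h
    exact ⟨hu.unit, Units.ext rfl⟩
  · rintro ⟨u, rfl⟩
    exact DVR_isU_of_isUnit q H u.isUnit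

theorem isU_iff_ord_eq_zero (x : (kF H)ˣ) :
    IsU q (((x : kF H) : Qb)) ↔ Arith.ord (oF q H) (kF H) x = 0 := by
  rw [Arith.ord_eq_zero_iff, isU_iff_mem_UK]

theorem ordQ_eq_ord (x : (kF (Dq q))ˣ) :
    ordQ q (((x : kF (Dq q)) : Qb)) = Arith.ord (oF q (Dq q)) (kF (Dq q)) x := by
  have hq0 : ((q : ℕ) : kF (Dq q)) ≠ 0 := by exact_mod_cast q.2.ne_zero
  have hπ : Arith.ord (oF q (Dq q)) (kF (Dq q)) (Units.mk0 _ hq0) = 1 :=
    Arith.ord_eq_one_of_irreducible (irreducible_q q) _ (by simp)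
  obtain ⟨u, hu⟩ := Arith.exists_eq_zpow_mul _ hπ x
  apply ordQ_eq_of_isU
  have h1 : ((x : kF (Dq q)) : Qb)
      = ((q : ℕ) : Qb) ^ Arith.ord (oF q (Dq q)) (kF (Dq q)) x * (((u : oF q (Dq q)) : kF (Dq q)) : Qb) := by
    have := congrArg (fun z : (kF (Dq q))ˣ => (kF (Dq q)).val (z : kF (Dq q))) hu
    simp only [Units.val_mul, Units.val_zpow_eq_zpow_val, Units.val_mk0, map_mul, map_zpow₀,
      map_natCast] at this
    exact this
  have h2 : ((x : kF (Dq q)) : Qb) / ((q : ℕ) : Qb) ^ Arith.ord (oF q (Dq q)) (kF (Dq q)) x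
      = (((u : oF q (Dq q)) : kF (Dq q)) : Qb) := by
    rw [div_eq_iff (zpow_ne_zero _ (BaseDVR_q_ne_zero q)), mul_comm]
    exact h1
  rw [h2]
  exact DVR_isU_of_isUnit q (Dq q) u.isUnit

theorem resDeg_base : Arith.resDeg (oF q (Dq q)) (oF q H) = fH q H := by
  unfold Arith.resDeg fH
  rw [card_residueField_base]

variable (H' : Subgroup GQ) [IsOp q H'] [Fact (H' ≤ H)]

theorem fH_eq_mul_resDeg : fH q H' = fH q H * Arith.resDeg (oF q H) (oF q H') := by
  haveI := finiteDimensional_kF q H' H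
  haveI : IsScalarTower (oF q H) (oF q H') (kF H') := towerOOK q
  have h := Arith.card_residueField (oF q H) (kF H) (oF q H') (kF H')
  rw [card_residueField_oF, card_residueField_oF, ← pow_mul] at h
  exact Nat.pow_right_injective q.2.two_le h

include q in
theorem fixEquiv_nm (b : fixH H') (hb : nm H' H (b : Qbˣ) ∈ fixH H) :
    fixEquiv H ⟨nm H' H (b : Qbˣ), hb⟩ = Arith.normU (kF H) (kF H') (fixEquiv H' b) := by
  apply Units.ext
  apply Subtype.ext
  exact nm_eq_norm q H' H (b : Qbˣ) (mem_kF.2 b.2)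

end Fermat.Agent.S55.Loc.Field
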