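/-
S55 / LOC-F : section `NormIdx` (AR4 on the `GQ` side: norm index of a cyclic extension
of prime degree).
-/
import Fermat.Agent.S55.Loc.Field.OrdComp
import Fermat.Agent.S55.Loc.Arith.NormIndex

set_option autoImplicit false

namespace Fermat.Agent.S55.Loc.Field

open Fermat.Agent.S55.Loc

variable (q : Nat.Primes) (H' H : Subgroup GQ) [Fact (H' ≤ H)] [IsOp q H'] [IsOp q H]

include q

theorem map_nm_le : (fixH H').map (nm H' H) ≤ fixH H := by
  haveI := IsOp.finite_quotient q H' H IsOp.le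
  rintro _ ⟨b, hb, rfl⟩
  exact nm_mem_fixH H' H hb

theorem relIndex_map_nm_eq_index :
    ((fixH H').map (nm H' H)).relIndex (fixH H) = (Arith.normU (kF H) (kF H')).range.index := by
  have hle := map_nm_le q H' H
  have hmap : (((fixH H').map (nm H' H)).subgroupOf (fixH H)).map
      ((fixEquiv H : fixH H ≃* (kF H)ˣ) : fixH H →* (kF H)ˣ)
      = (Arith.normU (kF H) (kF H')).range := by
    ext y
    constructor
    · rintro ⟨⟨a, ha⟩, hmem, rfl⟩
      obtain ⟨b, hb, hba⟩ := Subgroup.mem_subgroupOf.1 hmem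
      refine ⟨fixEquiv H' ⟨b, hb⟩, ?_⟩
      have hb' : nm H' H b ∈ fixH H := hle ⟨b, hb, rfl⟩
      rw [← fixEquiv_nm q H H' ⟨b, hb⟩ hb']
      have : (⟨nm H' H b, hb'⟩ : fixH H) = ⟨a, ha⟩ := Subtype.ext hba
      change fixEquiv H ⟨nm H' H b, hb'⟩ = fixEquiv H ⟨a, ha⟩
      rw [this]
    · rintro ⟨z, rfl⟩
      obtain ⟨b, rfl⟩ := (fixEquiv H').surjective z
      have hb' : nm H' H (b : Qbˣ) ∈ fixH H := hle ⟨b, b.2, rfl⟩
      refine ⟨⟨nm H' H (b : Qbˣ), hb'⟩, ?_, ?_⟩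
      · exact Subgroup.mem_subgroupOf.2 ⟨b, b.2, rfl⟩
      · exact fixEquiv_nm q H H' b hb'
  rw [← hmap, Subgroup.index_map_equiv]
  rfl

theorem relIndex_map_nm (hn : (H'.subgroupOf H).Normal) (ℓ : ℕ) (hℓ : ℓ.Prime)
    (hidx : H'.relIndex H = ℓ) : ((fixH H').map (nm H' H)).relIndex (fixH H) = ℓ := by
  rw [relIndex_map_nm_eq_index q H' H]
  haveI := isGalois_kF q H' H hn
  haveI := finiteDimensional_kF q H' H
  exact Arith.index_range_normU (oF q H) (kF H) (oF q H') (kF H') ℓ hℓ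
    (by rw [finrank_kF q H' H, hidx])

end Fermat.Agent.S55.Loc.Field
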