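/-
S55 / LOC-F : section `Trans` (translation between the `GQ` side and the language of
`Loc/Interface.lean`: `Γ = Gv q` acting on `AL q = ResMod (ιv q) Kx`).
-/
import Fermat.Agent.S55.Loc.Field.Norm
import Fermat.Agent.S55.Loc.Interface

set_option autoImplicit false

namespace Fermat.Agent.S55.Loc.Field

open Fermat.Agent.S55.Loc

/-- The local module `ℚ̄ˣ`. -/
abbrev AL (q : Nat.Primes) : Type := ResMod (ιv q) Kx

/-- `ℚ̄ˣ → AL q`. -/
noncomputable def toAL (q : Nat.Primes) : Qbˣ ≃ AL q := Additive.ofMul.trans (ResMod.toRes (ιv q)).toEquiv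

variable {q : Nat.Primes}

theorem toAL_mul (x y : Qbˣ) : toAL q (x * y) = toAL q x + toAL q y := rfl

theorem toAL_one : toAL q 1 = 0 := rfl

theorem smul_toAL (γ : Gv q) (x : Qbˣ) : γ • toAL q x = toAL q (actU (ιv q γ) x) := rfl

private theorem trans_toAL_prod {ι : Type} (s : Finset ι) (f : ι → Qbˣ) :
    toAL q (∏ i ∈ s, f i) = ∑ i ∈ s, toAL q (f i) := by
  classical
  induction s using Finset.induction_on with
  | empty => rfl
  | insert a s ha ih => rw [Finset.prod_insert ha, Finset.sum_insert ha, toAL_mul, ih]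

theorem toAL_mem_fixA_iff (U : Subgroup (Gv q)) (x : Qbˣ) :
    toAL q x ∈ fixA (AL q) U ↔ x ∈ fixH (img q U) := by
  rw [mem_fixA, mem_fixH]
  constructor
  · rintro h _ ⟨u, hu, rfl⟩
    have h1 := h u hu
    rw [smul_toAL] at h1
    exact congrArg (fun y : Qbˣ => (y : Qb)) ((toAL q).injective h1)
  · intro h u hu
    rw [smul_toAL]
    exact congrArg (toAL q) (Units.ext (h _ ⟨u, hu, rfl⟩))

theorem img_top : img q ⊤ = Dq q := by
  rw [← range_ιv, MonoidHom.range_eq_map]

/-- a surjective homomorphism induces a bijection on coset spaces -/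
private theorem trans_exists_quotEquiv {T H : Type} [Group T] [Group H] (ψ : T →* H)
    (hψ : Function.Surjective ψ) (W : Subgroup T) (W' : Subgroup H)
    (hW : ∀ t, t ∈ W ↔ ψ t ∈ W') :
    ∃ e : T ⧸ W ≃ H ⧸ W', ∀ t : T, e (QuotientGroup.mk t) = QuotientGroup.mk (ψ t) := by
  let f : T ⧸ W → H ⧸ W' := Quotient.map' ψ (fun a b hab => by
    rw [QuotientGroup.leftRel_apply] at hab ⊢
    rw [← map_inv, ← map_mul]
    exact (hW _).1 hab)
  have hf : ∀ t : T, f (QuotientGroup.mk t) = QuotientGroup.mk (ψ t) := fun t => rfl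
  have hinj : Function.Injective f := by
    intro a b
    induction a using QuotientGroup.induction_on with
    | H a =>
      induction b using QuotientGroup.induction_on with
      | H b =>
        intro h
        rw [hf, hf, QuotientGroup.eq, ← map_inv, ← map_mul] at h
        exact QuotientGroup.eq.2 ((hW _).2 h)
  have hsurj : Function.Surjective f := by
    intro c
    induction c using QuotientGroup.induction_on with
    | H c =>
      obtain ⟨t, rfl⟩ := hψ c
      exact ⟨QuotientGroup.mk t, rfl⟩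
  exact ⟨Equiv.ofBijective f ⟨hinj, hsurj⟩, hf⟩

/-- the general form of `nmA_toAL`, `nmTop_toAL` -/
private theorem trans_finsum_smul_toAL {X : Type} (r : X → Gv q) (H' H : Subgroup GQ)
    [Finite (H ⧸ H'.subgroupOf H)] (e : X ≃ H ⧸ H'.subgroupOf H) (hr : ∀ c, ιv q (r c) ∈ H)
    (he : ∀ c, e c = QuotientGroup.mk (⟨ιv q (r c), hr c⟩ : H)) {x : Qbˣ} (hx : x ∈ fixH H') :
    ∑ᶠ c : X, r c • toAL q x = toAL q (nm H' H x) := by
  classical
  have : Finite X := Finite.of_equiv _ e.symm
  have := Fintype.ofFinite X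
  have := Fintype.ofFinite (H ⧸ H'.subgroupOf H)
  rw [nm_eq_finprod_of_section H' H hx (fun c' => ⟨ιv q (r (e.symm c')), hr _⟩)
    (fun c' => by rw [← he, Equiv.apply_symm_apply]), finsum_eq_sum_of_fintype,
    finprod_eq_prod_of_fintype, trans_toAL_prod]
  refine Fintype.sum_equiv e _ _ fun c => ?_
  rw [Equiv.symm_apply_apply, smul_toAL]

private theorem trans_img_le_Dq (U : Subgroup (Gv q)) : img q U ≤ Dq q := by
  rintro _ ⟨γ, _, rfl⟩
  exact ιv_mem_Dq q γ

theorem nmA_toAL {V : Subgroup (Gv q)} (hV : IsOpenSub q V) (U : Subgroup (Gv q)) {x : Qbˣ}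
    (hx : x ∈ fixH (img q V)) :
    nmA (AL q) V U (toAL q x) = toAL q (nm (img q V) (img q U) x) := by
  have := isOp_img hV
  have := IsOp.finite_quotient q (img q V) (img q U) (trans_img_le_Dq U)
  obtain ⟨e, he⟩ := trans_exists_quotEquiv ((ιv q).subgroupMap U)
    ((ιv q).subgroupMap_surjective U) (V.subgroupOf U) ((img q V).subgroupOf (img q U))
    (fun t => by
      rw [Subgroup.mem_subgroupOf, Subgroup.mem_subgroupOf]
      conv_lhs => rw [← comap_img hV]
      rfl)
  refine trans_finsum_smul_toAL (fun c : ↥U ⧸ V.subgroupOf U => ((Quotient.out c : ↥U) : Gv q))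
    (img q V) (img q U) e (fun c => ⟨_, (Quotient.out c : ↥U).2, rfl⟩) (fun c => ?_) hx
  conv_lhs => rw [← Quotient.out_eq c]
  exact he _

theorem nmTop_toAL {U : Subgroup (Gv q)} (hU : IsOpenSub q U) {x : Qbˣ}
    (hx : x ∈ fixH (img q U)) :
    nmTop (AL q) U (toAL q x) = toAL q (nm (img q U) (Dq q) x) := by
  have := isOp_img hU
  have := IsOp.finite_quotient q (img q U) (Dq q) le_rfl
  obtain ⟨e, he⟩ := trans_exists_quotEquiv ((ιv q).codRestrict (Dq q) (ιv_mem_Dq q))
    (fun d => by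
      have hd : (d : GQ) ∈ (ιv q).range := by rw [range_ιv]; exact d.2
      obtain ⟨γ, hγ⟩ := hd
      exact ⟨γ, Subtype.ext hγ⟩) U ((img q U).subgroupOf (Dq q))
    (fun t => by
      rw [Subgroup.mem_subgroupOf]
      conv_lhs => rw [← comap_img hU]
      rfl)
  refine trans_finsum_smul_toAL (fun c : Gv q ⧸ U => (Quotient.out c : Gv q))
    (img q U) (Dq q) e (fun c => ιv_mem_Dq q _) (fun c => ?_) hx
  conv_lhs => rw [← Quotient.out_eq c]
  exact he _

/-- the additive subgroup of `AL q` attached to a subgroup of `ℚ̄ˣ` -/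
private def transSub (q : Nat.Primes) (M : Subgroup Qbˣ) : AddSubgroup (AL q) where
  carrier := {a | (toAL q).symm a ∈ M}
  zero_mem' := M.one_mem
  add_mem' := fun ha hb => M.mul_mem ha hb
  neg_mem' := fun ha => M.inv_mem ha

private theorem trans_toAL_mem_transSub (M : Subgroup Qbˣ) (x : Qbˣ) :
    toAL q x ∈ transSub q M ↔ x ∈ M := Iff.rfl

private theorem trans_relIndex_transSub (M K : Subgroup Qbˣ) :
    (transSub q M).relIndex (transSub q K) = M.relIndex K := rfl

private theorem trans_fixA_eq (U : Subgroup (Gv q)) :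
    fixA (AL q) U = transSub q (fixH (img q U)) := by
  ext a
  obtain ⟨x, rfl⟩ := (toAL q).surjective a
  rw [toAL_mem_fixA_iff, trans_toAL_mem_transSub]

private theorem trans_normSub_eq {V : Subgroup (Gv q)} (hV : IsOpenSub q V)
    (U : Subgroup (Gv q)) :
    normSub (AL q) V U = transSub q ((fixH (img q V)).map (nm (img q V) (img q U))) := by
  have hset : nmA (AL q) V U '' (fixA (AL q) V : Set (AL q)) =
      (transSub q ((fixH (img q V)).map (nm (img q V) (img q U))) : Set (AL q)) := by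
    ext a
    obtain ⟨x, rfl⟩ := (toAL q).surjective a
    constructor
    · rintro ⟨b, hb, hbx⟩
      obtain ⟨y, rfl⟩ := (toAL q).surjective b
      have hy : y ∈ fixH (img q V) := (toAL_mem_fixA_iff V y).1 hb
      rw [nmA_toAL hV U hy] at hbx
      exact ⟨y, hy, (toAL q).injective hbx⟩
    · rintro ⟨y, hy, hyx⟩
      refine ⟨toAL q y, (toAL_mem_fixA_iff V y).2 hy, ?_⟩
      rw [nmA_toAL hV U hy]
      exact congrArg (toAL q) hyx
  rw [normSub, hset, AddSubgroup.closure_eq]

theorem toAL_mem_normSub_iff {V : Subgroup (Gv q)} (hV : IsOpenSub q V) (U : Subgroup (Gv q))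
    (x : Qbˣ) :
    toAL q x ∈ normSub (AL q) V U ↔ x ∈ (fixH (img q V)).map (nm (img q V) (img q U)) := by
  rw [trans_normSub_eq hV U, trans_toAL_mem_transSub]

theorem relIndex_normSub {V : Subgroup (Gv q)} (hV : IsOpenSub q V) (U : Subgroup (Gv q)) :
    (normSub (AL q) V U).relIndex (fixA (AL q) U) =
      ((fixH (img q V)).map (nm (img q V) (img q U))).relIndex (fixH (img q U)) := by
  rw [trans_normSub_eq hV U, trans_fixA_eq, trans_relIndex_transSub]

theorem img_le_img {V U : Subgroup (Gv q)} (h : V ≤ U) : img q V ≤ img q U :=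
  Subgroup.map_mono h

theorem normal_subgroupOf_img {V U : Subgroup (Gv q)} (h : V ≤ U) (hn : (V.subgroupOf U).Normal) :
    ((img q V).subgroupOf (img q U)).Normal := by
  refine ⟨fun n hnV g => ?_⟩
  rw [Subgroup.mem_subgroupOf] at hnV ⊢
  obtain ⟨v, hv, hvn⟩ := hnV
  obtain ⟨u, hu, hug⟩ := g.2
  have h1 : (⟨u, hu⟩ : ↥U) * ⟨v, h hv⟩ * (⟨u, hu⟩ : ↥U)⁻¹ ∈ V.subgroupOf U :=
    hn.conj_mem ⟨v, h hv⟩ (Subgroup.mem_subgroupOf.2 hv) ⟨u, hu⟩
  rw [Subgroup.mem_subgroupOf] at h1
  refine ⟨_, h1, ?_⟩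
  simp only [Subgroup.coe_mul, Subgroup.coe_inv, map_mul, map_inv, hvn, hug]

end Fermat.Agent.S55.Loc.Field
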