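/-
S55 / LOC-F : section `ResDeg` (F5d: `H` fixes `μ_{q^n-1}` iff `n ∣ fH q H`).  (helper171)
-/
import Fermat.Agent.S55.Loc.Field.Exp
import Fermat.Agent.S55.Loc.Field.DVR

set_option autoImplicit false

namespace Fermat.Agent.S55.Loc.Field

variable (q : Nat.Primes) (H : Subgroup GQ) [IsOp q H]

/-! ### Auxiliary facts on `plc q` -/

omit [IsOp q H] in
private theorem resDeg_sub_mem_nonunits {a b : Qb} (ha : a ∈ (plc q).nonunits)
    (hb : b ∈ (plc q).nonunits) : a - b ∈ (plc q).nonunits := by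
  rw [ValuationSubring.mem_nonunits_iff] at ha hb ⊢
  exact Valuation.map_sub_lt _ ha hb

omit [IsOp q H] in
private theorem resDeg_zero_mem_nonunits : (0 : Qb) ∈ (plc q).nonunits := by
  rw [ValuationSubring.mem_nonunits_iff, map_zero]
  exact zero_lt_one

omit [IsOp q H] in
private theorem resDeg_residue_eq_zero_iff (a : plc q) :
    IsLocalRing.residue (plc q) a = 0 ↔ (a : Qb) ∈ (plc q).nonunits := by
  rw [IsLocalRing.residue_eq_zero_iff, ValuationSubring.coe_mem_nonunits_iff]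

omit [IsOp q H] in
private theorem resDeg_one_lt_pow {n : ℕ} (hn : 0 < n) : 1 < (q : ℕ) ^ n :=
  Nat.one_lt_pow hn.ne' q.2.one_lt

omit [IsOp q H] in
private theorem resDeg_mem_plc_of_pow {n : ℕ} (hn : 0 < n) {ζ : Qb}
    (h : ζ ^ ((q : ℕ) ^ n - 1) = 1) : ζ ∈ plc q := by
  have h0 : 0 < (q : ℕ) ^ n - 1 := Nat.sub_pos_of_lt (resDeg_one_lt_pow q hn)
  exact (isU_iff.1 (isU_of_pow_eq_one (q := q) h0 h)).2.1

omit [IsOp q H] in
private theorem resDeg_pow_pow_eq {n : ℕ} (hn : 0 < n) {ζ : Qb}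
    (h : ζ ^ ((q : ℕ) ^ n - 1) = 1) : ζ ^ ((q : ℕ) ^ n) = ζ := by
  have h0 : (q : ℕ) ^ n = ((q : ℕ) ^ n - 1) + 1 :=
    (Nat.sub_add_cancel (resDeg_one_lt_pow q hn).le).symm
  rw [h0, pow_succ, h, one_mul]

/-- the inclusion `oF q H → plc q`. -/
private noncomputable def resDegInc : oF q H →+* plc q where
  toFun x := ⟨((x : kF H) : Qb), x.2⟩
  map_one' := rfl
  map_mul' _ _ := rfl
  map_zero' := rfl
  map_add' _ _ := rfl

/-- the reduction `oF q H → ResidueField (plc q)`. -/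
private noncomputable def resDegRed : oF q H →+* IsLocalRing.ResidueField (plc q) :=
  (IsLocalRing.residue (plc q)).comp (resDegInc q H)

omit [IsOp q H] in
private theorem resDegRed_eq_zero_iff (x : oF q H) :
    resDegRed q H x = 0 ↔ x ∈ IsLocalRing.maximalIdeal (oF q H) := by
  rw [mem_maximalIdeal_oF]
  exact resDeg_residue_eq_zero_iff q (resDegInc q H x)

omit [IsOp q H] in
private theorem resDegRed_isLocalHom : IsLocalHom (resDegRed q H) := by
  refine ⟨fun a ha => ?_⟩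
  by_contra hna
  have h1 : a ∈ IsLocalRing.maximalIdeal (oF q H) := (IsLocalRing.mem_maximalIdeal a).2 hna
  rw [← resDegRed_eq_zero_iff] at h1
  rw [h1] at ha
  exact not_isUnit_zero ha

/-- every element of `oF q H` satisfies `x ^ (q ^ fH) ≡ x`. -/
theorem pow_card_sub_mem_nonunits {x : Qb} (hx : x ∈ kF H) (hxA : x ∈ plc q) :
    x ^ ((q : ℕ) ^ fH q H) - x ∈ (plc q).nonunits := by
  let X : oF q H := ⟨⟨x, hx⟩, hxA⟩
  have := Fintype.ofFinite (IsLocalRing.ResidueField (oF q H))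
  have h1 := FiniteField.pow_card (IsLocalRing.residue (oF q H) X)
  rw [← Nat.card_eq_fintype_card, card_residueField_oF, ← map_pow, ← sub_eq_zero, ← map_sub,
    IsLocalRing.residue_eq_zero_iff, mem_maximalIdeal_oF] at h1
  exact h1

/-- conversely the solutions of `x ^ (q ^ fH) ≡ x` in `plc q` are congruent to elements of `kF H`. -/
theorem exists_mem_kF_of_pow_sub_mem {x : Qb} (hxA : x ∈ plc q)
    (h : x ^ ((q : ℕ) ^ fH q H) - x ∈ (plc q).nonunits) :
    ∃ y ∈ kF H, y ∈ plc q ∧ x - y ∈ (plc q).nonunits := by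
  classical
  have := Fintype.ofFinite (IsLocalRing.ResidueField (oF q H))
  have := resDegRed_isLocalHom q H
  let ι : IsLocalRing.ResidueField (oF q H) →+* IsLocalRing.ResidueField (plc q) :=
    IsLocalRing.ResidueField.lift (resDegRed q H)
  have hlt : 1 < (q : ℕ) ^ fH q H := resDeg_one_lt_pow q (fH_pos q H)
  let P : Polynomial (IsLocalRing.ResidueField (plc q)) :=
    Polynomial.X ^ ((q : ℕ) ^ fH q H) - Polynomial.X
  have hP0 : P ≠ 0 := FiniteField.X_pow_card_sub_X_ne_zero _ hlt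
  have hPdeg : P.natDegree = (q : ℕ) ^ fH q H := FiniteField.X_pow_card_sub_X_natDegree_eq _ hlt
  have hcard : Fintype.card (IsLocalRing.ResidueField (oF q H)) = (q : ℕ) ^ fH q H := by
    rw [← Nat.card_eq_fintype_card, card_residueField_oF]
  have hroot : ∀ z : IsLocalRing.ResidueField (plc q),
      z ∈ P.roots.toFinset ↔ z ^ ((q : ℕ) ^ fH q H) - z = 0 := by
    intro z
    rw [Multiset.mem_toFinset, Polynomial.mem_roots hP0, Polynomial.IsRoot.def]
    simp [P]
  have hsub : Finset.univ.image ι ⊆ P.roots.toFinset := by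
    intro z hz
    obtain ⟨k, -, rfl⟩ := Finset.mem_image.1 hz
    rw [hroot, ← map_pow, ← hcard, FiniteField.pow_card, sub_self]
  have hle : P.roots.toFinset.card ≤ (Finset.univ.image ι).card := by
    rw [Finset.card_image_of_injective _ ι.injective, Finset.card_univ, hcard, ← hPdeg]
    exact (Multiset.toFinset_card_le _).trans (Polynomial.card_roots' P)
  have heq := Finset.eq_of_subset_of_card_le hsub hle
  have hx : IsLocalRing.residue (plc q) ⟨x, hxA⟩ ∈ Finset.univ.image ι := by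
    rw [heq, hroot, ← map_pow, ← map_sub, resDeg_residue_eq_zero_iff]
    exact h
  obtain ⟨k, -, hk⟩ := Finset.mem_image.1 hx
  obtain ⟨Y, rfl⟩ := IsLocalRing.residue_surjective k
  refine ⟨((Y : kF H) : Qb), (Y : kF H).2, Y.2, ?_⟩
  have h2 : IsLocalRing.residue (plc q) (⟨x, hxA⟩ - resDegInc q H Y) = 0 := by
    rw [map_sub, sub_eq_zero, ← hk]
    rfl
  rw [resDeg_residue_eq_zero_iff] at h2
  exact h2

theorem le_fixMu_fH : H ≤ fixMu q (fH q H) := by
  intro h hh
  rw [mem_fixMu]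
  intro ζ hζ
  have hf := fH_pos q H
  have hD : h ∈ Dq q := IsOp.le hh
  have hζA : ζ ∈ plc q := resDeg_mem_plc_of_pow q hf hζ
  have h0 : ζ ^ ((q : ℕ) ^ fH q H) - ζ ∈ (plc q).nonunits := by
    rw [resDeg_pow_pow_eq q hf hζ, sub_self]
    exact resDeg_zero_mem_nonunits q
  obtain ⟨y, hy, -, hyζ⟩ := exists_mem_kF_of_pow_sub_mem q H hζA h0
  have hhy : h y = y := mem_kF.1 hy h hh
  have h1 : h ζ - ζ ∈ (plc q).nonunits := by
    have e : h ζ - ζ = h (ζ - y) - (ζ - y) := by
      rw [map_sub, hhy]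
      ring
    rw [e]
    exact resDeg_sub_mem_nonunits q ((apply_mem_nonunits_iff hD _).2 hyζ) hyζ
  have h2 : (h ζ) ^ ((q : ℕ) ^ fH q H - 1) = 1 := by rw [← map_pow, hζ, map_one]
  exact eq_of_sub_mem_nonunits hf h2 hζ h1

theorem le_fixMu_iff {n : ℕ} (hn : 0 < n) : H ≤ fixMu q n ↔ n ∣ fH q H := by
  constructor
  · intro hH
    have h1 : IsExp q (1 : GQ) n (fH q H) := by
      intro ζ hζ
      have hk : ζ ∈ kF H := mem_kF.2 fun h hh => mem_fixMu.1 (hH hh) ζ hζ
      have hA : ζ ∈ plc q := resDeg_mem_plc_of_pow q hn hζ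
      have h2 := pow_card_sub_mem_nonunits q H hk hA
      have h3 : (ζ ^ ((q : ℕ) ^ fH q H)) ^ ((q : ℕ) ^ n - 1) = 1 := by
        rw [← pow_mul, mul_comm, pow_mul, hζ, one_pow]
      exact (eq_of_sub_mem_nonunits hn h3 hζ h2).symm
    have h0 : IsExp q (1 : GQ) n 0 := by
      intro ζ _
      rw [pow_zero, pow_one]
      rfl
    exact (Nat.modEq_zero_iff_dvd).1 (h1.modEq hn h0)
  · intro hd
    exact (le_fixMu_fH q H).trans (fixMu_le_of_dvd hd)

end Fermat.Agent.S55.Loc.Field
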