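/-
S55 / LOC-F, section `Unram` (F5e: `kF (H ⊓ fixMu q n) / kF H` is unramified; units are norms).
Owner helper138.
-/
import Fermat.Agent.S55.Loc.Field.ResDeg
import Fermat.Agent.S55.Loc.Field.OrdComp
import Fermat.Agent.S55.Loc.Arith.EFN
import Fermat.Agent.S55.Loc.Arith.UnramRange

set_option autoImplicit false

namespace Fermat.Agent.S55.Loc.Field

open Fermat.Agent.S55.Loc

variable (q : Nat.Primes) (H : Subgroup GQ) [IsOp q H] (n : ℕ) [NeZero n]

/-- the Frobenius exponent modulo `n` as a homomorphism on `H`. -/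
noncomputable def Unram.expoHom : H →* Multiplicative (ZMod n) where
  toFun h := Multiplicative.ofAdd ((expo q (h : GQ) n : ℕ) : ZMod n)
  map_one' := by
    have hn : 0 < n := NeZero.pos n
    have h1 : IsExp q (1 : GQ) n (expo q (1 : GQ) n) := isExp_expo (Subgroup.one_mem _) hn
    have h0 : IsExp q (1 : GQ) n 0 := isExp_zero_iff.2 (Subgroup.one_mem _)
    have h2 := (ZMod.natCast_eq_natCast_iff _ _ _).2 (h1.modEq hn h0)
    show Multiplicative.ofAdd ((expo q (1 : GQ) n : ℕ) : ZMod n) = 1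
    rw [h2, Nat.cast_zero]
    rfl
  map_mul' a b := by
    have hn : 0 < n := NeZero.pos n
    have hle : H ≤ Dq q := IsOp.le
    have ha : IsExp q (a : GQ) n (expo q (a : GQ) n) := isExp_expo (hle a.2) hn
    have hb : IsExp q (b : GQ) n (expo q (b : GQ) n) := isExp_expo (hle b.2) hn
    have hab : IsExp q ((a : GQ) * (b : GQ)) n (expo q ((a : GQ) * (b : GQ)) n) :=
      isExp_expo (hle (H.mul_mem a.2 b.2)) hn
    have h2 := (ZMod.natCast_eq_natCast_iff _ _ _).2 (hab.modEq hn (ha.mul hb))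
    show Multiplicative.ofAdd ((expo q ((a : GQ) * (b : GQ)) n : ℕ) : ZMod n) = _
    rw [h2, Nat.cast_add]
    rfl

theorem Unram.expoHom_apply (h : H) :
    Unram.expoHom q H n h = Multiplicative.ofAdd ((expo q (h : GQ) n : ℕ) : ZMod n) := rfl

theorem Unram.ker_expoHom : (Unram.expoHom q H n).ker = (H ⊓ fixMu q n).subgroupOf H := by
  have hn : 0 < n := NeZero.pos n
  have hle : H ≤ Dq q := IsOp.le
  ext h
  have hh : IsExp q (h : GQ) n (expo q (h : GQ) n) := isExp_expo (hle h.2) hn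
  rw [MonoidHom.mem_ker, Unram.expoHom_apply, Subgroup.mem_subgroupOf, Subgroup.mem_inf,
    ← isExp_zero_iff]
  constructor
  · intro h1
    have h2 : ((expo q (h : GQ) n : ℕ) : ZMod n) = ((0 : ℕ) : ZMod n) := by
      rw [Nat.cast_zero]
      exact h1
    exact ⟨h.2, hh.of_modEq ((ZMod.natCast_eq_natCast_iff _ _ _).1 h2)⟩
  · rintro ⟨-, h0⟩
    have h2 := (ZMod.natCast_eq_natCast_iff _ _ _).2 (hh.modEq hn h0)
    rw [h2, Nat.cast_zero]
    rfl

theorem Unram.gcd_dvd_expo (h : H) : Nat.gcd n (fH q H) ∣ expo q (h : GQ) n := by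
  have hn : 0 < n := NeZero.pos n
  have hle : H ≤ Dq q := IsOp.le
  have hg : 0 < Nat.gcd n (fH q H) := Nat.gcd_pos_of_pos_left _ hn
  have hh : IsExp q (h : GQ) n (expo q (h : GQ) n) := isExp_expo (hle h.2) hn
  have h1 : IsExp q (h : GQ) (Nat.gcd n (fH q H)) (expo q (h : GQ) n) :=
    hh.of_dvd (Nat.gcd_dvd_left _ _)
  have h2 : IsExp q (h : GQ) (Nat.gcd n (fH q H)) 0 :=
    isExp_zero_iff.2 ((le_fixMu_iff q H hg).2 (Nat.gcd_dvd_right _ _) h.2)
  exact (Nat.modEq_zero_iff_dvd).1 (h1.modEq hg h2)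

/-- `[H : H ⊓ fixMu q n] ≤ n / gcd (n, fH)`. -/
theorem relIndex_fixMu_mul_le : (H ⊓ fixMu q n).relIndex H * Nat.gcd n (fH q H) ≤ n := by
  have hn : 0 < n := NeZero.pos n
  set g := Nat.gcd n (fH q H) with hg
  have hgn : g ∣ n := Nat.gcd_dvd_left _ _
  have h1 : (H ⊓ fixMu q n).relIndex H = Nat.card (Unram.expoHom q H n).range := by
    rw [Subgroup.relIndex, ← Unram.ker_expoHom, Subgroup.index_ker]
  have h2 : Nat.card (AddSubgroup.zmultiples ((g : ℕ) : ZMod n)) = n / g := by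
    rw [Nat.card_zmultiples, ZMod.addOrderOf_coe g hn.ne', Nat.gcd_eq_right hgn]
  have h3 : Nat.card (Unram.expoHom q H n).range ≤
      Nat.card (AddSubgroup.zmultiples ((g : ℕ) : ZMod n)) := by
    have hmem : ∀ x : (Unram.expoHom q H n).range,
        Multiplicative.toAdd (x : Multiplicative (ZMod n)) ∈
          AddSubgroup.zmultiples ((g : ℕ) : ZMod n) := by
      rintro ⟨_, h, rfl⟩
      obtain ⟨k, hk⟩ := Unram.gcd_dvd_expo q H n h
      refine AddSubgroup.mem_zmultiples_iff.2 ⟨(k : ℤ), ?_⟩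
      show (k : ℤ) • ((g : ℕ) : ZMod n) = ((expo q (h : GQ) n : ℕ) : ZMod n)
      rw [hk, Nat.cast_mul, zsmul_eq_mul, Int.cast_natCast, mul_comm]
    refine Nat.card_le_card_of_injective
      (fun x => (⟨_, hmem x⟩ : AddSubgroup.zmultiples ((g : ℕ) : ZMod n))) ?_
    intro x y hxy
    have h4 : Multiplicative.toAdd (x : Multiplicative (ZMod n)) =
        Multiplicative.toAdd (y : Multiplicative (ZMod n)) :=
      congrArg (fun z : AddSubgroup.zmultiples ((g : ℕ) : ZMod n) => (z : ZMod n)) hxy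
    exact Subtype.ext (Multiplicative.toAdd.injective h4)
  rw [h1]
  calc Nat.card (Unram.expoHom q H n).range * g ≤ n / g * g := Nat.mul_le_mul_right _ (h2 ▸ h3)
    _ = n := Nat.div_mul_cancel hgn

/-- `lcm (n, fH q H) ∣ fH q (H ⊓ fixMu q n)`. -/
theorem lcm_dvd_fH_inf : Nat.lcm n (fH q H) ∣ fH q (H ⊓ fixMu q n) := by
  refine Nat.lcm_dvd ?_ ?_
  · exact (le_fixMu_iff q (H ⊓ fixMu q n) (NeZero.pos n)).1 inf_le_right
  · exact Dvd.intro _ (fH_eq_mul_resDeg q H (H ⊓ fixMu q n)).symm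

theorem Unram.ramIdx_mul_resDeg :
    Arith.ramIdx (oF q H) (kF H) (oF q (H ⊓ fixMu q n)) (kF (H ⊓ fixMu q n)) *
      Arith.resDeg (oF q H) (oF q (H ⊓ fixMu q n)) = (H ⊓ fixMu q n).relIndex H := by
  have := finiteDimensional_kF q (H ⊓ fixMu q n) H
  rw [Arith.ramIdx_mul_resDeg (oF q H) (kF H) (oF q (H ⊓ fixMu q n)) (kF (H ⊓ fixMu q n)),
    finrank_kF q (H ⊓ fixMu q n) H]

theorem resDeg_fixMu :
    Arith.resDeg (oF q H) (oF q (H ⊓ fixMu q n)) = (H ⊓ fixMu q n).relIndex H := by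
  have := finiteDimensional_kF q (H ⊓ fixMu q n) H
  have hef := Unram.ramIdx_mul_resDeg q H n
  have he : 0 < Arith.ramIdx (oF q H) (kF H) (oF q (H ⊓ fixMu q n)) (kF (H ⊓ fixMu q n)) :=
    Arith.ramIdx_pos _ _ _ _
  have hr : 0 < Arith.resDeg (oF q H) (oF q (H ⊓ fixMu q n)) :=
    Arith.resDeg_pos (oF q H) (kF H) (oF q (H ⊓ fixMu q n)) (kF (H ⊓ fixMu q n))
  have hf : 0 < fH q H := fH_pos q H
  have h1 := relIndex_fixMu_mul_le q H n
  have h2 := lcm_dvd_fH_inf q H n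
  rw [fH_eq_mul_resDeg q H (H ⊓ fixMu q n)] at h2
  have h3 := Nat.le_of_dvd (Nat.mul_pos hf hr) h2
  have h4 := Nat.gcd_mul_lcm n (fH q H)
  set r := Arith.resDeg (oF q H) (oF q (H ⊓ fixMu q n))
  set e := Arith.ramIdx (oF q H) (kF H) (oF q (H ⊓ fixMu q n)) (kF (H ⊓ fixMu q n))
  set c := (H ⊓ fixMu q n).relIndex H
  set g := Nat.gcd n (fH q H)
  set L := Nat.lcm n (fH q H)
  set f := fH q H
  have hg : 0 < g := Nat.gcd_pos_of_pos_left _ (NeZero.pos n)
  -- `r ≤ c`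
  have h5 : r ≤ c := by
    rw [← hef]
    exact Nat.le_mul_of_pos_left _ he
  -- `n ≤ g * r`
  have h6 : n ≤ g * r := by
    have : n * f ≤ (g * r) * f := by
      calc n * f = g * L := h4.symm
        _ ≤ g * (f * r) := Nat.mul_le_mul_left _ h3
        _ = (g * r) * f := by ring
    exact Nat.le_of_mul_le_mul_right this hf
  have h7 : c ≤ r := by
    have : c * g ≤ r * g := by
      calc c * g ≤ n := h1
        _ ≤ g * r := h6
        _ = r * g := Nat.mul_comm _ _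
    exact Nat.le_of_mul_le_mul_right this hg
  exact le_antisymm h5 h7

theorem ramIdx_fixMu :
    Arith.ramIdx (oF q H) (kF H) (oF q (H ⊓ fixMu q n)) (kF (H ⊓ fixMu q n)) = 1 := by
  have := finiteDimensional_kF q (H ⊓ fixMu q n) H
  have hef := Unram.ramIdx_mul_resDeg q H n
  have hr : 0 < Arith.resDeg (oF q H) (oF q (H ⊓ fixMu q n)) :=
    Arith.resDeg_pos (oF q H) (kF H) (oF q (H ⊓ fixMu q n)) (kF (H ⊓ fixMu q n))
  rw [← resDeg_fixMu q H n] at hef
  exact Nat.eq_of_mul_eq_mul_right hr (hef.trans (one_mul _).symm)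

variable {H}

theorem exists_nm_eq_of_isU {a : Qbˣ} (ha : a ∈ fixH H) (hu : IsU q (a : Qb)) :
    ∃ b ∈ fixH (H ⊓ fixMu q n), nm (H ⊓ fixMu q n) H b = a := by
  have := finiteDimensional_kF q (H ⊓ fixMu q n) H
  have hfin : Finite (H ⧸ (H ⊓ fixMu q n).subgroupOf H) :=
    IsOp.finite_quotient q (H ⊓ fixMu q n) H IsOp.le
  have hx : IsU q (((fixEquiv H ⟨a, ha⟩ : (kF H)ˣ) : kF H) : Qb) := by
    rw [fixEquiv_coe]
    exact hu
  obtain ⟨u, hu'⟩ := (isU_iff_mem_UK q H _).1 hx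
  obtain ⟨w, hw⟩ := Arith.exists_unit_normU_eq (oF q H) (kF H) (oF q (H ⊓ fixMu q n))
    (kF (H ⊓ fixMu q n)) (ramIdx_fixMu q H n) u
  set b' : fixH (H ⊓ fixMu q n) := (fixEquiv (H ⊓ fixMu q n)).symm
    (Arith.unitsMap (oF q (H ⊓ fixMu q n)) (kF (H ⊓ fixMu q n)) w) with hb'
  have hb : nm (H ⊓ fixMu q n) H (b' : Qbˣ) ∈ fixH H := nm_mem_fixH _ _ b'.2
  refine ⟨b', b'.2, ?_⟩
  have h1 := fixEquiv_nm q H (H ⊓ fixMu q n) b' hb
  have h2 : fixEquiv (H ⊓ fixMu q n) b' =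
      Arith.unitsMap (oF q (H ⊓ fixMu q n)) (kF (H ⊓ fixMu q n)) w := by
    rw [hb', MulEquiv.apply_symm_apply]
  rw [h2, hw, hu'] at h1
  exact congrArg Subtype.val ((fixEquiv H).injective h1)

end Fermat.Agent.S55.Loc.Field
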