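/-
S55 / LOC-F : section `WH` (the function `wH q H a = ord_q (N a) = fH * ord_H a`).
-/
import Fermat.Agent.S55.Loc.Field.OrdComp
import Fermat.Agent.S55.Loc.Arith.EFN

set_option autoImplicit false

namespace Fermat.Agent.S55.Loc.Field

open Fermat.Agent.S55.Loc

variable (q : Nat.Primes) (H : Subgroup GQ) [IsOp q H]

theorem wH_eq (a : fixH H) :
    wH q H (a : Qbˣ) = fH q H * Arith.ord (oF q H) (kF H) (fixEquiv H a) := by
  haveI : Finite (Dq q ⧸ H.subgroupOf (Dq q)) := IsOp.finite_quotient q H (Dq q) le_rfl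
  haveI : FiniteDimensional (kF (Dq q)) (kF H) := finiteDimensional_kF q H (Dq q)
  have hmem : nm H (Dq q) (a : Qbˣ) ∈ fixH (Dq q) := nm_mem_fixH H (Dq q) a.2
  have h1 := fixEquiv_nm q (Dq q) H a hmem
  have h2 := ordQ_eq_ord q (fixEquiv (Dq q) ⟨nm H (Dq q) (a : Qbˣ), hmem⟩)
  rw [fixEquiv_coe] at h2
  unfold wH
  rw [h2, h1]
  have h3 := Arith.ord_normU (oF q (Dq q)) (kF (Dq q)) (oF q H) (kF H) (fixEquiv H a)
  rw [resDeg_base] at h3
  exact h3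

variable {H}

theorem fH_dvd_wH {a : Qbˣ} (ha : a ∈ fixH H) : (fH q H : ℤ) ∣ wH q H a :=
  Dvd.intro _ (wH_eq q H ⟨a, ha⟩).symm

theorem wH_eq_zero_iff {a : Qbˣ} (ha : a ∈ fixH H) : wH q H a = 0 ↔ IsU q (a : Qb) := by
  have h := wH_eq q H ⟨a, ha⟩
  have hc := fixEquiv_coe H ⟨a, ha⟩
  have hU := isU_iff_ord_eq_zero q H (fixEquiv H ⟨a, ha⟩)
  rw [hc] at hU
  have hpos : (fH q H : ℤ) ≠ 0 := by
    have := fH_pos q H
    exact_mod_cast this.ne'
  change wH q H a = _ at h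
  change IsU q (a : Qb) ↔ _ at hU
  rw [h, hU, mul_eq_zero]
  exact ⟨fun h' => h'.resolve_left hpos, Or.inr⟩

variable (H)

theorem exists_wH_eq_fH : ∃ π ∈ fixH H, wH q H π = fH q H := by
  obtain ⟨π, hπ⟩ := Arith.exists_ord_eq_one (oF q H) (kF H)
  refine ⟨((fixEquiv H).symm π : fixH H), ((fixEquiv H).symm π).2, ?_⟩
  rw [wH_eq q H ((fixEquiv H).symm π), MulEquiv.apply_symm_apply, hπ, mul_one]

end Fermat.Agent.S55.Loc.Field
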