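/-
S55 / LOC-F : the final export `localInput q : LocalInput (lvlLoc q) (ResMod (ιv q) Kx)`
(assembly).
-/
import Fermat.Agent.S55.Loc.Field.Chi
import Fermat.Agent.S55.Loc.Field.WH
import Fermat.Agent.S55.Loc.Field.Unram
import Fermat.Agent.S55.Loc.Field.NormIdx
import Fermat.Agent.S55.Loc.Field.Trans
import Fermat.Agent.S55.Arith.Hilbert90

set_option autoImplicit false

namespace Fermat.Agent.S55.Loc.Field

open Fermat.Agent.S55.Loc

variable (q : Nat.Primes)

/-- the valuation of the base field. -/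
noncomputable def vAL (a : AL q) : ℤ := ordQ q ((((toAL q).symm a : Qbˣ)) : Qb)

theorem vAL_toAL (x : Qbˣ) : vAL q (toAL q x) = ordQ q (x : Qb) := by
  unfold vAL
  rw [Equiv.symm_apply_apply]

theorem vAL_nmTop {U : Subgroup (Gv q)} (hU : IsOpenSub q U) {x : Qbˣ}
    (hx : x ∈ fixH (img q U)) : vAL q (nmTop (AL q) U (toAL q x)) = wH q (img q U) x := by
  rw [nmTop_toAL hU hx, vAL_toAL]
  rfl

theorem img_le_fixMu_iff (U : Subgroup (Gv q)) (r : QZ) :
    img q U ≤ fixMu q (addOrderOf r) ↔ ∀ u ∈ U, chiG q r (ιv q u) = 0 := by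
  constructor
  · intro h u hu
    rw [chiG_eq_zero_iff (ιv_mem_Dq q u)]
    exact h ⟨u, hu, rfl⟩
  · rintro h _ ⟨u, hu, rfl⟩
    rw [← chiG_eq_zero_iff (ιv_mem_Dq q u)]
    exact h u hu

/-- THE EXPORT OF LOC-F. -/
noncomputable def localInput : LocalInput (lvlLoc q) (AL q) where
  v := vAL q
  v_add := by
    intro a ha b hb
    obtain ⟨x, rfl⟩ := (toAL q).surjective a
    obtain ⟨y, rfl⟩ := (toAL q).surjective b
    rw [toAL_mem_fixA_iff, img_top, mem_fixH_iff_mem_kF] at ha hb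
    rw [← toAL_mul, vAL_toAL, vAL_toAL, vAL_toAL, Units.val_mul]
    exact ordQ_mul ha x.ne_zero hb y.ne_zero
  chi r γ := chiG q r (ιv q γ)
  chi_add r s γ := chiG_add (ιv_mem_Dq q γ) r s
  chi_mul r γ γ' := by
    rw [map_mul]
    exact chiG_mul (ιv_mem_Dq q γ) (ιv_mem_Dq q γ') r
  chi_level r := by
    obtain ⟨F, hF, hs, hFix⟩ := exists_field_fixMu q (addOrderOf_QZ_pos r)
    refine ⟨F.fixingSubgroup.comap (ιv q), ⟨_, ⟨F, hF, hs, rfl⟩, rfl⟩, fun n hn => ?_⟩
    rw [chiG_eq_zero_iff (ιv_mem_Dq q n), ← hFix]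
    exact hn
  frob := by
    have h := exists_chiG_frob q
    have h2 : h.choose ∈ (ιv q).range := by
      rw [range_ιv]
      exact h.choose_spec.1
    exact h2.choose
  chi_frob r := by
    have h := exists_chiG_frob q
    have h2 : h.choose ∈ (ιv q).range := by
      rw [range_ιv]
      exact h.choose_spec.1
    show chiG q r (ιv q h2.choose) = r
    rw [h2.choose_spec]
    exact h.choose_spec.2 r
  h90 U hU x := hilbert90_local_coset q U hU x
  ar1 := by
    intro U hU r hr a ha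
    obtain ⟨x, rfl⟩ := (toAL q).surjective a
    rw [toAL_mem_fixA_iff] at ha
    haveI := isOp_img hU
    rw [vAL_nmTop q hU ha, zsmul_eq_zero_iff_addOrderOf_dvd]
    have h1 := (le_fixMu_iff q (img q U) (addOrderOf_QZ_pos r)).1 ((img_le_fixMu_iff q U r).2 hr)
    exact (Int.natCast_dvd_natCast.2 h1).trans (fH_dvd_wH q ha)
  ar2 := by
    intro U hU
    haveI := isOp_img hU
    obtain ⟨π, hπ, hw⟩ := exists_wH_eq_fH q (img q U)
    refine ⟨toAL q π, (toAL_mem_fixA_iff U π).2 hπ, ?_, ?_⟩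
    · rw [vAL_nmTop q hU hπ, hw]
      exact_mod_cast (fH_pos q (img q U)).ne'
    · intro r hr
      rw [vAL_nmTop q hU hπ, hw, zsmul_eq_zero_iff_addOrderOf_dvd, Int.natCast_dvd_natCast] at hr
      exact (img_le_fixMu_iff q U r).1
        ((le_fixMu_iff q (img q U) (addOrderOf_QZ_pos r)).2 hr)
  ar3 := by
    intro U hU a ha hv r V hV
    obtain ⟨x, rfl⟩ := (toAL q).surjective a
    rw [toAL_mem_fixA_iff] at ha
    haveI := isOp_img hU
    haveI : NeZero (addOrderOf r) := ⟨(addOrderOf_QZ_pos r).ne'⟩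
    rw [vAL_nmTop q hU ha, wH_eq_zero_iff q ha] at hv
    have hVc : V = (img q U ⊓ fixMu q (addOrderOf r)).comap (ιv q) := by
      ext γ
      rw [hV, Subgroup.mem_comap, Subgroup.mem_inf, ← chiG_eq_zero_iff (ιv_mem_Dq q γ),
        ← Subgroup.mem_comap, comap_img hU]
    have hVo : IsOpenSub q V := by
      rw [hVc]
      exact isOpenSub_comap _
    have hVi : img q V = img q U ⊓ fixMu q (addOrderOf r) := by
      rw [hVc]
      exact img_comap _
    obtain ⟨b, hb, hbx⟩ := exists_nm_eq_of_isU q (addOrderOf r) ha hv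
    rw [← hVi] at hb hbx
    exact ⟨toAL q b, (toAL_mem_fixA_iff V b).2 hb, by rw [nmA_toAL hVo U hb, hbx]⟩
  ar4 := by
    intro U V hV hVU hn ℓ hℓ hidx
    have hU : IsOpenSub q U := by
      obtain ⟨N, hN, hNV⟩ := hV
      exact ⟨N, hN, hNV.trans hVU⟩
    haveI := isOp_img hU
    haveI := isOp_img hV
    haveI : Fact (img q V ≤ img q U) := ⟨img_le_img hVU⟩
    rw [relIndex_normSub hV U]
    exact relIndex_map_nm q (img q V) (img q U) (normal_subgroupOf_img hVU hn) ℓ hℓ
      (by rw [relIndex_img hV U, hidx])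

end Fermat.Agent.S55.Loc.Field
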