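/-
S55 / LOC-F : section `ArithFields` (Γ side: the facts about `localInput q` wanted by
`Loc/PkgDefs.lean` (`LocalArith`) and by `Loc/L6Inst.lean` (`Compat`)).  Proofs: helper256.
-/
import Fermat.Agent.S55.Loc.Field.Input
import Fermat.Agent.S55.Loc.Field.Inertia
import Fermat.Agent.S55.Loc.PkgDefs
import Fermat.Agent.S55.Loc.Coh.QZ

set_option autoImplicit false

namespace Fermat.Agent.S55.Loc.Field

open Fermat.Agent.S55.Loc

variable (q : Nat.Primes)

theorem localInput_chi (r : QZ) (γ : Gv q) : (localInput q).chi r γ = chiG q r (ιv q γ) := rfl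

theorem localInput_v (a : AL q) : (localInput q).v a = vAL q a := rfl

/-- an element of `ℚ/ℤ` of order `n`. -/
private theorem arithFields_exists_order {n : ℕ} (hn : 0 < n) : ∃ r : QZ, addOrderOf r = n :=
  ⟨_, QZ.addOrderOf_toQZ_inv n hn⟩

theorem localInput_inertia : (localInput q).inertia = inertiaLoc q := by
  ext γ
  have hD := ιv_mem_Dq q γ
  show (∀ r, chiG q r (ιv q γ) = 0) ↔ ιv q γ ∈ Iq q
  rw [mem_Iq_iff]
  constructor
  · intro h
    refine ⟨hD, fun n hn => ?_⟩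
    obtain ⟨r, hr⟩ := arithFields_exists_order hn
    have := (chiG_eq_zero_iff hD r).mp (h r)
    rwa [hr] at this
  · rintro ⟨-, h⟩ r
    exact (chiG_eq_zero_iff hD r).mpr (h _ (addOrderOf_QZ_pos r))

theorem isFrobLoc_frob : IsFrobLoc q (localInput q).frob := by
  have hD := ιv_mem_Dq q (localInput q).frob
  refine isFrobeniusAt_of_isExp hD fun n hn => ?_
  obtain ⟨r, hr⟩ := arithFields_exists_order hn
  have h1 : chiG q r (ιv q (localInput q).frob) = r := (localInput q).chi_frob r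
  have h2 : expo q (ιv q (localInput q).frob) n • r = 1 • r := by
    rw [one_nsmul]
    unfold chiG at h1
    rwa [hr] at h1
  have h3 : expo q (ιv q (localInput q).frob) n ≡ 1 [MOD n] := by
    rw [← hr]
    rw [← hr] at h2
    exact nsmul_eq_nsmul_iff_modEq.mp h2
  exact (isExp_expo hD hn).of_modEq h3

variable {q}

theorem localInput_chi_of_isFrobLoc {φ : Gv q} (h : IsFrobLoc q φ) (r : QZ) :
    (localInput q).chi r φ = r := by
  have hn := addOrderOf_QZ_pos r
  show chiG q r (ιv q φ) = r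
  rw [chiG_eq (ιv_mem_Dq q φ) hn (addOrderOf_nsmul_eq_zero r) (isExp_one_of_isFrobeniusAt h hn),
    one_nsmul]

theorem localInput_chi_of_mem_inertiaLoc {τ : Gv q} (h : τ ∈ inertiaLoc q) (r : QZ) :
    (localInput q).chi r τ = 0 := by
  rw [← localInput_inertia] at h
  exact h r

theorem dense_of_isFrobLoc {φ : Gv q} (h : IsFrobLoc q φ) :
    ∀ N ∈ (lvlLoc q).carrier, ∀ g : Gv q, ∃ i : ℕ, ∃ τ ∈ inertiaLoc q, ∃ ν ∈ N,
      g = φ ^ i * τ * ν := by
  rintro _ ⟨_, ⟨F, hF, -, rfl⟩, rfl⟩ g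
  obtain ⟨i, τ', hτ', hmem⟩ := exists_pow_mul_of_frob h F hF (ιv_mem_Dq q g)
  have hr : τ' ∈ (ιv q).range := by
    rw [range_ιv]
    exact Iq_le_Dq hτ'
  obtain ⟨τ, rfl⟩ := hr
  refine ⟨i, τ, hτ', (φ ^ i * τ)⁻¹ * g, ?_, by group⟩
  show ιv q ((φ ^ i * τ)⁻¹ * g) ∈ F.fixingSubgroup
  rw [map_mul, map_inv, map_mul, map_pow]
  exact hmem

theorem localInput_v_of_hasOrdAt {x : KL q} {c : ℤ}
    (h : HasOrdAt q ((ResMod.toRes (ιv q)).symm x) c) : (localInput q).v x = c := by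
  have hq0 : ((q : ℕ) : Qb) ≠ 0 := Nat.cast_ne_zero.2 q.2.ne_zero
  have hv0 : (plc q).valuation ((q : ℕ) : Qb) ^ c ≠ 0 :=
    zpow_ne_zero _ ((Valuation.ne_zero_iff _).2 hq0)
  show ordQ q ((((toAL q).symm x : Qbˣ)) : Qb) = c
  apply ordQ_eq_of_isU
  unfold IsU
  rw [map_div₀, map_zpow₀, div_eq_one_iff_eq hv0]
  exact h

variable (q)

theorem localInput_isDense : (localInput q).IsDense := by
  intro N hN g
  obtain ⟨i, τ, hτ, ν, hν, hg⟩ := dense_of_isFrobLoc (isFrobLoc_frob q) N hN g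
  exact ⟨i, τ, by rw [localInput_inertia]; exact hτ, ν, hν, hg⟩

theorem localInput_frob_spec :
    ∀ φ : Gv q, IsFrobLoc q φ → ∃ τ ∈ inertiaLoc q, φ = (localInput q).frob * τ := by
  intro φ hφ
  refine ⟨(localInput q).frob⁻¹ * φ, ?_, by group⟩
  show ιv q ((localInput q).frob⁻¹ * φ) ∈ Iq q
  rw [map_mul, map_inv]
  exact inv_mul_mem_Iq (isFrobLoc_frob q) hφ

theorem hasOrdAt_smul {x : KL q} {c : ℤ} (γ : Gv q)
    (h : HasOrdAt q ((ResMod.toRes (ιv q)).symm x) c) :
    HasOrdAt q ((ResMod.toRes (ιv q)).symm (γ • x)) c := by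
  unfold HasOrdAt at h ⊢
  rw [← h]
  exact valuation_apply (ιv_mem_Dq q γ) _

private theorem arithFields_hasOrdAt_zero : HasOrdAt q 0 0 := by
  unfold HasOrdAt
  rw [Kx.val_zero, map_one, zpow_zero]

private theorem arithFields_hasOrdAt_add {x y : Kx} {c d : ℤ} (hx : HasOrdAt q x c)
    (hy : HasOrdAt q y d) : HasOrdAt q (x + y) (c + d) := by
  have hq0 : ((q : ℕ) : Qb) ≠ 0 := Nat.cast_ne_zero.2 q.2.ne_zero
  unfold HasOrdAt at hx hy ⊢
  rw [Kx.val_add, map_mul, hx, hy, zpow_add₀ ((Valuation.ne_zero_iff _).2 hq0)]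

private theorem arithFields_hasOrdAt_sum {Y : Type} (s : Finset Y) (f : Y → Kx) (c : ℤ)
    (h : ∀ y ∈ s, HasOrdAt q (f y) c) : HasOrdAt q (∑ y ∈ s, f y) (s.card * c) := by
  classical
  induction s using Finset.induction_on with
  | empty =>
    simpa using arithFields_hasOrdAt_zero q
  | insert a s ha ih =>
    rw [Finset.sum_insert ha, Finset.card_insert_of_notMem ha]
    have h1 := arithFields_hasOrdAt_add q (h a (Finset.mem_insert_self a s))
      (ih fun y hy => h y (Finset.mem_insert_of_mem hy))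
    have e : ((s.card + 1 : ℕ) : ℤ) * c = c + s.card * c := by push_cast; ring
    rw [e]
    exact h1

theorem localInput_v_sum (Y : Type) [MulAction (Gv q) Y] [Finite Y] [SmoothSet (lvlLoc q) Y]
    [MulAction.IsPretransitive (Gv q) Y] (a : inv0 (Gv q) (IndMod Y (KL q))) (y : Y) (c : ℤ)
    (h : HasOrdAt q ((ResMod.toRes (ιv q)).symm ((a : IndMod Y (KL q)) y)) c) :
    (localInput q).v (IndMod.sum (G := Gv q) Y (KL q) (a : IndMod Y (KL q))) = Nat.card Y * c := by
  have hall : ∀ y' : Y, HasOrdAt q ((ResMod.toRes (ιv q)).symm ((a : IndMod Y (KL q)) y')) c := by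
    intro y'
    obtain ⟨γ, rfl⟩ := MulAction.exists_smul_eq (Gv q) y y'
    have h1 := congrArg (fun F : IndMod Y (KL q) => F (γ • y)) (a.2 γ)
    simp only [IndMod.smul_apply, inv_smul_smul] at h1
    rw [← h1]
    exact hasOrdAt_smul q γ h
  have := Fintype.ofFinite Y
  apply localInput_v_of_hasOrdAt
  have e : IndMod.sum (G := Gv q) Y (KL q) (a : IndMod Y (KL q)) =
      ∑ y' : Y, (a : IndMod Y (KL q)) y' := finsum_eq_sum_of_fintype _
  rw [e, map_sum, Nat.card_eq_fintype_card, ← Finset.card_univ]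
  exact arithFields_hasOrdAt_sum q Finset.univ _ c fun y' _ => hall y'

end Fermat.Agent.S55.Loc.Field
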