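/-
S55 / LOC-F : section `PowIdx` (L8 on the GQ side: the index of the `p`-th powers in
`fixH H = (kF H)ˣ` when `μ_p ⊆ kF H`).  Task 2026, proofs helper196.
-/
import Fermat.Agent.S55.Loc.Field.OrdComp
import Fermat.Agent.S55.Loc.Arith.FieldIndex
import Fermat.Agent.S55.Loc.Arith.FreeRank

set_option autoImplicit false
set_option linter.style.haveILetI false

namespace Fermat.Agent.S55.Loc.Field

open Fermat.Agent.S55.Loc

variable (q : Nat.Primes) (H : Subgroup GQ) [IsOp q H] (p : ℕ)

theorem card_quot_base (hp : p.Prime) :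
    Nat.card (oF q (Dq q) ⧸ Ideal.span {(p : oF q (Dq q))}) = if (q : ℕ) = p then p else 1 := by
  split_ifs with h
  · rw [← h, ← maximalIdeal_base]
    exact card_residueField_base q
  · have hu : IsUnit (p : oF q (Dq q)) := by
      rw [BaseDVR_isUnit_iff, isU_iff_not_mem_nonunits]
      have e : ((((p : oF q (Dq q))) : kF (Dq q)) : Qb) = (p : Qb) := by simp
      rw [e]
      refine ⟨?_, ?_⟩
      · exact natCast_mem (plc q) p
      · rw [natCast_mem_nonunits_iff]
        intro hd
        exact h ((Nat.prime_dvd_prime_iff_eq q.2 hp).1 hd)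
    rw [Ideal.span_singleton_eq_top.2 hu]
    haveI : Subsingleton (oF q (Dq q) ⧸ (⊤ : Ideal (oF q (Dq q)))) :=
      Ideal.Quotient.subsingleton_iff.2 rfl
    exact Nat.card_unique

theorem card_quot_oF (hp : p.Prime) :
    Nat.card (oF q H ⧸ Ideal.span {(p : oF q H)}) =
      if (q : ℕ) = p then p ^ H.relIndex (Dq q) else 1 := by
  haveI := finiteDimensional_kF q H (Dq q)
  haveI : IsScalarTower (oF q (Dq q)) (oF q H) (kF H) := towerOOK q
  rw [Arith.card_quot_span_natCast (oF q (Dq q)) (kF (Dq q)) (oF q H) (kF H) p,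
    finrank_kF q H (Dq q), card_quot_base q p hp]
  split_ifs <;> simp

private theorem PowIdx_index_eq {G G' : Type*} [CommGroup G] [CommGroup G'] (e : G ≃* G') (p : ℕ) :
    (powMonoidHom p : G →* G).range.index = (powMonoidHom p : G' →* G').range.index := by
  have h : (powMonoidHom p : G →* G).range.map (e : G →* G') =
      (powMonoidHom p : G' →* G').range := by
    ext y
    constructor
    · rintro ⟨_, ⟨x, rfl⟩, rfl⟩
      exact ⟨e x, (map_pow e x p).symm⟩
    · rintro ⟨y, rfl⟩
      exact ⟨(e.symm y) ^ p, ⟨e.symm y, rfl⟩, by simp⟩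
  rw [← h, Subgroup.index_map_equiv]

/-- L8 on the GQ side. -/
theorem index_pow_fixH (hp : p.Prime) (hμ : ∀ ζ : Qb, ζ ^ p = 1 → ζ ∈ kF H) :
    (powMonoidHom p : fixH H →* fixH H).range.index =
      p ^ (2 + if (q : ℕ) = p then H.relIndex (Dq q) else 0) := by
  obtain ⟨ζ, hζ⟩ : ∃ ζ : Qb, IsPrimitiveRoot ζ p := by
    haveI : NeZero (p : Qb) := ⟨by exact_mod_cast hp.ne_zero⟩
    exact HasEnoughRootsOfUnity.exists_primitiveRoot Qb p
  let ζ' : kF H := ⟨ζ, hμ ζ hζ.pow_eq_one⟩
  have hζ' : IsPrimitiveRoot ζ' p :=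
    IsPrimitiveRoot.of_map_of_injective (f := (kF H).val) hζ (kF H).val.injective
  have h1 := Arith.index_range_pow_field_of_primitiveRoot (oF q H) (kF H) p hp.pos hζ'
  rw [PowIdx_index_eq (fixEquiv H) p, h1, card_quot_oF q H p hp, pow_add]
  split_ifs <;> simp

end Fermat.Agent.S55.Loc.Field
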