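/-
S55 / LOC-F : section `L8` (field `L8` of `LocPkg` / `LocalArith`: the index of `p`-th
powers in `H^0_q(K_Y)`, `Y` a transitive `Gv q`-set whose stabilisers fix `μ_p`).
-/
import Fermat.Agent.S55.Loc.Field.PowIdx
import Fermat.Agent.S55.Loc.Field.Trans
import Fermat.Agent.S55.Loc.PkgDefs

set_option autoImplicit false

namespace Fermat.Agent.S55.Loc.Field

open Fermat.Agent.S55.Loc

/-! ### Invariant functions on a transitive set -/

section general

variable {G : Type} [Group G] {A : Type} [AddCommGroup A] [DistribMulAction G A]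
  {Y : Type} [MulAction G Y]

private theorem L8_apply_smul (a : inv0 G (IndMod Y A)) (g : G) (y : Y) :
    (a : IndMod Y A) (g • y) = g • (a : IndMod Y A) y := by
  have h1 := congrArg (fun f : IndMod Y A => f (g • y)) (mem_inv0.1 a.2 g)
  simp only [IndMod.smul_apply, inv_smul_smul] at h1
  exact h1.symm

/-- evaluation at `y`. -/
private def L8_ev (y : Y) : inv0 G (IndMod Y A) →+ fixA A (MulAction.stabilizer G y) where
  toFun a := ⟨(a : IndMod Y A) y, fun u hu => by
    have h := L8_apply_smul a u y
    rw [MulAction.mem_stabilizer_iff.1 hu] at h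
    exact h.symm⟩
  map_zero' := rfl
  map_add' _ _ := rfl

private theorem L8_ev_bijective [MulAction.IsPretransitive G Y] (y : Y) :
    Function.Bijective (L8_ev (G := G) (A := A) y) := by
  constructor
  · intro a b h
    have h' : (a : IndMod Y A) y = (b : IndMod Y A) y := congrArg Subtype.val h
    apply Subtype.ext
    ext x
    obtain ⟨g, rfl⟩ := MulAction.exists_smul_eq G y x
    rw [L8_apply_smul, L8_apply_smul, h']
  · intro b
    have hex : ∀ x : Y, ∃ g : G, g • y = x := fun x => MulAction.exists_smul_eq G y x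
    choose s hs using hex
    have key : ∀ g g' : G, g • y = g' • y → g • (b : A) = g' • (b : A) := by
      intro g g' h
      have h1 : g'⁻¹ * g ∈ MulAction.stabilizer G y := by
        rw [MulAction.mem_stabilizer_iff, mul_smul, h, inv_smul_smul]
      have h2 := b.2 _ h1
      rw [mul_smul, inv_smul_eq_iff] at h2
      exact h2
    refine ⟨⟨IndMod.of fun x => s x • (b : A), ?_⟩, ?_⟩
    · rw [mem_inv0]
      intro g
      ext x
      show g • (s (g⁻¹ • x) • (b : A)) = s x • (b : A)
      rw [smul_smul]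
      apply key
      rw [mul_smul, hs, hs, smul_inv_smul]
    · apply Subtype.ext
      show s y • (b : A) = b
      have := key (s y) 1 (by rw [hs, one_smul])
      rw [this, one_smul]

private theorem L8_index_range_nsmul {M M' : Type} [AddCommGroup M] [AddCommGroup M'] (e : M ≃+ M')
    (p : ℕ) : (nsmulAddMonoidHom (α := M) p).range.index =
      (nsmulAddMonoidHom (α := M') p).range.index := by
  have h : (nsmulAddMonoidHom (α := M') p).range =
      (nsmulAddMonoidHom (α := M) p).range.map (e : M →+ M') := by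
    ext x
    constructor
    · rintro ⟨z, rfl⟩
      refine ⟨p • e.symm z, ⟨e.symm z, rfl⟩, ?_⟩
      show e (p • e.symm z) = p • z
      rw [map_nsmul, AddEquiv.apply_symm_apply]
    · rintro ⟨_, ⟨z, rfl⟩, rfl⟩
      refine ⟨e z, ?_⟩
      show p • e z = e (p • z)
      rw [map_nsmul]
  rw [h, AddSubgroup.index_map_equiv]

private theorem L8_index_additive {N : Type} [CommGroup N] (p : ℕ) :
    (nsmulAddMonoidHom (α := Additive N) p).range.index =
      (powMonoidHom p : N →* N).range.index := by
  have h : (nsmulAddMonoidHom (α := Additive N) p).range =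
      Subgroup.toAddSubgroup (powMonoidHom p : N →* N).range := by
    ext x
    constructor
    · rintro ⟨z, rfl⟩
      exact ⟨Additive.toMul z, rfl⟩
    · rintro ⟨z, hz⟩
      exact ⟨Additive.ofMul z, hz⟩
  rw [h]
  rfl

end general

/-- `A^U = (kF (img U))ˣ`. -/
private noncomputable def L8_fixEquiv (q : Nat.Primes) (U : Subgroup (Gv q)) :
    fixA (KL q) U ≃+ Additive (fixH (img q U)) where
  toFun a := Additive.ofMul ⟨(toAL q).symm (a : KL q), (toAL_mem_fixA_iff U _).1 (by
    rw [Equiv.apply_symm_apply]; exact a.2)⟩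
  invFun x := ⟨toAL q ((Additive.toMul x : fixH (img q U)) : Qbˣ),
    (toAL_mem_fixA_iff U _).2 (Additive.toMul x).2⟩
  left_inv a := Subtype.ext (Equiv.apply_symm_apply _ _)
  right_inv x := rfl
  map_add' _ _ := rfl

variable (q : Nat.Primes) (Y : Type) [MulAction (Gv q) Y] [Finite Y] [SmoothSet (lvlLoc q) Y]
  [MulAction.IsPretransitive (Gv q) Y]

theorem isOpenSub_stabilizer (y : Y) : IsOpenSub q (MulAction.stabilizer (Gv q) y) :=
  SmoothSet.isOpen_stabilizer (lvlLoc q) y

theorem relIndex_img_stabilizer (y : Y) :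
    (img q (MulAction.stabilizer (Gv q) y)).relIndex (Dq q) = Nat.card Y := by
  rw [← img_top, relIndex_img (isOpenSub_stabilizer q Y y), Subgroup.relIndex_top_right,
    MulAction.index_stabilizer_of_transitive]

/-- evaluation at `y`: `H^0_q(K_Y) ≃ (kF H)ˣ`, `H` the image of the stabiliser of `y`. -/
theorem exists_H0_equiv (y : Y) :
    Nonempty (HKY q Y 0 ≃+ Additive (fixH (img q (MulAction.stabilizer (Gv q) y)))) :=
  ⟨(Hsm.H0equiv.trans (AddEquiv.ofBijective (L8_ev y) (L8_ev_bijective y))).trans
    (L8_fixEquiv q _)⟩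

theorem L8_field (p : ℕ) (hp : p.Prime) (y : Y)
    (h : ∀ τ : Gv q, τ • y = y → ∀ ζ : Mu p, ιv q τ • ζ = ζ) :
    (nsmulAddMonoidHom (α := HKY q Y 0) p).range.index =
      p ^ (2 + if (q : ℕ) = p then Nat.card Y else 0) := by
  obtain ⟨e⟩ := exists_H0_equiv q Y y
  have := isOp_img (isOpenSub_stabilizer q Y y)
  rw [L8_index_range_nsmul e, L8_index_additive,
    index_pow_fixH q (img q (MulAction.stabilizer (Gv q) y)) p hp ?_,
    relIndex_img_stabilizer]
  intro ζ hζ
  have hζ0 : ζ ≠ 0 := by
    rintro rfl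
    rw [zero_pow hp.ne_zero] at hζ
    exact zero_ne_one hζ
  have hx : (Additive.ofMul (Units.mk0 ζ hζ0) : Kx) ∈ (muSub p).toAddSubgroup := by
    show p • (Additive.ofMul (Units.mk0 ζ hζ0) : Kx) = 0
    rw [← ofMul_pow]
    have : (Units.mk0 ζ hζ0) ^ p = 1 := Units.ext (by simpa using hζ)
    rw [this]
    rfl
  rw [mem_kF]
  rintro _ ⟨τ, hτ, rfl⟩
  have h1 := h τ (MulAction.mem_stabilizer_iff.1 hτ) ((muSub p).mkMod _ hx)
  have h2 := congrArg (fun m : Mu p => ((muSub p).incl m).val) h1
  exact h2

end Fermat.Agent.S55.Loc.Field
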