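/-
S55 / LOC-F : the term `localArith p hp q h7 : LocalArith p q` (assembly), with the field `L7`
(block `Loc/Unr`) as a hypothesis.
-/
import Fermat.Agent.S55.Loc.Field.ArithFields
import Fermat.Agent.S55.Loc.Field.L8

set_option autoImplicit false

namespace Fermat.Agent.S55.Loc.Field

open Fermat.Agent.S55.Loc

/-- The statement of field `L7`. -/
def L7Stmt (q : Nat.Primes) : Prop :=
  ∀ (Y : Type) [MulAction (Gv q) Y] [Finite Y] [SmoothSet (lvlLoc q) Y]
    (z : Zsm (lvlLoc q) (IndMod Y (KL q)) 2) (N : Subgroup (Gv q)),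
    inertiaLoc q ≤ N → IsLevelAt N z.1 → (∀ τ ∈ inertiaLoc q, ∀ y : Y, τ • y = y) →
    (∀ g y, Kx.IsUnitAt (Fermat.Agent.S55.plc q) ((ResMod.toRes (ιv q)).symm (z.1 g y))) →
    Hsm.mk (lvlLoc q) (IndMod Y (KL q)) 2 z = 0

/-- THE CONCRETE LAYER. -/
noncomputable def localArith (p : ℕ) (hp : p.Prime) (q : Nat.Primes) (h7 : L7Stmt q) :
    LocalArith p q where
  I := localInput q
  dense := localInput_isDense q
  inertia_le := (localInput_inertia q).le
  le_inertia := (localInput_inertia q).ge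
  frob_spec := localInput_frob_spec q
  v_sum := fun Y _ _ _ _ a y c h => localInput_v_sum q Y a y c h
  L1 := fun Y _ _ hs y => by
    have : SmoothSet (lvlAll.comap (ιv q)) Y := hs
    exact hilbert90_ind (ιv q) Y y
  L7 := fun Y _ _ _ z N h1 h2 h3 h4 => h7 Y z N h1 h2 h3 h4
  L8 := fun Y _ _ _ _ y h => L8_field q Y p hp y h

end Fermat.Agent.S55.Loc.Field
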