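/-
S55 / LOC-F : `localArithFull p hp q : LocalArith p q` (assembly of `localArith` with the field `L7`
of block `Loc/Unr`).
-/
import Fermat.Agent.S55.Loc.Field.LocalArith
import Fermat.Agent.S55.Loc.Unr.Export

set_option autoImplicit false

namespace Fermat.Agent.S55.Loc.Field

open Fermat.Agent.S55.Loc

theorem L7_holds (q : Nat.Primes) : L7Stmt q := fun Y _ _ _ z N h1 h2 h3 h4 =>
  L7_of_localInput q (localInput q) (localInput_isDense q) (localInput_inertia q).le
    (localInput_inertia q).ge (fun Y _ _ _ _ a y c h => localInput_v_sum q Y a y c h)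
    (fun Y _ _ hs y => by
      have : SmoothSet (lvlAll.comap (ιv q)) Y := hs
      exact hilbert90_ind (ιv q) Y y) Y z N h1 h2 h3 h4

noncomputable def localArithFull (p : ℕ) (hp : p.Prime) (q : Nat.Primes) : LocalArith p q :=
  localArith p hp q (L7_holds q)

end Fermat.Agent.S55.Loc.Field
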